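import Fermat.Agent.TwelfthMoment.NonStationary
import Mathlib.Analysis.Calculus.BumpFunction.InnerProduct
import Mathlib.Analysis.SpecialFunctions.Log.Deriv
import Mathlib.Analysis.SpecialFunctions.Sqrt

/-!
# The phase and the amplitude of the dual sum

The phase is `τ log (1 + 1/u) + ν u`. The amplitude
`cutW (α u) cutW (α u + β) η (G log (1 + 1/u)) / √(u (u + 1))` vanishes for `u ≤ G` and `u ≥ 2/α`,
and on `[1, ∞)` its `j`-th derivative is `O (u ^ (-1 - j))` with a constant free of `G`, `α`, `β`.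
-/

set_option autoImplicit false

noncomputable section

namespace FA.TwelfthMoment

open Filter Set
open scoped Real Topology ContDiff

/-- `log (1 + 1/u)`. -/
def logStep (u : ℝ) : ℝ := Real.log (1 + 1 / u)

/-- The phase, in turns. -/
def phaseFn (τ ν u : ℝ) : ℝ := τ * logStep u + ν * u

/-- Its derivative. -/
def phaseD (τ ν u : ℝ) : ℝ := ν - τ / (u * (u + 1))

/-- Its second derivative. -/
def phaseDD (τ u : ℝ) : ℝ := τ * (2 * u + 1) / (u * (u + 1)) ^ 2

/-- Its third derivative. -/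
def phaseDDD (τ u : ℝ) : ℝ := -(2 * τ * (3 * u ^ 2 + 3 * u + 1)) / (u * (u + 1)) ^ 3

theorem hasDerivAt_logStep {u : ℝ} (hu : 0 < u) :
    HasDerivAt logStep (-(1 / (u * (u + 1)))) u := by
  have h1 : HasDerivAt (fun v : ℝ => 1 + 1 / v) (-(1 / u ^ 2)) u := by
    simpa [one_div] using (hasDerivAt_inv hu.ne').const_add (1 : ℝ)
  refine (h1.log (by positivity)).congr_deriv ?_
  field_simp

theorem hasDerivAt_mul_succ (u : ℝ) : HasDerivAt (fun v : ℝ => v * (v + 1)) (2 * u + 1) u := by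
  refine ((hasDerivAt_id' u).mul ((hasDerivAt_id' u).add_const (1 : ℝ))).congr_deriv ?_
  ring

theorem hasDerivAt_phaseFn (τ ν : ℝ) {u : ℝ} (hu : 0 < u) :
    HasDerivAt (phaseFn τ ν) (phaseD τ ν u) u := by
  refine (((hasDerivAt_logStep hu).const_mul τ).add
    ((hasDerivAt_id' u).const_mul ν)).congr_deriv ?_
  rw [phaseD]; ring

theorem hasDerivAt_phaseD (τ ν : ℝ) {u : ℝ} (hu : 0 < u) :
    HasDerivAt (phaseD τ ν) (phaseDD τ u) u := by
  refine (((hasDerivAt_const u τ).div (hasDerivAt_mul_succ u) (by positivity)).const_sub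
    ν).congr_deriv ?_
  rw [phaseDD]
  simp
  ring

theorem hasDerivAt_phaseDD (τ : ℝ) {u : ℝ} (hu : 0 < u) :
    HasDerivAt (phaseDD τ) (phaseDDD τ u) u := by
  refine (((((hasDerivAt_id' u).const_mul 2).add_const (1 : ℝ)).const_mul τ).div
    ((hasDerivAt_mul_succ u).pow 2) (by simp only [Pi.pow_apply]; positivity)).congr_deriv ?_
  rw [phaseDDD]
  simp only [Pi.pow_apply]
  push_cast
  field_simp
  ring

theorem continuousOn_phaseDDD (τ : ℝ) : ContinuousOn (phaseDDD τ) (Ioi 0) := by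
  unfold phaseDDD
  exact ContinuousOn.div (by fun_prop) (by fun_prop) fun u hu => by
    have : (0 : ℝ) < u := hu
    positivity

theorem phaseDD_pos {τ u : ℝ} (hτ : 0 < τ) (hu : 0 < u) : 0 < phaseDD τ u := by
  rw [phaseDD]; positivity

theorem abs_phaseDD_le {τ u : ℝ} (hτ : 0 ≤ τ) (hu : 0 < u) :
    |phaseDD τ u| ≤ 2 * (τ / (u * (u + 1))) / u := by
  rw [phaseDD, abs_of_nonneg (by positivity), mul_div_assoc', div_div,
    div_le_div_iff₀ (by positivity) (by positivity)]
  have : 0 ≤ τ * u ^ 2 * (u + 1) := by positivity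
  nlinarith

theorem abs_phaseDDD_le {τ u : ℝ} (hτ : 0 ≤ τ) (hu : 0 < u) :
    |phaseDDD τ u| ≤ 8 * (τ / (u * (u + 1))) / u ^ 2 := by
  rw [phaseDDD, neg_div, abs_neg, abs_of_nonneg (by positivity), mul_div_assoc', div_div,
    div_le_div_iff₀ (by positivity) (by positivity)]
  have h1 : 3 * u ^ 2 + 3 * u + 1 ≤ 4 * (u + 1) ^ 2 := by nlinarith
  have h2 : 0 ≤ 2 * τ * (u ^ 3 * (u + 1)) := by positivity
  have := mul_le_mul_of_nonneg_left h1 h2
  linarith

theorem inv_succ_le_logStep {u : ℝ} (hu : 0 < u) : 1 / (u + 1) ≤ logStep u := by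
  have h := Real.one_sub_inv_le_log_of_pos (show (0 : ℝ) < 1 + 1 / u by positivity)
  refine le_trans (le_of_eq ?_) h
  field_simp
  ring

theorem logStep_le {u : ℝ} (hu : 0 < u) : logStep u ≤ 1 / u := by
  have h := Real.log_le_sub_one_of_pos (show (0 : ℝ) < 1 + 1 / u by positivity)
  rw [logStep]; linarith

theorem logStep_nonneg {u : ℝ} (hu : 0 < u) : 0 ≤ logStep u :=
  (one_div_pos.2 (by linarith : 0 < u + 1)).le.trans (inv_succ_le_logStep hu)

/-- The cut-off: one on `[-1, 1]`, zero outside `[-2, 2]`. -/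
def cutBump : ContDiffBump (0 : ℝ) where
  rIn := 1
  rOut := 2
  rIn_pos := by norm_num
  rIn_lt_rOut := by norm_num

/-- The cut-off as a function. -/
def cutW : ℝ → ℝ := cutBump

theorem contDiff_cutW : ContDiff ℝ ∞ cutW := cutBump.contDiff

theorem cutW_eq_one {x : ℝ} (h : |x| ≤ 1) : cutW x = 1 :=
  cutBump.one_of_mem_closedBall (by
    rw [Metric.mem_closedBall, Real.dist_eq, sub_zero]
    exact h)

theorem cutW_eq_zero {x : ℝ} (h : 2 ≤ |x|) : cutW x = 0 :=
  cutBump.zero_of_le_dist (by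
    rw [Real.dist_eq, sub_zero]
    exact h)

theorem cutW_nonneg (x : ℝ) : 0 ≤ cutW x := cutBump.nonneg

theorem cutW_le_one (x : ℝ) : cutW x ≤ 1 := cutBump.le_one

theorem abs_cutW_le_one (x : ℝ) : |cutW x| ≤ 1 := by
  rw [abs_of_nonneg (cutW_nonneg x)]; exact cutW_le_one x

theorem deriv_eq_zero_of_eventually_const {g : ℝ → ℝ} {x c : ℝ} (h : g =ᶠ[𝓝 x] fun _ => c) :
    deriv g x = 0 ∧ deriv (deriv g) x = 0 := by
  have h1 : deriv g =ᶠ[𝓝 x] fun _ => (0 : ℝ) := by
    filter_upwards [h.eventuallyEq_nhds] with y hy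
    rw [hy.deriv_eq, deriv_const]
  exact ⟨h1.self_of_nhds, by rw [h1.deriv_eq, deriv_const]⟩

theorem deriv_cutW_zero {x : ℝ} (h : 2 < |x|) : deriv cutW x = 0 ∧ deriv (deriv cutW) x = 0 :=
  deriv_eq_zero_of_eventually_const (c := 0) (by
    filter_upwards [(isOpen_lt continuous_const continuous_abs).mem_nhds h] with y hy
      using cutW_eq_zero (le_of_lt hy))

theorem deriv_cutW_zero' {x : ℝ} (h : |x| < 1) : deriv cutW x = 0 ∧ deriv (deriv cutW) x = 0 :=
  deriv_eq_zero_of_eventually_const (c := 1) (by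
    filter_upwards [(isOpen_lt continuous_abs continuous_const).mem_nhds h] with y hy
      using cutW_eq_one (le_of_lt hy))

theorem contDiff_deriv {g : ℝ → ℝ} (hg : ContDiff ℝ ∞ g) : ContDiff ℝ ∞ (deriv g) :=
  (contDiff_infty_iff_deriv.1 hg).2

theorem hasDerivAt_of_smooth {g : ℝ → ℝ} (hg : ContDiff ℝ ∞ g) (x : ℝ) :
    HasDerivAt g (deriv g x) x := ((hg.differentiable (by simp)) x).hasDerivAt

theorem exists_bound_of_support {g : ℝ → ℝ} (hg : ContDiff ℝ ∞ g) {r : ℝ}
    (hz : ∀ x, r < |x| → g x = 0) : ∃ C, 0 ≤ C ∧ ∀ x, |g x| ≤ C := by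
  obtain ⟨C, hC⟩ := (isCompact_Icc (a := -r) (b := r)).exists_bound_of_continuousOn
    hg.continuous.continuousOn
  refine ⟨max C 0, le_max_right _ _, fun x => ?_⟩
  rcases le_or_gt |x| r with h | h
  · exact le_max_of_le_left (hC x (abs_le.1 h))
  · rw [hz x h, abs_zero]; exact le_max_right _ _

theorem exists_cutW_bounds : ∃ C, 1 ≤ C ∧ ∀ x,
    |deriv cutW x| ≤ C ∧ |deriv (deriv cutW) x| ≤ C := by
  obtain ⟨C₁, hC₁, h₁⟩ := exists_bound_of_support (contDiff_deriv contDiff_cutW)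
    (r := 2) fun x hx => (deriv_cutW_zero hx).1
  obtain ⟨C₂, hC₂, h₂⟩ := exists_bound_of_support (contDiff_deriv (contDiff_deriv contDiff_cutW))
    (r := 2) fun x hx => (deriv_cutW_zero hx).2
  exact ⟨C₁ + C₂ + 1, by linarith, fun x => ⟨by linarith [h₁ x], by linarith [h₂ x]⟩⟩

/-- A dilate of the cut-off is a symbol of degree `0`. -/
theorem exists_symbol_cutW : ∃ C, 0 ≤ C ∧ ∀ α β : ℝ, 0 ≤ α → 0 ≤ β →
    SymbolBound 1 C 0 (fun u => cutW (α * u + β)) (fun u => α * deriv cutW (α * u + β))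
      (fun u => α ^ 2 * deriv (deriv cutW) (α * u + β)) := by
  obtain ⟨C, hC, hb⟩ := exists_cutW_bounds
  refine ⟨4 * C, by linarith, fun α β hα hβ => ?_⟩
  have hd : ∀ u : ℝ, HasDerivAt (fun v => α * v + β) α u := fun u =>
    (((hasDerivAt_id' u).const_mul α).add_const β).congr_deriv (by ring)
  have hsmall : ∀ u : ℝ, 1 ≤ u → ¬2 < |α * u + β| → α * u ≤ 2 := fun u hu h => by
    have := le_abs_self (α * u + β)
    linarith
  refine ⟨fun u _ => ((hasDerivAt_of_smooth contDiff_cutW _).comp u (hd u)).congr_deriv (by ring),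
    fun u _ => (((hasDerivAt_of_smooth (contDiff_deriv contDiff_cutW) _).comp u (hd u)).const_mul
      α).congr_deriv (by ring), ?_, fun u _ => ?_, fun u hu => ?_, fun u hu => ?_⟩
  · exact (continuous_const.mul ((contDiff_deriv (contDiff_deriv contDiff_cutW)).continuous.comp
      (by fun_prop))).continuousOn
  · rw [pow_zero, div_one]; linarith [abs_cutW_le_one (α * u + β)]
  · have hu0 : 0 < u := by linarith
    rw [zero_add, pow_one, le_div_iff₀ hu0, abs_mul, abs_of_nonneg hα]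
    rcases em (2 < |α * u + β|) with h | h
    · rw [(deriv_cutW_zero h).1, abs_zero, mul_zero, zero_mul]; linarith
    · calc α * |deriv cutW (α * u + β)| * u = α * u * |deriv cutW (α * u + β)| := by ring
        _ ≤ 2 * C := mul_le_mul (hsmall u hu h) (hb _).1 (abs_nonneg _) two_pos.le
        _ ≤ _ := by linarith
  · have hu0 : 0 < u := by linarith
    rw [zero_add, le_div_iff₀ (by positivity), abs_mul, abs_of_nonneg (by positivity)]
    rcases em (2 < |α * u + β|) with h | h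
    · rw [(deriv_cutW_zero h).2, abs_zero, mul_zero, zero_mul]; linarith
    · calc α ^ 2 * |deriv (deriv cutW) (α * u + β)| * u ^ 2
          = (α * u) ^ 2 * |deriv (deriv cutW) (α * u + β)| := by ring
        _ ≤ 2 ^ 2 * C := mul_le_mul (pow_le_pow_left₀ (by positivity) (hsmall u hu h) 2)
            (hb _).2 (abs_nonneg _) (by positivity)
        _ = _ := by ring

/-- A test function on the frequencies. -/
structure IsTest (η : ℝ → ℝ) : Prop where
  smooth : ContDiff ℝ ∞ η
  zero : ∀ x, 1 / 4 ≤ |x| → η x = 0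

theorem IsTest.deriv_zero {η : ℝ → ℝ} (hη : IsTest η) {x : ℝ} (hx : 1 / 4 < |x|) :
    deriv η x = 0 ∧ deriv (deriv η) x = 0 :=
  deriv_eq_zero_of_eventually_const (c := 0) (by
    filter_upwards [(isOpen_lt continuous_const continuous_abs).mem_nhds hx] with y hy
      using hη.zero y (le_of_lt hy))

theorem one_third_le_of_le {G u : ℝ} (hG : 1 ≤ G) (hu : 0 < u) (h : u ≤ 2 * G) :
    1 / 3 ≤ G * logStep u := by
  refine le_trans ?_ (mul_le_mul_of_nonneg_left (inv_succ_le_logStep hu) (by linarith))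
  rw [mul_one_div, div_le_div_iff₀ (by norm_num) (by linarith)]
  linarith

/-- The frequency cut is a symbol of degree `0`. -/
theorem exists_symbol_test {η : ℝ → ℝ} (hη : IsTest η) : ∃ C, 0 ≤ C ∧ ∀ G : ℝ, 1 ≤ G →
    SymbolBound 1 C 0 (fun u => η (G * logStep u))
      (fun u => deriv η (G * logStep u) * (G * -(1 / (u * (u + 1)))))
      (fun u => deriv (deriv η) (G * logStep u) * (G * -(1 / (u * (u + 1)))) ^ 2 +
        deriv η (G * logStep u) * (G * phaseDD 1 u)) := by
  obtain ⟨C₀, hC₀, h₀⟩ := exists_bound_of_support hη.smooth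
    (r := 1 / 4) fun x hx => hη.zero x hx.le
  obtain ⟨C₁, hC₁, h₁⟩ := exists_bound_of_support (contDiff_deriv hη.smooth)
    (r := 1 / 4) fun x hx => (hη.deriv_zero hx).1
  obtain ⟨C₂, hC₂, h₂⟩ := exists_bound_of_support (contDiff_deriv (contDiff_deriv hη.smooth))
    (r := 1 / 4) fun x hx => (hη.deriv_zero hx).2
  refine ⟨C₀ + C₁ + C₂, by positivity, fun G hG => ?_⟩
  have hpos : ∀ u : ℝ, 1 ≤ u → 0 < u := fun u hu => by linarith
  have hd : ∀ u : ℝ, 1 ≤ u → HasDerivAt (fun v => G * logStep v) (G * -(1 / (u * (u + 1)))) u :=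
    fun u hu => (hasDerivAt_logStep (hpos u hu)).const_mul G
  have hvan : ∀ u : ℝ, 1 ≤ u → u < 2 * G →
      deriv η (G * logStep u) = 0 ∧ deriv (deriv η) (G * logStep u) = 0 := fun u hu h => by
    have h3 := one_third_le_of_le hG (hpos u hu) h.le
    exact hη.deriv_zero (by rw [abs_of_nonneg (by linarith)]; linarith)
  have hsize : ∀ u : ℝ, 1 ≤ u → 2 * G ≤ u → G * (1 / (u * (u + 1))) ≤ 1 / (2 * u) :=
    fun u hu h => by
      rw [mul_one_div, div_le_div_iff₀ (by nlinarith) (by linarith)]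
      nlinarith
  refine ⟨fun u hu => (hasDerivAt_of_smooth hη.smooth _).comp u (hd u hu), fun u hu => ?_, ?_,
    fun u _ => ?_, fun u hu => ?_, fun u hu => ?_⟩
  · have h2 : HasDerivAt (fun v => G * -(1 / (v * (v + 1)))) (G * phaseDD 1 u) u := by
      have := hasDerivAt_phaseD 1 0 (hpos u hu)
      unfold phaseD at this
      simp only [zero_sub] at this
      exact this.const_mul G
    exact (((hasDerivAt_of_smooth (contDiff_deriv hη.smooth) _).comp u (hd u hu)).mul
      h2).congr_deriv (by simp only [Function.comp_apply]; ring)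
  · have h1 : ContinuousOn (fun u => G * logStep u) (Ici (1 : ℝ)) :=
      fun u hu => (hd u hu).continuousAt.continuousWithinAt
    have h3 : ContinuousOn (fun u => G * phaseDD 1 u) (Ici (1 : ℝ)) :=
      fun u hu => ((hasDerivAt_phaseDD 1 (hpos u hu)).const_mul G).continuousAt.continuousWithinAt
    have h4 : ContinuousOn (fun u : ℝ => G * -(1 / (u * (u + 1)))) (Ici (1 : ℝ)) :=
      continuousOn_const.mul ((continuousOn_const.div (by fun_prop) fun u hu => by
        have := hpos u hu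
        positivity).neg)
    exact (((contDiff_deriv (contDiff_deriv hη.smooth)).continuous.comp_continuousOn h1).mul
      (h4.pow 2)).add (((contDiff_deriv hη.smooth).continuous.comp_continuousOn h1).mul h3)
  · rw [pow_zero, div_one]; linarith [h₀ (G * logStep u)]
  · have hu0 := hpos u hu
    rw [zero_add, pow_one, abs_mul]
    rcases lt_or_ge u (2 * G) with h | h
    · rw [(hvan u hu h).1, abs_zero, zero_mul]; positivity
    · rw [abs_mul, abs_neg, abs_of_pos (by linarith : (0 : ℝ) < G),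
        abs_of_nonneg (show 0 ≤ 1 / (u * (u + 1)) by positivity)]
      refine (mul_le_mul (h₁ _) (hsize u hu h) (by positivity) hC₁).trans ?_
      rw [mul_one_div, div_le_div_iff₀ (by positivity) hu0]
      nlinarith
  · have hu0 := hpos u hu
    rw [zero_add]
    rcases lt_or_ge u (2 * G) with h | h
    · rw [(hvan u hu h).1, (hvan u hu h).2, zero_mul, zero_mul, zero_add, abs_zero]; positivity
    · refine (abs_add_le _ _).trans ?_
      rw [abs_mul, abs_mul, abs_pow, abs_mul, abs_neg, abs_mul G, abs_of_pos (by linarith : (0:ℝ) < G),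
        abs_of_nonneg (show 0 ≤ 1 / (u * (u + 1)) by positivity)]
      have hq : G * |phaseDD 1 u| ≤ 1 / u ^ 2 := by
        refine (mul_le_mul_of_nonneg_left (abs_phaseDD_le zero_le_one hu0) (by linarith)).trans ?_
        calc G * (2 * (1 / (u * (u + 1))) / u) = 2 * (G * (1 / (u * (u + 1)))) / u := by ring
          _ ≤ 2 * (1 / (2 * u)) / u := by gcongr; exact hsize u hu h
          _ = _ := by field_simp
      refine (add_le_add (mul_le_mul (h₂ _) (pow_le_pow_left₀ (by positivity) (hsize u hu h) 2)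
        (by positivity) hC₂) (mul_le_mul (h₁ _) hq (by positivity) hC₁)).trans ?_
      rw [le_div_iff₀ (by positivity)]
      have e : (C₂ * (1 / (2 * u)) ^ 2 + C₁ * (1 / u ^ 2)) * u ^ 2 = C₂ / 4 + C₁ := by
        field_simp; ring
      linarith

/-- `1 / √(u (u + 1))` is a symbol of degree `1`. -/
theorem symbol_root : SymbolBound 1 4 1 (fun u => (√(u * (u + 1)))⁻¹)
    (fun u => -((2 * u + 1) / 2) * ((√(u * (u + 1)))⁻¹) ^ 3)
    (fun u => -((√(u * (u + 1)))⁻¹) ^ 3 + 3 * ((2 * u + 1) / 2) ^ 2 * ((√(u * (u + 1)))⁻¹) ^ 5) := by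
  have hd : ∀ u : ℝ, 1 ≤ u → HasDerivAt (fun v => (√(v * (v + 1)))⁻¹)
      (-((2 * u + 1) / 2) * ((√(u * (u + 1)))⁻¹) ^ 3) u := fun u hu => by
    have h0 : 0 < u * (u + 1) := by nlinarith
    refine (((hasDerivAt_mul_succ u).sqrt h0.ne').inv (Real.sqrt_pos.2 h0).ne').congr_deriv ?_
    have := Real.sqrt_pos.2 h0
    field_simp
  have hinv : ∀ u : ℝ, 1 ≤ u → 0 ≤ (√(u * (u + 1)))⁻¹ ∧ (√(u * (u + 1)))⁻¹ ≤ 1 / u :=
    fun u hu => ⟨by positivity, by
      rw [one_div]
      refine inv_anti₀ (by linarith) (Real.le_sqrt_of_sq_le (by nlinarith))⟩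
  refine ⟨hd, fun u hu => ?_, ?_, fun u hu => ?_, fun u hu => ?_, fun u hu => ?_⟩
  · refine ((((((hasDerivAt_id' u).const_mul 2).add_const (1 : ℝ)).div_const 2).neg).mul
      ((hd u hu).pow 3)).congr_deriv ?_
    simp only [Pi.pow_apply, Pi.neg_apply]
    push_cast
    ring
  · have h : ContinuousOn (fun u : ℝ => (√(u * (u + 1)))⁻¹) (Ici 1) :=
      fun u hu => (hd u hu).continuousAt.continuousWithinAt
    exact (h.pow 3).neg.add ((continuousOn_const.mul (by fun_prop)).mul (h.pow 5))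
  all_goals obtain ⟨r0, r1⟩ := hinv u hu
  all_goals have hu0 : 0 < u := by linarith
  · rw [abs_of_nonneg r0, pow_one]
    exact r1.trans (div_le_div_of_nonneg_right (by norm_num) hu0.le)
  · rw [abs_mul, abs_neg, abs_of_nonneg (by positivity), abs_of_nonneg (by positivity)]
    refine (mul_le_mul (show (2 * u + 1) / 2 ≤ 2 * u by linarith)
      (pow_le_pow_left₀ r0 r1 3) (by positivity) (by positivity)).trans ?_
    rw [one_div, inv_pow, ← div_eq_mul_inv, div_le_div_iff₀ (by positivity) (by positivity)]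
    rw [show (1 + 1 : ℕ) = 2 from rfl]
    nlinarith [pow_pos hu0 3]
  · have a5 : 3 * ((2 * u + 1) / 2) ^ 2 * ((√(u * (u + 1)))⁻¹) ^ 5 ≤ 4 / u ^ 3 := by
      have hs : ((√(u * (u + 1)))⁻¹) ^ 2 = 1 / (u * (u + 1)) := by
        rw [inv_pow, Real.sq_sqrt (by positivity), one_div]
      calc 3 * ((2 * u + 1) / 2) ^ 2 * ((√(u * (u + 1)))⁻¹) ^ 5
          = 3 * (((2 * u + 1) / 2) ^ 2 * ((√(u * (u + 1)))⁻¹) ^ 2) * ((√(u * (u + 1)))⁻¹) ^ 3 := by
            ring
        _ ≤ 3 * (9 / 8) * (1 / u ^ 3) := by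
            refine mul_le_mul (mul_le_mul_of_nonneg_left ?_ (by norm_num)) ?_ (by positivity)
              (by norm_num)
            · rw [hs, mul_one_div, div_le_iff₀ (by positivity)]; nlinarith
            · rw [show ((√(u * (u + 1)))⁻¹) ^ 3 = (√(u * (u + 1)))⁻¹ * ((√(u * (u + 1)))⁻¹) ^ 2 by
                ring, hs]
              refine (mul_le_mul_of_nonneg_right r1 (by positivity)).trans ?_
              rw [div_mul_div_comm, div_le_div_iff₀ (by positivity) (by positivity)]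
              nlinarith [pow_pos hu0 2, pow_pos hu0 3]
        _ ≤ _ := by
            rw [mul_one_div]
            exact div_le_div_of_nonneg_right (by norm_num) (by positivity)
    have a3 : ((√(u * (u + 1)))⁻¹) ^ 3 ≤ 1 / u ^ 3 := by
      refine (pow_le_pow_left₀ r0 r1 3).trans (le_of_eq ?_)
      rw [one_div_pow]
    have b5 : 0 ≤ 3 * ((2 * u + 1) / 2) ^ 2 * ((√(u * (u + 1)))⁻¹) ^ 5 := by positivity
    have b3 : 0 ≤ ((√(u * (u + 1)))⁻¹) ^ 3 := by positivity
    have : 1 / u ^ 3 ≤ 4 / u ^ 3 := div_le_div_of_nonneg_right (by norm_num) (by positivity)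
    rw [abs_le]
    constructor <;> linarith

/-- The amplitude. -/
def amp (η : ℝ → ℝ) (G α β u : ℝ) : ℝ :=
  cutW (α * u + 0) * cutW (α * u + β) * η (G * logStep u) * (√(u * (u + 1)))⁻¹

/-- The amplitude vanishes left of `G`. -/
theorem amp_eq_zero_left {η : ℝ → ℝ} (hη : IsTest η) {G α β u : ℝ} (hG : 1 ≤ G) (hu : 0 < u)
    (h : u ≤ 2 * G) : amp η G α β u = 0 := by
  have h3 := one_third_le_of_le hG hu h
  rw [amp, hη.zero (G * logStep u) (by rw [abs_of_nonneg (by linarith)]; linarith), mul_zero,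
    zero_mul]

/-- The amplitude vanishes right of `2/α`. -/
theorem amp_eq_zero_right {η : ℝ → ℝ} {G α β u : ℝ} (h : 2 ≤ α * u) : amp η G α β u = 0 := by
  rw [amp, cutW_eq_zero (by rw [abs_of_nonneg (by linarith)]; linarith), zero_mul, zero_mul,
    zero_mul]

/-- **The amplitude is a symbol of degree `1`.** -/
theorem exists_symbol_amp {η : ℝ → ℝ} (hη : IsTest η) : ∃ C, 0 ≤ C ∧
    ∀ G α β : ℝ, 1 ≤ G → 0 ≤ α → 0 ≤ β → ∃ f₁ f₂ : ℝ → ℝ,
      SymbolBound 1 C 1 (amp η G α β) f₁ f₂ := by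
  obtain ⟨C₁, hC₁, hcut⟩ := exists_symbol_cutW
  obtain ⟨C₂, hC₂, htest⟩ := exists_symbol_test hη
  refine ⟨4 * (4 * (4 * C₁ * C₁) * C₂) * 4, by positivity, fun G α β hG hα hβ => ?_⟩
  exact ⟨_, _, ((((hcut α 0 hα le_rfl).mul (hcut α β hα hβ) one_pos).mul (htest G hG) one_pos).mul
    symbol_root one_pos)⟩

end FA.TwelfthMoment

end
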