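import Fermat.Agent.TwelfthMoment.Stationary

/-!
# The integral at the critical point

Near the critical point the amplitude is frozen and the phase replaced by its Taylor polynomial of
degree two; away from it two integrations by parts suffice.
-/

set_option autoImplicit false

noncomputable section

namespace FA.TwelfthMoment

open MeasureTheory Filter Set
open scoped Real Topology ContDiff

theorem norm_eTau_sub_le (x y : ℝ) : ‖eTau x - eTau y‖ ≤ 2 * π * |x - y| := by
  have h := convex_univ.norm_image_sub_le_of_norm_hasDerivWithin_le (C := 2 * π)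
    (fun v _ => (hasDerivAt_eTau (hasDerivAt_id' v)).hasDerivWithinAt)
    (fun v _ => by
      rw [norm_mul, norm_mul, norm_mul, norm_eTau, Complex.norm_I, Complex.norm_real,
        Complex.norm_real, Real.norm_of_nonneg (by positivity)]
      simp) (mem_univ y) (mem_univ x)
  rwa [Real.norm_eq_abs] at h

/-- The phase near the critical point. -/
theorem abs_phase_taylor_le {τ n r : ℝ} (hτ : 0 < τ) (hn : 0 < n) (hr : 0 ≤ r)
    (hr2 : r ≤ crit τ n / 2) {u : ℝ} (hu : |u - crit τ n| ≤ r) :
    |phaseFn τ n u - (phaseFn τ n (crit τ n) + phaseDD τ (crit τ n) * (u - crit τ n) ^ 2 / 2)| ≤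
      128 * n / crit τ n ^ 2 * r ^ 3 := by
  obtain ⟨c, hc⟩ : ∃ c, c = crit τ n := ⟨_, rfl⟩
  rw [← hc] at hr2 hu ⊢
  have hc0 : 0 < c := hc ▸ crit_pos hτ hn
  obtain ⟨l, hl⟩ : ∃ l, l = phaseDD τ c := ⟨_, rfl⟩
  rw [← hl]
  obtain ⟨S, hS⟩ : ∃ S, S = Icc (c - r) (c + r) := ⟨_, rfl⟩
  have hSu : ∀ v ∈ S, c / 2 ≤ v ∧ 0 < v := fun v hv => by
    rw [hS, mem_Icc] at hv
    constructor <;> linarith [hv.1]
  have hcS : c ∈ S := hS ▸ ⟨by linarith, by linarith⟩
  have huS : u ∈ S := hS ▸ ⟨by linarith [(abs_le.1 hu).1], by linarith [(abs_le.1 hu).2]⟩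
  have hconv : Convex ℝ S := hS ▸ convex_Icc _ _
  have hdist : ∀ v ∈ S, |v - c| ≤ r := fun v hv => by
    rw [hS, mem_Icc] at hv; rw [abs_le]; constructor <;> linarith [hv.1, hv.2]
  obtain ⟨L, hL⟩ : ∃ L, L = 128 * n / c ^ 2 := ⟨_, rfl⟩
  have hL0 : 0 ≤ L := hL ▸ by positivity
  rw [← hL]
  have h3 : ∀ v ∈ S, |phaseDDD τ v| ≤ L := fun v hv => by
    obtain ⟨hv2, hv0⟩ := hSu v hv
    refine (abs_phaseDDD_le hτ.le hv0).trans ?_
    have h4 : c * (c + 1) ≤ 4 * (v * (v + 1)) := by
      have := mul_le_mul hv2 (show (c + 1) / 2 ≤ v + 1 by linarith) (by linarith) hv0.le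
      linarith
    have hcm : c * (c + 1) * n = τ := by
      rw [hc, crit_mul_succ hτ.le hn, div_mul_cancel₀ _ hn.ne']
    have hq : τ / (v * (v + 1)) ≤ 4 * n := by
      rw [div_le_iff₀ (by positivity), ← hcm]
      nlinarith [mul_le_mul_of_nonneg_right h4 hn.le]
    calc 8 * (τ / (v * (v + 1))) / v ^ 2 ≤ 8 * (4 * n) / (c / 2) ^ 2 := by gcongr
      _ = L := by rw [hL]; field_simp; ring
  have h2 : ∀ v ∈ S, |phaseDD τ v - l| ≤ L * r := fun v hv => by
    have h := hconv.norm_image_sub_le_of_norm_hasDerivWithin_le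
      (fun x hx => (hasDerivAt_phaseDD τ (hSu x hx).2).hasDerivWithinAt) h3 hcS hv
    rw [Real.norm_eq_abs, Real.norm_eq_abs, ← hl] at h
    exact h.trans (mul_le_mul_of_nonneg_left (hdist v hv) hL0)
  have h1 : ∀ v ∈ S, |phaseD τ n v - l * (v - c)| ≤ L * r * r := fun v hv => by
    have h := hconv.norm_image_sub_le_of_norm_hasDerivWithin_le
      (f := fun x => phaseD τ n x - l * (x - c))
      (fun x hx => (((hasDerivAt_phaseD τ n (hSu x hx).2).sub
        (((hasDerivAt_id' x).sub_const c).const_mul l)).congr_deriv (by ring :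
          _ = phaseDD τ x - l)).hasDerivWithinAt) h2 hcS hv
    have hpc : phaseD τ n c = 0 := by rw [hc]; exact phaseD_crit hτ hn
    rw [Real.norm_eq_abs, Real.norm_eq_abs, hpc, sub_self, mul_zero,
      sub_self, sub_zero] at h
    exact h.trans (mul_le_mul_of_nonneg_left (hdist v hv) (by positivity))
  have h0 := hconv.norm_image_sub_le_of_norm_hasDerivWithin_le
    (f := fun x => phaseFn τ n x - l * (x - c) ^ 2 / 2)
    (fun x hx => (((hasDerivAt_phaseFn τ n (hSu x hx).2).sub
      (((((hasDerivAt_id' x).sub_const c).pow 2).const_mul l).div_const 2)).congr_deriv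
        (by push_cast; ring : _ = phaseD τ n x - l * (x - c))).hasDerivWithinAt) h1 hcS huS
  rw [Real.norm_eq_abs, Real.norm_eq_abs] at h0
  refine le_trans (le_of_eq ?_) (h0.trans ((mul_le_mul_of_nonneg_left (hdist u huS)
    (by positivity)).trans (le_of_eq (by ring))))
  congr 1
  ring

/-- **The integral at a critical point.** -/
theorem exists_stationary : ∃ K, 0 ≤ K ∧ ∀ (G b C τ w n : ℝ) (f f₁ f₂ : ℝ → ℝ), 1 ≤ G → G ≤ b →
    0 < τ → 1 ≤ n → 1 ≤ w → 16 * w ^ 2 ≤ crit τ n * n → 8 ≤ crit τ n →
    SymbolBound 1 C 1 f f₁ f₂ → (∀ u, 0 < u → u ≤ 2 * G ∨ b / 2 ≤ u → f u = 0) →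
      ‖(∫ u in G..b, (f u : ℂ) * eTau (phaseFn τ n u)) -
          fresnel w * ((f (crit τ n) / √(phaseDD τ (crit τ n)) : ℝ) : ℂ) *
            eTau (phaseFn τ n (crit τ n))‖ ≤
        K * C * (w ^ 4 / (crit τ n * n) + 1 / (w ^ 3 * √(crit τ n * n)) + 1 / (G * n) ^ 2) := by
  obtain ⟨Cw, hCw, hcut⟩ := exists_cutW_bounds
  refine ⟨2 * (10 ^ 6 * Cw) + 10 ^ 6, by linarith,
    fun G b C τ w n f f₁ f₂ hG hGb hτ hn hw hwn hc8 hf hz => ?_⟩
  obtain ⟨c, hc⟩ : ∃ c, c = crit τ n := ⟨_, rfl⟩
  rw [← hc] at hwn hc8 ⊢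
  have hn0 : 0 < n := by linarith
  have hc0 : 0 < c := by linarith
  have hw0 : 0 < w := by linarith
  have hG0 : 0 < G := by linarith
  have hb0 : 0 < b := by linarith
  have hC : 0 ≤ C := hf.nonneg one_pos
  have hcm : c * (c + 1) * n = τ := by
    rw [hc, crit_mul_succ hτ.le hn0, div_mul_cancel₀ _ hn0.ne']
  obtain ⟨l, hl⟩ : ∃ l, l = phaseDD τ c := ⟨_, rfl⟩
  obtain ⟨hl1, hl2⟩ : n / c ≤ l ∧ l ≤ 2 * n / c := by
    rw [hl, hc]; exact phaseDD_crit_bounds hτ hn0
  have hl0 : 0 < l := lt_of_lt_of_le (by positivity) hl1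
  obtain ⟨D, hD⟩ : ∃ D, D = w / √l := ⟨_, rfl⟩
  have hD0 : 0 < D := hD ▸ by positivity
  have hD2 : D ^ 2 = w ^ 2 / l := by rw [hD, div_pow, Real.sq_sqrt hl0.le]
  have hD2le : D ^ 2 ≤ w ^ 2 * c / n := by
    rw [hD2, div_le_div_iff₀ hl0 hn0]
    calc w ^ 2 * n = w ^ 2 * c * (n / c) := by field_simp
      _ ≤ _ := mul_le_mul_of_nonneg_left hl1 (by positivity)
  have hDc : D ≤ c / 4 := by
    refine (pow_le_pow_iff_left₀ hD0.le (by positivity) two_ne_zero).1 (hD2le.trans ?_)
    rw [div_le_iff₀ hn0]
    nlinarith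
  rw [← hl]
  -- the derivative of `f` at the ends
  have hend : ∀ u, 1 ≤ u → u < 2 * G ∨ b / 2 < u → f₁ u = 0 := fun u hu h => by
    refine (hf.d₁ u hu).unique ((hasDerivAt_const u (0 : ℝ)).congr_of_eventuallyEq ?_)
    rcases h with h | h
    · filter_upwards [Iio_mem_nhds h, Ioi_mem_nhds (show (0 : ℝ) < u by linarith)] with v hv hv'
      exact hz v hv' (Or.inl (le_of_lt hv))
    · filter_upwards [Ioi_mem_nhds h] with v hv
      exact hz v (lt_of_le_of_lt (by linarith) hv) (Or.inr (le_of_lt hv))
  obtain ⟨χ, hχ⟩ : ∃ χ : ℝ → ℝ, χ = fun u => cutW ((u - c) / D) := ⟨_, rfl⟩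
  have hχd : ∀ u, HasDerivAt χ (deriv cutW ((u - c) / D) * (1 / D)) u := fun u => hχ ▸
    (hasDerivAt_of_smooth contDiff_cutW _).comp u (((hasDerivAt_id' u).sub_const c).div_const D)
  have hχd' : ∀ u, HasDerivAt (fun v => deriv cutW ((v - c) / D) * (1 / D))
      (deriv (deriv cutW) ((u - c) / D) * (1 / D) * (1 / D)) u := fun u =>
    ((hasDerivAt_of_smooth (contDiff_deriv contDiff_cutW) _).comp u
      (((hasDerivAt_id' u).sub_const c).div_const D)).mul_const (1 / D)
  have hχc : Continuous χ := continuous_iff_continuousAt.2 fun u => (hχd u).continuousAt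
  have hGsub : Icc G b ⊆ Ici 1 := fun u hu => le_trans hG hu.1
  have hPc : ∀ s : Set ℝ, (∀ u ∈ s, 0 < u) → ContinuousOn (fun u => eTau (phaseFn τ n u)) s :=
    fun s hs => continuous_eTau.comp_continuousOn fun u hu =>
      (hasDerivAt_phaseFn τ n (hs u hu)).continuousAt.continuousWithinAt
  have hpos : ∀ u ∈ Icc G b, 0 < u := fun u hu => by linarith [hu.1]
  have hint : ∀ g : ℝ → ℝ, ContinuousOn g (Icc G b) →
      IntervalIntegrable (fun u => (g u : ℂ) * eTau (phaseFn τ n u)) volume G b := fun g hg =>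
    ((uIcc_of_le hGb).symm ▸
      ((Complex.continuous_ofReal.comp_continuousOn hg).mul (hPc _ hpos))).intervalIntegrable
  have hfc : ContinuousOn f (Icc G b) := hf.contOn.mono hGsub
  -- the outer part
  have hout : ‖∫ u in G..b, ((f u * (1 - χ u) : ℝ) : ℂ) * eTau (phaseFn τ n u)‖ ≤
      2000000 * C * Cw * (1 / (w ^ 3 * √(c * n)) + 1 / (G * n) ^ 2) := by
    refine (norm_integral_ibp_twice_le (a := G) (b := b) hGb
      (f₁ := fun u => f₁ u * (1 - χ u) - f u * (deriv cutW ((u - c) / D) * (1 / D)))
      (f₂ := fun u => f₂ u * (1 - χ u) - 2 * (f₁ u * (deriv cutW ((u - c) / D) * (1 / D))) -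
        f u * (deriv (deriv cutW) ((u - c) / D) * (1 / D) * (1 / D)))
      (R := fun u => 400 * C * (1 / (u ^ 3 * n ^ 2)) +
        100000 * C * Cw * (c / n ^ 2) * (1 / (D ^ 2 * ((u - c) ^ 2 + D ^ 2))))
      (fun u hu => ((hf.d₁ u (hGsub hu)).mul ((hχd u).const_sub 1)).congr_deriv (by ring))
      (fun u hu => (((hf.d₂ u (hGsub hu)).mul ((hχd u).const_sub 1)).sub
        ((hf.d₁ u (hGsub hu)).mul (hχd' u))).congr_deriv (by ring)) ?_ ?_ ?_ ?_ ?_
      (fun u hu => hasDerivAt_phaseFn τ n (hpos u hu))
      (fun u hu => hasDerivAt_phaseD τ n (hpos u hu))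
      (fun u hu => hasDerivAt_phaseDD τ (hpos u hu))
      ((continuousOn_phaseDDD τ).mono fun u hu => hpos u hu) ?_ ?_ ?_).trans ?_
    case _ =>
      exact (((hf.cont.mono hGsub).mul (continuousOn_const.sub hχc.continuousOn)).sub
        (continuousOn_const.mul ((hf.contOn₁.mono hGsub).mul (((contDiff_deriv
          contDiff_cutW).continuous.comp (by fun_prop)).mul continuous_const).continuousOn))).sub
        (hfc.mul ((((contDiff_deriv (contDiff_deriv contDiff_cutW)).continuous.comp
          (by fun_prop)).mul continuous_const).mul continuous_const).continuousOn)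
    case _ => simp [hz G hG0 (Or.inl (by linarith))]
    case _ => simp [hz b hb0 (Or.inr (by linarith))]
    case _ => simp [hz G hG0 (Or.inl (by linarith)), hend G hG (Or.inl (by linarith))]
    case _ => simp [hz b hb0 (Or.inr (by linarith)), hend b (hG.trans hGb) (Or.inr (by linarith))]
    case _ =>
      intro u hu
      rcases lt_or_ge |u - c| D with h | h
      · right
        filter_upwards [(isOpen_lt (by fun_prop : Continuous fun v : ℝ => |v - c|)
          continuous_const).mem_nhds h] with v hv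
        have hv' : |(v - c) / D| < 1 := by
          rwa [abs_div, abs_of_pos hD0, div_lt_one hD0]
        simp [hχ, cutW_eq_one hv'.le, (deriv_cutW_zero' hv').1, (deriv_cutW_zero' hv').2]
      · left
        rw [phaseD_eq hτ.le hn0 (hpos u hu), ← hc]
        have := hpos u hu
        refine div_ne_zero (mul_ne_zero (mul_ne_zero hn0.ne' fun h' => ?_) (by positivity))
          (by positivity)
        rw [h', abs_zero] at h
        linarith
    case _ =>
      exact (continuousOn_const.mul (continuousOn_const.div (by fun_prop) fun u hu => by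
        have := hpos u hu
        positivity)).add (continuousOn_const.mul (continuous_const.div (by fun_prop)
          fun u => by positivity).continuousOn)
    case _ =>
      intro u hu
      simp only [Pi.mul_apply]
      have hu0 := hpos u hu
      have hu1 := hGsub hu
      have hR1 : 0 ≤ 400 * C * (1 / (u ^ 3 * n ^ 2)) := by positivity
      have hR2 : 0 ≤ 100000 * C * Cw * (c / n ^ 2) * (1 / (D ^ 2 * ((u - c) ^ 2 + D ^ 2))) := by
        positivity
      have hb0' : |f u| ≤ C / u := (hf.b₀ u hu1).trans_eq (by rw [pow_one])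
      have hb1' : |f₁ u| ≤ C / u ^ 2 := hf.b₁ u hu1
      have hb2' : |f₂ u| ≤ C / u ^ 3 := hf.b₂ u hu1
      obtain ⟨x, hx⟩ : ∃ x, x = |u - c| := ⟨_, rfl⟩
      obtain ⟨q, hq⟩ : ∃ q, q = τ / (u * (u + 1)) := ⟨_, rfl⟩
      have hq0 : 0 ≤ q := hq ▸ by positivity
      have hp1 : |phaseDD τ u| ≤ 2 * q / u := hq ▸ abs_phaseDD_le hτ.le hu0
      have hp2 : |phaseDDD τ u| ≤ 8 * q / u ^ 2 := hq ▸ abs_phaseDDD_le hτ.le hu0
      have hqe : q = n * (c * (c + 1)) / (u * (u + 1)) := by rw [hq, ← hcm]; ring
      have hp : phaseD τ n u = n - q := by rw [phaseD, hq]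
      have hout1 : c / 2 ≤ x → |u - c| / D ≥ 2 := fun h => by
        rw [ge_iff_le, le_div_iff₀ hD0, ← hx]; linarith
      rcases le_or_gt x D with hxD | hxD
      · -- nothing is left near the critical point
        rcases lt_or_eq_of_le hxD with hlt | heq
        · have hv' : |(u - c) / D| < 1 := by
            rw [abs_div, abs_of_pos hD0, div_lt_one hD0, ← hx]; exact hlt
          simp only [hχ, cutW_eq_one hv'.le, (deriv_cutW_zero' hv').1, (deriv_cutW_zero' hv').2]
          simp only [sub_self, mul_zero, zero_mul, abs_zero, zero_div, add_zero]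
          linarith
        · have h1 : cutW ((u - c) / D) = 1 := cutW_eq_one (by
            rw [abs_div, abs_of_pos hD0, ← hx, heq, div_self hD0.ne'])
          have hcl : u ∈ closure {v : ℝ | |(v - c) / D| < 1} := by
            have e : {v : ℝ | |(v - c) / D| < 1} = Ioo (c - D) (c + D) := by
              ext v
              simp only [mem_setOf_eq, mem_Ioo, abs_div, abs_of_pos hD0, div_lt_one hD0, abs_lt]
              constructor <;> rintro ⟨a, b⟩ <;> constructor <;> linarith
            rw [e, closure_Ioo (by linarith), mem_Icc]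
            have := abs_le.1 (hx ▸ hxD : |u - c| ≤ D)
            constructor <;> linarith
          have hz1 : ∀ g : ℝ → ℝ, Continuous g → (∀ y, |y| < 1 → g y = 0) →
              g ((u - c) / D) = 0 := fun g hg hg0 =>
            closure_minimal (fun v (hv : |(v - c) / D| < 1) => hg0 _ hv)
              (isClosed_eq (hg.comp (by fun_prop)) continuous_const) hcl
          have h2 := hz1 _ (contDiff_deriv contDiff_cutW).continuous
            fun y hy => (deriv_cutW_zero' hy).1
          have h3 := hz1 _ (contDiff_deriv (contDiff_deriv contDiff_cutW)).continuous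
            fun y hy => (deriv_cutW_zero' hy).2
          simp only [hχ, h1, h2, h3]
          simp only [sub_self, mul_zero, zero_mul, abs_zero, zero_div, add_zero]
          linarith
      have hx0 : 0 < x := hD0.trans hxD
      rcases em (u ≤ c / 2 ∨ 2 * c ≤ u) with hfar | hnear
      · -- far from the critical point
        have hxc : c / 2 ≤ x := by
          rcases hfar with h | h
          · rw [hx, abs_sub_comm]; linarith [le_abs_self (c - u)]
          · rw [hx]; linarith [le_abs_self (u - c)]
        have h2x : 2 ≤ |(u - c) / D| := by rw [abs_div, abs_of_pos hD0]; exact hout1 hxc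
        have hz1 : χ u = 0 := by rw [hχ]; exact cutW_eq_zero h2x
        have hz2 : deriv cutW ((u - c) / D) = 0 ∧ deriv (deriv cutW) ((u - c) / D) = 0 := by
          rcases lt_or_eq_of_le h2x with h | h
          · exact deriv_cutW_zero h
          · have hcl : (u - c) / D ∈ closure {y : ℝ | 2 < |y|} := by
              rcases abs_eq (by norm_num : (0 : ℝ) ≤ 2) |>.1 h.symm with e | e <;> rw [e]
              · exact closure_mono (fun y (hy : y ∈ Ioi (2 : ℝ)) => lt_of_lt_of_le (mem_Ioi.1 hy)
                  (le_abs_self y)) (by rw [closure_Ioi]; exact self_mem_Ici)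
              · exact closure_mono (fun y (hy : y ∈ Iio (-2 : ℝ)) => show 2 < |y| by
                  have := mem_Iio.1 hy; linarith [neg_abs_le y])
                  (by rw [closure_Iio]; exact self_mem_Iic)
            exact ⟨closure_minimal (fun y hy => (deriv_cutW_zero hy).1) (isClosed_eq
              (contDiff_deriv contDiff_cutW).continuous continuous_const) hcl,
              closure_minimal (fun y hy => (deriv_cutW_zero hy).2) (isClosed_eq
              (contDiff_deriv (contDiff_deriv contDiff_cutW)).continuous continuous_const) hcl⟩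
        simp only [hz1, hz2.1, hz2.2, sub_zero, mul_one, mul_zero, zero_mul]
        obtain ⟨hpn, hpq⟩ : n / 2 ≤ |phaseD τ n u| ∧ q ≤ 2 * |phaseD τ n u| := by
          rcases hfar with h | h
          · have : 2 * n ≤ q := by
              rw [hqe, le_div_iff₀ (by positivity)]
              have h4 : 2 * (u * (u + 1)) ≤ c * (c + 1) := by
                nlinarith [mul_le_mul_of_nonneg_left h hu0.le, mul_le_mul_of_nonneg_left h hc0.le]
              nlinarith [mul_le_mul_of_nonneg_left h4 hn0.le]
            rw [hp, abs_of_nonpos (by linarith)]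
            constructor <;> linarith
          · have : q ≤ n / 2 := by
              rw [hqe, div_le_div_iff₀ (by positivity) two_pos]
              have h4 : 2 * (c * (c + 1)) ≤ u * (u + 1) := by
                nlinarith [mul_le_mul_of_nonneg_left h hu0.le, mul_le_mul_of_nonneg_left h hc0.le]
              nlinarith [mul_le_mul_of_nonneg_left h4 hn0.le]
            rw [hp, abs_of_nonneg (by linarith)]
            constructor <;> linarith
        refine le_trans ?_ (le_add_of_nonneg_right hR2)
        have hp0 : 0 < |phaseD τ n u| := by linarith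
        have hp1' : |phaseDD τ u| ≤ 4 * |phaseD τ n u| / u :=
          hp1.trans (div_le_div_of_nonneg_right (by linarith) hu0.le)
        have hp2' : |phaseDDD τ u| ≤ 16 * |phaseD τ n u| / u ^ 2 :=
          hp2.trans (div_le_div_of_nonneg_right (by linarith) (by positivity))
        obtain ⟨P, hP⟩ : ∃ P, P = |phaseD τ n u| := ⟨_, rfl⟩
        rw [← hP] at hp0 hpn hp1' hp2' ⊢
        calc |f₂ u| / P ^ 2 + 3 * |f₁ u| * |phaseDD τ u| / P ^ 3 + |f u| * |phaseDDD τ u| / P ^ 3 +
              3 * |f u| * |phaseDD τ u| ^ 2 / P ^ 4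
            ≤ C / u ^ 3 / P ^ 2 + 3 * (C / u ^ 2) * (4 * P / u) / P ^ 3 +
              C / u * (16 * P / u ^ 2) / P ^ 3 + 3 * (C / u) * (4 * P / u) ^ 2 / P ^ 4 := by gcongr
          _ = 77 * C / (u ^ 3 * P ^ 2) := by field_simp; ring
          _ ≤ 77 * C / (u ^ 3 * (n / 2) ^ 2) := by gcongr
          _ ≤ _ := by
              rw [mul_one_div, div_le_div_iff₀ (by positivity) (by positivity)]
              nlinarith [mul_nonneg hC (mul_nonneg (pow_nonneg hu0.le 3) (sq_nonneg n))]
      · -- near the critical point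
        rw [not_or, not_le, not_le] at hnear
        obtain ⟨hu2, hu3⟩ := hnear
        refine le_trans ?_ (le_add_of_nonneg_left hR1)
        have hxc : x ≤ c := by rw [hx, abs_le]; constructor <;> linarith
        have hpl : n * x / (2 * c) ≤ |phaseD τ n u| := by
          rw [phaseD_eq hτ.le hn0 hu0, ← hc, abs_div, abs_mul, abs_mul, abs_of_pos hn0, ← hx,
            abs_of_pos (by positivity : 0 < u + c + 1), abs_of_pos (by positivity : 0 < u * (u + 1)),
            div_le_div_iff₀ (by positivity) (by positivity)]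
          have : u * (u + 1) ≤ (u + c + 1) * (2 * c) := by nlinarith
          nlinarith [mul_le_mul_of_nonneg_left this (mul_nonneg hn0.le hx0.le)]
        have hq4 : q ≤ 4 * n := by
          rw [hqe, div_le_iff₀ (by positivity)]
          have h4 : c * (c + 1) ≤ 4 * (u * (u + 1)) := by
            have := mul_le_mul hu2.le (show (c + 1) / 2 ≤ u + 1 by linarith) (by linarith) hu0.le
            linarith
          nlinarith [mul_le_mul_of_nonneg_left h4 hn0.le]
        have hiu : 1 / u ≤ 2 / c := by rw [div_le_div_iff₀ hu0 hc0]; linarith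
        have hix : 1 / u ≤ 2 / x := hiu.trans (div_le_div_of_nonneg_left two_pos.le hx0 hxc)
        have hband : ∀ g : ℝ → ℝ, (∀ y, |g y| ≤ Cw) → (∀ y, 2 < |y| → g y = 0) →
            |g ((u - c) / D) * (1 / D)| ≤ 2 * Cw / x ∧
              |g ((u - c) / D) * (1 / D) * (1 / D)| ≤ 4 * Cw / x ^ 2 := fun g hg hg0 => by
          rcases em (2 < |(u - c) / D|) with h | h
          · rw [hg0 _ h, zero_mul, zero_mul, abs_zero]
            constructor <;> positivity
          · rw [not_lt, abs_div, abs_of_pos hD0, ← hx, div_le_iff₀ hD0] at h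
            have hi : 1 / D ≤ 2 / x := by rw [div_le_div_iff₀ hD0 hx0]; linarith
            have h1 : |g ((u - c) / D) * (1 / D)| ≤ Cw * (2 / x) := by
              rw [abs_mul, abs_of_pos (one_div_pos.2 hD0)]
              exact mul_le_mul (hg _) hi (by positivity) (by linarith)
            refine ⟨h1.trans (le_of_eq (by ring)), ?_⟩
            rw [abs_mul _ (1 / D), abs_of_pos (one_div_pos.2 hD0)]
            exact (mul_le_mul h1 hi (by positivity) (by positivity)).trans (le_of_eq (by ring))
        have hw1 := (hband _ (fun y => (hcut y).1) fun y hy => (deriv_cutW_zero hy).1).1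
        have hw2 := (hband _ (fun y => (hcut y).2) fun y hy => (deriv_cutW_zero hy).2).2
        have hχ1 : |1 - χ u| ≤ 1 := by
          rw [hχ, abs_le]
          constructor <;> linarith [cutW_nonneg ((u - c) / D), cutW_le_one ((u - c) / D)]
        have k0 : |f u * (1 - χ u)| ≤ 2 * C / c := by
          rw [abs_mul]
          refine (mul_le_of_le_one_right (abs_nonneg _) hχ1).trans (hb0'.trans ?_)
          calc C / u = C * (1 / u) := by ring
            _ ≤ C * (2 / c) := by gcongr
            _ = _ := by ring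
        have k1 : |f₁ u * (1 - χ u) - f u * (deriv cutW ((u - c) / D) * (1 / D))| ≤
            8 * C * Cw / (c * x) := by
          refine (abs_sub _ _).trans ?_
          rw [abs_mul, abs_mul]
          refine (add_le_add ((mul_le_of_le_one_right (abs_nonneg _) hχ1).trans hb1')
            (mul_le_mul hb0' hw1 (abs_nonneg _) (by positivity))).trans ?_
          calc C / u ^ 2 + C / u * (2 * Cw / x) = C * (1 / u) * (1 / u) + C * (1 / u) * (2 * Cw / x) :=
                by ring
            _ ≤ C * (2 / c) * (2 / x) + C * (2 / c) * (2 * Cw / x) := by gcongr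
            _ = 4 * C * (1 + Cw) / (c * x) := by ring
            _ ≤ _ := div_le_div_of_nonneg_right (by nlinarith) (by positivity)
        have k2 : |f₂ u * (1 - χ u) - 2 * (f₁ u * (deriv cutW ((u - c) / D) * (1 / D))) -
            f u * (deriv (deriv cutW) ((u - c) / D) * (1 / D) * (1 / D))| ≤
              32 * C * Cw / (c * x ^ 2) := by
          refine (abs_sub _ _).trans ((add_le_add_left (abs_sub _ _) _).trans ?_)
          rw [abs_mul, abs_mul 2, abs_two, abs_mul, abs_mul (f u)]
          refine (add_le_add (add_le_add ((mul_le_of_le_one_right (abs_nonneg _) hχ1).trans hb2')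
            (mul_le_mul_of_nonneg_left (mul_le_mul hb1' hw1 (abs_nonneg _) (by positivity))
              two_pos.le)) (mul_le_mul hb0' hw2 (abs_nonneg _) (by positivity))).trans ?_
          calc C / u ^ 3 + 2 * (C / u ^ 2 * (2 * Cw / x)) + C / u * (4 * Cw / x ^ 2)
              = C * (1 / u) * (1 / u) * (1 / u) + 4 * C * (1 / u) * (1 / u) * Cw / x +
                  C * (1 / u) * (4 * Cw / x ^ 2) := by ring
            _ ≤ C * (2 / c) * (2 / x) * (2 / x) + 4 * C * (2 / c) * (2 / x) * Cw / x +
                  C * (2 / c) * (4 * Cw / x ^ 2) := by gcongr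
            _ = C * (8 + 24 * Cw) / (c * x ^ 2) := by ring
            _ ≤ _ := div_le_div_of_nonneg_right (by nlinarith) (by positivity)
        have hp1' : |phaseDD τ u| ≤ 16 * n / c := by
          refine hp1.trans ?_
          calc 2 * q / u = 2 * q * (1 / u) := by ring
            _ ≤ 2 * (4 * n) * (2 / c) := by gcongr
            _ = _ := by ring
        have hp2' : |phaseDDD τ u| ≤ 128 * n / (c * x) := by
          refine hp2.trans ?_
          calc 8 * q / u ^ 2 = 8 * q * (1 / u) * (1 / u) := by ring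
            _ ≤ 8 * (4 * n) * (2 / c) * (2 / x) := by gcongr
            _ = _ := by ring
        have hkey : D ^ 2 * ((u - c) ^ 2 + D ^ 2) ≤ 2 * x ^ 4 := by
          rw [← sq_abs (u - c), ← hx]
          have := pow_le_pow_left₀ hD0.le hxD.le 2
          nlinarith
        calc _ ≤ 32 * C * Cw / (c * x ^ 2) / (n * x / (2 * c)) ^ 2 +
              3 * (8 * C * Cw / (c * x)) * (16 * n / c) / (n * x / (2 * c)) ^ 3 +
              2 * C / c * (128 * n / (c * x)) / (n * x / (2 * c)) ^ 3 +
              3 * (2 * C / c) * (16 * n / c) ^ 2 / (n * x / (2 * c)) ^ 4 := by gcongr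
          _ = (128 * Cw + 3072 * Cw + 2048 + 24576) * C * (c / n ^ 2) / x ^ 4 := by
              field_simp; ring
          _ ≤ 50000 * Cw * C * (c / n ^ 2) * (2 / (D ^ 2 * ((u - c) ^ 2 + D ^ 2))) := by
              rw [div_eq_mul_one_div _ (x ^ 4)]
              refine mul_le_mul (mul_le_mul_of_nonneg_right (mul_le_mul_of_nonneg_right
                (by linarith) hC) (by positivity)) ?_ (by positivity) (by positivity)
              rw [div_le_div_iff₀ (by positivity) (by positivity)]
              linarith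
          _ = _ := by ring
    -- the integral of the majorant
    have hi1 : ∫ u in G..b, 1 / (u ^ 3 * n ^ 2) ≤ 1 / (2 * (G * n) ^ 2) := by
      have hne : ∀ u ∈ uIcc G b, u ≠ 0 := fun u hu => by
        rw [uIcc_of_le hGb] at hu; exact (hpos u hu).ne'
      have hic : ContinuousOn (fun u : ℝ => 1 / (u ^ 3 * n ^ 2)) (uIcc G b) :=
        continuousOn_const.div (by fun_prop) fun u hu => mul_ne_zero (pow_ne_zero 3 (hne u hu))
          (by positivity)
      rw [intervalIntegral.integral_eq_sub_of_hasDerivAt (f := fun u : ℝ => -((u ^ 2)⁻¹) / (2 * n ^ 2))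
        (f' := fun u => 1 / (u ^ 3 * n ^ 2)) (fun u hu => ?_) hic.intervalIntegrable]
      · rw [mul_pow, ← sub_div]
        have : (0 : ℝ) ≤ (b ^ 2)⁻¹ := by positivity
        calc (-(b ^ 2)⁻¹ - -(G ^ 2)⁻¹) / (2 * n ^ 2) ≤ (G ^ 2)⁻¹ / (2 * n ^ 2) :=
              div_le_div_of_nonneg_right (by linarith) (by positivity)
          _ = _ := by field_simp
      · have := hne u hu
        refine ((((hasDerivAt_id' u).pow 2).inv (pow_ne_zero 2 this)).neg.div_const
          (2 * n ^ 2)).congr_deriv ?_
        simp only [Pi.pow_apply]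
        push_cast
        field_simp
    rw [intervalIntegral.integral_add, intervalIntegral.integral_const_mul,
      intervalIntegral.integral_const_mul]
    rotate_left
    · exact (continuousOn_const.mul (continuousOn_const.div (by fun_prop) fun u hu => by
        rw [uIcc_of_le hGb] at hu
        have := hpos u hu
        positivity)).intervalIntegrable
    · exact (Continuous.intervalIntegrable (continuous_const.mul (continuous_const.div (by fun_prop)
        fun u => by positivity)) _ _)
    have hi2 := integral_arctan_kernel_le (c := c) (a := G) (b := b) hD0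
    refine (add_le_add (mul_le_mul_of_nonneg_left hi1 (by positivity))
      (mul_le_mul_of_nonneg_left hi2 (by positivity))).trans ?_
    have h5 : c / n ^ 2 * (π / D ^ 3) ≤ 16 * (1 / (w ^ 3 * √(c * n))) := by
      have e : c / n ^ 2 * (π / D ^ 3) = π * (c * (l * √l)) / (n ^ 2 * w ^ 3) := by
        rw [hD, div_pow, show (√l) ^ 3 = √l * √l * √l by ring, Real.mul_self_sqrt hl0.le]
        field_simp
      have h6 : c * (l * √l) ≤ 2 * n * (2 * √(n / c)) := by
        have a1 : c * l ≤ 2 * n := by rw [le_div_iff₀ hc0] at hl2; linarith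
        have a2 : √l ≤ 2 * √(n / c) := by
          refine (Real.sqrt_le_sqrt hl2).trans ?_
          rw [Real.sqrt_le_left (by positivity), mul_pow, Real.sq_sqrt (by positivity)]
          have : 0 ≤ n / c := by positivity
          rw [mul_div_assoc]
          linarith
        rw [← mul_assoc]
        exact mul_le_mul a1 a2 (Real.sqrt_nonneg l) (by positivity)
      rw [e]
      calc π * (c * (l * √l)) / (n ^ 2 * w ^ 3) ≤ 3 * (4 / 3) * (2 * n * (2 * √(n / c))) /
            (n ^ 2 * w ^ 3) := by
            gcongr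
            linarith [Real.pi_le_four]
        _ = 16 * (√(n / c) / n) / w ^ 3 := by field_simp; ring
        _ = 16 * (1 / √(c * n)) / w ^ 3 := by
            congr 2
            rw [Real.sqrt_div hn0.le, Real.sqrt_mul hc0.le, div_div, div_eq_div_iff (by positivity)
              (by positivity)]
            linear_combination √c * Real.mul_self_sqrt hn0.le
        _ = _ := by field_simp
    have hA : 0 ≤ 1 / (w ^ 3 * √(c * n)) := by positivity
    have hE : 0 ≤ 1 / (G * n) ^ 2 := by positivity
    have e5 : 100000 * C * Cw * (c / n ^ 2) * (π / D ^ 3) ≤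
        100000 * C * Cw * (16 * (1 / (w ^ 3 * √(c * n)))) := by
      rw [mul_assoc (100000 * C * Cw)]
      exact mul_le_mul_of_nonneg_left h5 (by positivity)
    have e6 : 400 * C * (1 / (2 * (G * n) ^ 2)) ≤ 200 * C * Cw * (1 / (G * n) ^ 2) := by
      rw [show 400 * C * (1 / (2 * (G * n) ^ 2)) = 200 * C * (1 / (G * n) ^ 2) by ring]
      exact mul_le_mul_of_nonneg_right (le_mul_of_one_le_right (by positivity) hCw) hE
    have e7 : 0 ≤ C * Cw * (1 / (w ^ 3 * √(c * n))) := by positivity
    have e8 : 0 ≤ C * Cw * (1 / (G * n) ^ 2) := by positivity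
    linarith
  -- the inner part
  obtain ⟨F, hF⟩ : ∃ F : ℝ → ℂ, F = fun u => ((f u * χ u : ℝ) : ℂ) * eTau (phaseFn τ n u) :=
    ⟨_, rfl⟩
  obtain ⟨P0, hP0⟩ : ∃ P0, P0 = phaseFn τ n c := ⟨_, rfl⟩
  obtain ⟨H, hH⟩ : ∃ H : ℝ → ℂ,
      H = fun u => (f c : ℂ) * eTau P0 * ((χ u : ℂ) * eTau (l * (u - c) ^ 2 / 2)) := ⟨_, rfl⟩
  rw [← hP0]
  have hsupp : ∀ u, F u ≠ 0 → |u - c| < 2 * D ∧ 2 * G < u ∧ u < b / 2 := fun u hu => by
    simp only [hF] at hu
    have hχu : χ u ≠ 0 := fun h => hu (by simp [h])
    have hfu : f u ≠ 0 := fun h => hu (by simp [h])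
    have h1 : |u - c| < 2 * D := by
      by_contra h
      rw [not_lt] at h
      exact hχu (by
        rw [hχ]
        exact cutW_eq_zero (by rwa [abs_div, abs_of_pos hD0, le_div_iff₀ hD0]))
    have hu0 : 0 < u := by linarith [(abs_lt.1 h1).1]
    refine ⟨h1, ?_, ?_⟩
    · by_contra h; exact hfu (hz u hu0 (Or.inl (not_lt.1 h)))
    · by_contra h; exact hfu (hz u hu0 (Or.inr (not_lt.1 h)))
  have hswap : ∫ u in G..b, F u = ∫ u in (c - 2 * D)..(c + 2 * D), F u := by
    rw [intervalIntegral.integral_eq_integral_of_support_subset (fun u hu => ?_),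
      intervalIntegral.integral_eq_integral_of_support_subset (fun u hu => ?_)]
    · obtain ⟨h1, -, -⟩ := hsupp u hu
      rw [abs_lt] at h1
      exact ⟨by linarith, by linarith⟩
    · obtain ⟨-, h1, h2⟩ := hsupp u hu
      exact ⟨by linarith, by linarith⟩
  have hI2 : ∀ u ∈ Icc (c - 2 * D) (c + 2 * D), c / 2 ≤ u ∧ 1 ≤ u ∧ 0 < u := fun u hu =>
    ⟨by linarith [hu.1], by linarith [hu.1], by linarith [hu.1]⟩
  have hFc : ContinuousOn F (Icc (c - 2 * D) (c + 2 * D)) := by
    rw [hF]
    exact (Complex.continuous_ofReal.comp_continuousOn ((hf.contOn.mono fun u hu =>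
      (hI2 u hu).2.1).mul hχc.continuousOn)).mul (hPc _ fun u hu => (hI2 u hu).2.2)
  have hHc : Continuous H := by
    rw [hH]
    exact continuous_const.mul ((Complex.continuous_ofReal.comp hχc).mul
      (continuous_eTau.comp (by fun_prop)))
  have hfr : ∫ u in (c - 2 * D)..(c + 2 * D), H u =
      fresnel w * ((f c / √l : ℝ) : ℂ) * eTau P0 := by
    have hs : √l ≠ 0 := (Real.sqrt_pos.2 hl0).ne'
    obtain ⟨g, hg⟩ : ∃ g : ℝ → ℂ, g = fun y => (cutW (y / w) : ℂ) * eTau (y ^ 2 / 2) := ⟨_, rfl⟩
    have e : ∀ u, H u = (f c : ℂ) * eTau P0 * g (√l * (u - c)) := fun u => by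
      simp only [hH, hg, hχ]
      rw [show √l * (u - c) / w = (u - c) / D by rw [hD]; field_simp,
        show (√l * (u - c)) ^ 2 / 2 = l * (u - c) ^ 2 / 2 by rw [mul_pow, Real.sq_sqrt hl0.le]]
    have e2 : √l * (2 * D) = 2 * w := by rw [hD]; field_simp
    simp only [e]
    rw [intervalIntegral.integral_const_mul,
      intervalIntegral.integral_comp_sub_right (fun u => g (√l * u)) c,
      intervalIntegral.integral_comp_mul_left g hs]
    rw [show c - 2 * D - c = -(2 * D) by ring, show c + 2 * D - c = 2 * D by ring, mul_neg, e2,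
      show fresnel w = ∫ y in (-(2 * w))..2 * w, g y by rw [hg]; rfl, Complex.real_smul]
    push_cast
    ring
  have hin : ‖(∫ u in G..b, F u) - fresnel w * ((f c / √l : ℝ) : ℂ) * eTau P0‖ ≤
      40000 * C * (w ^ 4 / (c * n)) := by
    rw [hswap, ← hfr, ← intervalIntegral.integral_sub
      ((uIcc_of_le (by linarith : c - 2 * D ≤ c + 2 * D)).symm ▸ hFc).intervalIntegrable
      (hHc.intervalIntegrable _ _)]
    refine (intervalIntegral.norm_integral_le_of_norm_le_const
      (C := 8 * C * D / c ^ 2 + C / c * (8 * (128 * n / c ^ 2 * (2 * D) ^ 3)))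
      fun u hu => ?_).trans ?_
    · rw [uIoc_of_le (by linarith)] at hu
      have hu' := Ioc_subset_Icc_self hu
      have hd : |u - c| ≤ 2 * D := abs_le.2 ⟨by linarith [hu'.1], by linarith [hu'.2]⟩
      have hχ1 : |χ u| ≤ 1 := by rw [hχ]; exact abs_cutW_le_one _
      have hfd : |f u - f c| ≤ 4 * C / c ^ 2 * (2 * D) := by
        have hcm' : c ∈ Icc (c - 2 * D) (c + 2 * D) := ⟨by linarith, by linarith⟩
        have h := (convex_Icc (c - 2 * D) (c + 2 * D)).norm_image_sub_le_of_norm_hasDerivWithin_le
          (fun v hv => (hf.d₁ v (hI2 v hv).2.1).hasDerivWithinAt) (C := 4 * C / c ^ 2)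
          (fun v hv => by
            obtain ⟨a1, a2, a3⟩ := hI2 v hv
            refine (Real.norm_eq_abs _).le.trans ((hf.b₁ v a2).trans ?_)
            calc C / v ^ (1 + 1) ≤ C / (c / 2) ^ 2 := by norm_num only; gcongr
              _ = _ := by field_simp; ring) hcm' hu'
        rw [Real.norm_eq_abs, Real.norm_eq_abs] at h
        exact h.trans (mul_le_mul_of_nonneg_left hd (by positivity))
      have hfc' : |f c| ≤ C / c := (hf.b₀ c (by linarith : (1 : ℝ) ≤ c)).trans_eq (by rw [pow_one])
      have hph : |phaseFn τ n u - (P0 + l * (u - c) ^ 2 / 2)| ≤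
          128 * n / c ^ 2 * (2 * D) ^ 3 := by
        rw [hP0, hl, hc]
        exact abs_phase_taylor_le hτ hn0 (by linarith) (by rw [← hc]; linarith) (hc ▸ hd)
      have e : F u - H u = (χ u : ℂ) * (((f u - f c : ℝ) : ℂ) * eTau (phaseFn τ n u) +
          (f c : ℂ) * (eTau (phaseFn τ n u) - eTau (P0 + l * (u - c) ^ 2 / 2))) := by
        simp only [hF, hH, eTau_add]
        push_cast
        ring
      rw [e, norm_mul, Complex.norm_real, Real.norm_eq_abs]
      refine (mul_le_of_le_one_left (norm_nonneg _) hχ1).trans ((norm_add_le _ _).trans ?_)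
      rw [norm_mul, norm_mul, norm_eTau, mul_one, Complex.norm_real, Complex.norm_real,
        Real.norm_eq_abs, Real.norm_eq_abs]
      refine add_le_add (hfd.trans_eq (by ring)) (mul_le_mul hfc'
        ((norm_eTau_sub_le _ _).trans (mul_le_mul (by linarith [Real.pi_le_four]) hph
          (abs_nonneg _) (by norm_num))) (norm_nonneg _) (by positivity))
    · rw [show c + 2 * D - (c - 2 * D) = 4 * D by ring, abs_of_pos (by positivity)]
      have hw24 : w ^ 2 ≤ w ^ 4 := pow_le_pow_right₀ hw (by norm_num)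
      have h32 : C * D ^ 2 / c ^ 2 ≤ C * (w ^ 4 / (c * n)) := by
        calc C * D ^ 2 / c ^ 2 ≤ C * (w ^ 2 * c / n) / c ^ 2 := by gcongr
          _ = C * (w ^ 2 / (c * n)) := by field_simp
          _ ≤ _ := by gcongr
      have h4 : C * n * (D ^ 2) ^ 2 / c ^ 3 ≤ C * (w ^ 4 / (c * n)) := by
        calc C * n * (D ^ 2) ^ 2 / c ^ 3 ≤ C * n * (w ^ 2 * c / n) ^ 2 / c ^ 3 := by gcongr
          _ = _ := by field_simp
      have e : (8 * C * D / c ^ 2 + C / c * (8 * (128 * n / c ^ 2 * (2 * D) ^ 3))) * (4 * D) =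
          32 * (C * D ^ 2 / c ^ 2) + 32768 * (C * n * (D ^ 2) ^ 2 / c ^ 3) := by
        field_simp; ring
      rw [e]
      have : 0 ≤ C * (w ^ 4 / (c * n)) := by positivity
      linarith
  -- both together
  have hsplit : ∫ u in G..b, (f u : ℂ) * eTau (phaseFn τ n u) =
      (∫ u in G..b, F u) + ∫ u in G..b, ((f u * (1 - χ u) : ℝ) : ℂ) * eTau (phaseFn τ n u) := by
    rw [← intervalIntegral.integral_add
      (show IntervalIntegrable F volume G b from
        hF ▸ hint (fun u => f u * χ u) (hfc.mul hχc.continuousOn))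
      (hint (fun u => f u * (1 - χ u)) (hfc.mul (continuousOn_const.sub hχc.continuousOn)))]
    refine intervalIntegral.integral_congr fun u _ => ?_
    simp only [hF]
    push_cast
    ring
  rw [hsplit, add_sub_right_comm]
  refine (norm_add_le _ _).trans ((add_le_add hin hout).trans ?_)
  have hA : 0 ≤ C * (w ^ 4 / (c * n)) := by positivity
  have hB : 0 ≤ C * (1 / (w ^ 3 * √(c * n))) := by positivity
  have hE : 0 ≤ C * (1 / (G * n) ^ 2) := by positivity
  have hA' := mul_nonneg hA (show (0 : ℝ) ≤ Cw by linarith)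
  linarith

end FA.TwelfthMoment

end
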