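import Fermat.Agent.TwelfthMoment.OffDiag
import Fermat.Agent.TwelfthMoment.StationaryPoint
import Fermat.Agent.FourthMoment.Main

/-!
# The dual sum

At the critical points the window becomes
`∑ d (n) η (G ℓ (n)) (n (n + 4τ)) ^ (-1/4) e (F (τ, n))` over `n < 2τ/G²`. In dyadic blocks the
weight has total variation `O ((τ K) ^ (-1/4))`, which leaves partial sums of `d (n) e (F (τ, n))`.
-/

set_option autoImplicit false

noncomputable section

namespace FA.TwelfthMoment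

open MeasureTheory Filter Set
open scoped Real Topology ContDiff

/-- The phase at the critical point. -/
def critPhase (τ x : ℝ) : ℝ := phaseFn τ x (crit τ x)

/-- `(x (x + 4τ)) ^ (-1/4)`. -/
def critRoot (τ x : ℝ) : ℝ := (√√(x * (x + 4 * τ)))⁻¹

/-- The weight of the `n`-th stationary point. -/
def critWeight (G τ x : ℝ) : ℝ := etaFn (G * logStep (crit τ x)) * critRoot τ x

/-- A partial sum over `[K, k)`. -/
def blockSum (τ : ℝ) (K k : ℕ) : ℂ :=
  ∑ n ∈ Finset.Ico K k, (n.divisors.card : ℂ) * eTau (critPhase τ n)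

theorem main_term_eq {G τ n : ℝ} (hτ : 0 < τ) (hn1 : 1 ≤ n) :
    amp etaFn G (1 / (4 * √τ)) 0 (crit τ n) / √(phaseDD τ (crit τ n)) = critWeight G τ n := by
  obtain ⟨c, hc⟩ : ∃ c, c = crit τ n := ⟨_, rfl⟩
  have hn : 0 < n := by linarith
  have hc0 : 0 < c := hc ▸ crit_pos hτ hn
  have hcs : c * (c + 1) = τ / n := by rw [hc]; exact crit_mul_succ hτ.le hn
  have hs0 : 0 < √τ := Real.sqrt_pos.2 hτ
  rw [← hc]
  have hcut : 1 / (4 * √τ) * c ≤ 1 := by
    rw [div_mul_eq_mul_div, one_mul, div_le_one (by positivity)]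
    have h1 : c ^ 2 ≤ τ := by
      rw [hc]
      refine (crit_sq_le hτ.le hn).trans ?_
      rw [div_le_iff₀ hn]
      nlinarith
    nlinarith [Real.sq_sqrt hτ.le]
  have hp : 0 ≤ 1 / (4 * √τ) * c := by positivity
  have hr : √(c * (c + 1)) * √(phaseDD τ c) = √√(n * (n + 4 * τ)) := by
    rw [hc, phaseDD_crit hτ hn, ← hc, ← Real.sqrt_mul (by positivity), hcs]
    congr 1
    have hq : √(n * (n + 4 * τ)) = n * √(1 + 4 * τ / n) := by
      rw [show n * (n + 4 * τ) = n ^ 2 * (1 + 4 * τ / n) by field_simp,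
        Real.sqrt_mul (sq_nonneg n), Real.sqrt_sq hn.le]
    rw [hq]
    field_simp
  rw [amp, critWeight, critRoot, ← hc, add_zero, cutW_eq_one (abs_le.2 ⟨by linarith, hcut⟩),
    one_mul, one_mul, ← hr, mul_inv, div_eq_mul_inv]
  ring

theorem crit_anti {τ m n : ℝ} (hτ : 0 ≤ τ) (hm : 0 < m) (hmn : m ≤ n) :
    crit τ n ≤ crit τ m := by
  rw [crit, crit]
  gcongr

theorem logStep_anti {u v : ℝ} (hu : 0 < u) (huv : u ≤ v) : logStep v ≤ logStep u := by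
  rw [logStep, logStep]
  have : 0 < v := hu.trans_le huv
  exact Real.log_le_log (by positivity) (by gcongr)

theorem critRoot_anti {τ m n : ℝ} (hτ : 0 ≤ τ) (hm : 0 < m) (hmn : m ≤ n) :
    critRoot τ n ≤ critRoot τ m := by
  rw [critRoot, critRoot]
  refine inv_anti₀ (Real.sqrt_pos.2 (Real.sqrt_pos.2 (by positivity))) ?_
  refine Real.sqrt_le_sqrt (Real.sqrt_le_sqrt ?_)
  nlinarith

/-- Abel summation against prefixes. -/
theorem norm_sum_weight_var_le (c : ℕ → ℂ) (Q : ℕ → ℝ) {a b : ℕ} (hab : a ≤ b) {B : ℝ}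
    (hB : ∀ m, a ≤ m → m ≤ b → ‖∑ n ∈ Finset.Ico a m, c n‖ ≤ B) :
    ‖∑ n ∈ Finset.Ico a b, (Q n : ℂ) * c n‖ ≤
      (|Q b| + ∑ n ∈ Finset.Ico a b, |Q (n + 1) - Q n|) * B := by
  have key : ∀ m, a ≤ m → m ≤ b →
      ‖∑ n ∈ Finset.Ico a m, (Q n : ℂ) * c n - (Q m : ℂ) * ∑ n ∈ Finset.Ico a m, c n‖ ≤
        (∑ n ∈ Finset.Ico a m, |Q (n + 1) - Q n|) * B := by
    intro m ham
    induction m, ham using Nat.le_induction with
    | base => intro; simp
    | succ m ham ih =>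
      intro hm
      rw [Finset.sum_Ico_succ_top ham, Finset.sum_Ico_succ_top ham, Finset.sum_Ico_succ_top ham]
      have e : ∑ n ∈ Finset.Ico a m, (Q n : ℂ) * c n + (Q m : ℂ) * c m -
          (Q (m + 1) : ℂ) * (∑ n ∈ Finset.Ico a m, c n + c m) =
          (∑ n ∈ Finset.Ico a m, (Q n : ℂ) * c n - (Q m : ℂ) * ∑ n ∈ Finset.Ico a m, c n) +
            ((Q m - Q (m + 1) : ℝ) : ℂ) * (∑ n ∈ Finset.Ico a m, c n + c m) := by
        push_cast; ring
      rw [e, add_mul]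
      refine (norm_add_le _ _).trans (add_le_add (ih (by omega)) ?_)
      rw [norm_mul, Complex.norm_real, Real.norm_eq_abs, abs_sub_comm]
      refine mul_le_mul_of_nonneg_left ?_ (abs_nonneg _)
      have := hB (m + 1) (by omega) hm
      rwa [Finset.sum_Ico_succ_top ham] at this
  have h1 := key b hab le_rfl
  have h2 := hB b hab le_rfl
  have h3 := norm_le_norm_sub_add (∑ n ∈ Finset.Ico a b, (Q n : ℂ) * c n)
    ((Q b : ℂ) * ∑ n ∈ Finset.Ico a b, c n)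
  rw [norm_mul, Complex.norm_real, Real.norm_eq_abs] at h3
  have h4 := mul_le_mul_of_nonneg_left h2 (abs_nonneg (Q b))
  linarith

/-- The weight in one block. -/
theorem exists_critWeight_var : ∃ C, 0 ≤ C ∧ ∀ (G τ : ℝ) (a b : ℕ), 0 < G → 0 < τ → 1 ≤ a →
    a ≤ b → G / 3 ≤ crit τ b →
      |critWeight G τ b| + ∑ n ∈ Finset.Ico a b, |critWeight G τ (n + 1 : ℕ) - critWeight G τ n| ≤
        C * (√√(τ * a))⁻¹ := by
  have hη := isTest_etaFn
  obtain ⟨C₀, hC₀, h₀⟩ := exists_bound_of_support hη.smooth (r := 1 / 4) fun x hx => hη.zero x hx.le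
  obtain ⟨C₁, hC₁, h₁⟩ := exists_bound_of_support (contDiff_deriv hη.smooth) (r := 1 / 4)
    fun x hx => (hη.deriv_zero hx).1
  refine ⟨2 * C₀ + 3 * C₁, by positivity, fun G τ a b hG hτ ha hab hcb => ?_⟩
  obtain ⟨ρ, hρ⟩ : ∃ ρ : ℕ → ℝ, ρ = fun n : ℕ => critRoot τ n := ⟨_, rfl⟩
  obtain ⟨l, hl⟩ : ∃ l : ℕ → ℝ, l = fun n : ℕ => G * logStep (crit τ n) := ⟨_, rfl⟩
  have ha0 : (0 : ℝ) < a := Nat.cast_pos.2 ha
  have hρ0 : ∀ n, 0 ≤ ρ n := fun n => by simp only [hρ, critRoot]; positivity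
  have hρa : ρ a ≤ (√√(τ * a))⁻¹ := by
    simp only [hρ, critRoot]
    refine inv_anti₀ (Real.sqrt_pos.2 (Real.sqrt_pos.2 (by positivity))) ?_
    refine Real.sqrt_le_sqrt (Real.sqrt_le_sqrt ?_)
    nlinarith
  have hρn : ∀ n, a ≤ n → ρ (n + 1) ≤ ρ n ∧ ρ n ≤ ρ a ∧ l n ≤ l (n + 1) := fun n hn => by
    have hn0 : (0 : ℝ) < n := Nat.cast_pos.2 (by omega)
    have h1 : (n : ℝ) ≤ ((n + 1 : ℕ) : ℝ) := Nat.cast_le.2 (by omega)
    simp only [hρ, hl]
    refine ⟨critRoot_anti hτ.le hn0 h1, critRoot_anti hτ.le ha0 (Nat.cast_le.2 hn),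
      mul_le_mul_of_nonneg_left (logStep_anti (crit_pos hτ (by linarith))
        (crit_anti hτ.le hn0 h1)) hG.le⟩
  have hlb : l b ≤ 3 := by
    simp only [hl]
    refine (mul_le_mul_of_nonneg_left (logStep_le (by linarith)) hG.le).trans ?_
    rw [mul_one_div, div_le_iff₀ (by linarith)]
    linarith
  have hla : 0 ≤ l a := hl ▸ mul_nonneg hG.le (logStep_nonneg (crit_pos hτ ha0))
  have hstep : ∀ n ∈ Finset.Ico a b, |critWeight G τ (n + 1 : ℕ) - critWeight G τ n| ≤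
      C₀ * (ρ n - ρ (n + 1)) + C₁ * ρ a * (l (n + 1) - l n) := by
    intro n hn
    rw [Finset.mem_Ico] at hn
    obtain ⟨h1, h2, h3⟩ := hρn n hn.1
    have hL : |etaFn (l (n + 1)) - etaFn (l n)| ≤ C₁ * (l (n + 1) - l n) := by
      have h := convex_univ.norm_image_sub_le_of_norm_hasDerivWithin_le (C := C₁)
        (fun v _ => (hasDerivAt_of_smooth hη.smooth v).hasDerivWithinAt)
        (fun v _ => (Real.norm_eq_abs _).le.trans (h₁ v)) (mem_univ (l n)) (mem_univ (l (n + 1)))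
      rwa [Real.norm_eq_abs, Real.norm_eq_abs, abs_of_nonneg (by linarith : 0 ≤ l (n + 1) - l n)]
        at h
    have e : critWeight G τ (n + 1 : ℕ) - critWeight G τ n =
        etaFn (l (n + 1)) * (ρ (n + 1) - ρ n) + (etaFn (l (n + 1)) - etaFn (l n)) * ρ n := by
      simp only [critWeight, hρ, hl]; ring
    rw [e]
    refine (abs_add_le _ _).trans (add_le_add ?_ ?_)
    · rw [abs_mul, abs_sub_comm, abs_of_nonneg (by linarith : 0 ≤ ρ n - ρ (n + 1))]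
      exact mul_le_mul_of_nonneg_right (h₀ _) (by linarith)
    · rw [abs_mul, abs_of_nonneg (hρ0 n)]
      calc _ ≤ C₁ * (l (n + 1) - l n) * ρ a :=
            mul_le_mul hL h2 (hρ0 n) (mul_nonneg hC₁ (by linarith))
        _ = _ := by ring
  refine (add_le_add (le_refl _) (Finset.sum_le_sum hstep)).trans ?_
  rw [Finset.sum_add_distrib, ← Finset.mul_sum, ← Finset.mul_sum, Finset.sum_Ico_sub _ hab]
  have e2 : ∑ n ∈ Finset.Ico a b, (ρ n - ρ (n + 1)) = ρ a - ρ b := by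
    rw [← neg_inj, ← Finset.sum_neg_distrib]
    simp only [neg_sub]
    exact Finset.sum_Ico_sub ρ hab
  rw [e2]
  have hb : |critWeight G τ b| ≤ C₀ * ρ b := by
    rw [critWeight, abs_mul, ← show ρ b = critRoot τ b by simp only [hρ], abs_of_nonneg (hρ0 b)]
    exact mul_le_mul_of_nonneg_right (h₀ _) (hρ0 b)
  have h5 : C₁ * ρ a * (l b - l a) ≤ C₁ * ρ a * 3 :=
    mul_le_mul_of_nonneg_left (by linarith) (mul_nonneg hC₁ (hρ0 a))
  calc |critWeight G τ b| + (C₀ * (ρ a - ρ b) + C₁ * ρ a * (l b - l a))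
      ≤ C₀ * ρ b + (C₀ * (ρ a - ρ b) + C₁ * ρ a * 3) := by linarith
    _ = (C₀ + 3 * C₁) * ρ a := by ring
    _ ≤ _ := mul_le_mul (by linarith) hρa (hρ0 a) (by positivity)

/-- Dyadic cutting. -/
theorem sum_Ico_dyadic (f : ℕ → ℂ) {N : ℕ} (hN : 1 ≤ N) : ∀ J : ℕ,
    ∑ j ∈ Finset.range J, ∑ n ∈ Finset.Ico (min (2 ^ j) N) (min (2 ^ (j + 1)) N), f n =
      ∑ n ∈ Finset.Ico 1 (min (2 ^ J) N), f n := by
  intro J
  induction J with
  | zero => simp [hN]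
  | succ J ih =>
    rw [Finset.sum_range_succ, ih, Finset.sum_Ico_consecutive]
    · exact le_min Nat.one_le_two_pow hN
    · exact min_le_min_right _ (Nat.pow_le_pow_right two_pos (by omega))

/-- **The window against partial sums of `d (n) e (F (τ, n))`.** -/
theorem exists_window_dual_le : ∃ C, 0 ≤ C ∧ ∀ (M : ℕ) (G c w : ℝ),
    Range M G (c / (2 * π)) → 16 ≤ G → 1 ≤ w → w ^ 4 ≤ G → 32 * w ^ 2 ≤ √(c / (2 * π)) →
    c / (2 * π) ≤ w ^ 6 * G ^ 3 → ∃ k : ℕ → ℕ,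
      (∀ j, 2 ^ j ≤ k j ∧ k j ≤ 2 ^ (j + 1) ∧
        ∀ n ∈ Finset.Ico (2 ^ j) (k j), (n : ℝ) < 2 * (c / (2 * π)) / G ^ 2) ∧
      ∫ t, ‖dirPoly M t‖ ^ 2 * phiFn ((t - c) / (2 * π * G)) ≤ C * G * (1 + Real.log (2 * M) +
        ∑ j ∈ Finset.range (Nat.log 2 (2 * M) + 1),
          (√√(c / (2 * π) * (2 ^ j : ℕ)))⁻¹ * ‖blockSum (c / (2 * π)) (2 ^ j) (k j)‖) := by
  obtain ⟨A, hA, hwin⟩ := exists_window_le
  obtain ⟨K, hK, hst⟩ := exists_stationary
  obtain ⟨Ca, hCa, hamp⟩ := exists_symbol_amp isTest_etaFn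
  obtain ⟨Cf, hCf, hfr⟩ := exists_fresnel_le
  obtain ⟨Cv, hCv, hvar⟩ := exists_critWeight_var
  obtain ⟨E, hE⟩ : ∃ E, E = K * Ca * 28 := ⟨_, rfl⟩
  have hE0 : 0 ≤ E := hE ▸ by positivity
  refine ⟨A * (1 + E + Cf * Cv), by positivity, fun M G c w hr hG hw hwG hwτ hτw => ?_⟩
  obtain ⟨τ, hτd⟩ : ∃ τ, τ = c / (2 * π) := ⟨_, rfl⟩
  rw [← hτd] at hr hwτ hτw ⊢
  have h0 := hwin M G c (hτd ▸ hr)
  rw [← hτd] at h0
  have hτ0 : 0 < τ := by linarith [hr.tau_pos]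
  have hG0 : 0 < G := by linarith
  have hw0 : 0 < w := by linarith
  have hGsq : G ^ 2 ≤ τ := hr.Gsq
  obtain ⟨q, hq⟩ : ∃ q, q = 2 * τ / G ^ 2 := ⟨_, rfl⟩
  have hqG : q * G ^ 2 = 2 * τ := by rw [hq, div_mul_cancel₀ _ (by positivity)]
  have hq2 : 2 ≤ q := by rw [hq, le_div_iff₀ (by positivity)]; linarith
  obtain ⟨N, hN⟩ : ∃ N, N = ⌈q⌉₊ := ⟨_, rfl⟩
  rw [← hq, ← hN] at h0
  rw [← hq]
  have hN1 : 1 ≤ N := hN ▸ Nat.one_le_ceil_iff.2 (by linarith)
  have hNq : (N : ℝ) ≤ 2 * q := by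
    have := (Nat.ceil_lt_add_one (show 0 ≤ q by linarith)).le
    rw [← hN] at this
    linarith
  have hNτ : (N : ℝ) ≤ τ := by
    nlinarith [mul_le_mul_of_nonneg_left (show (4 : ℝ) ≤ G ^ 2 by nlinarith) (show 0 ≤ q by linarith)]
  have hNM : N ≤ 2 * M := by
    have : (N : ℝ) ≤ ((2 * M : ℕ) : ℝ) := by push_cast; linarith [hr.τM]
    exact_mod_cast this
  -- the critical points
  have hcrit : ∀ x : ℝ, 1 ≤ x → x ≤ N → G / 3 ≤ crit τ x ∧ √(τ * x) / 2 ≤ crit τ x * x := by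
    intro x hx hxN
    have hx0 : 0 < x := by linarith
    have h1 := crit_mul_succ hτ0.le hx0
    have h2 : G ^ 2 / 4 ≤ τ / x := by
      rw [le_div_iff₀ hx0]
      nlinarith [mul_le_mul_of_nonneg_left (hxN.trans hNq) (sq_nonneg G)]
    have h3 : 0 ≤ crit τ x := crit_nonneg hτ0.le hx0
    have h4 : G / 3 ≤ crit τ x := by nlinarith
    refine ⟨h4, ?_⟩
    rw [div_le_iff₀ two_pos, Real.sqrt_le_left (by positivity)]
    have h5 : τ = crit τ x * (crit τ x + 1) * x := by rw [h1, div_mul_cancel₀ _ hx0.ne']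
    nlinarith [mul_nonneg (mul_nonneg h3 (sq_nonneg x)) (show 0 ≤ 3 * crit τ x - 1 by linarith)]
  obtain ⟨α, hα⟩ : ∃ α, α = 1 / (4 * √τ) := ⟨_, rfl⟩
  have hs0 : 0 < √τ := Real.sqrt_pos.2 hτ0
  obtain ⟨f₁, f₂, hf⟩ := hamp G α 0 (by linarith) (hα ▸ by positivity) le_rfl
  have hzero : ∀ u, 0 < u → u ≤ 2 * G ∨ 64 * (M : ℝ) / 2 ≤ u → amp etaFn G α 0 u = 0 := by
    intro u hu h
    rcases h with h | h
    · exact amp_eq_zero_left isTest_etaFn (by linarith) hu h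
    · refine amp_eq_zero_right ?_
      rw [hα, div_mul_eq_mul_div, one_mul, le_div_iff₀ (by positivity)]
      nlinarith [Real.sq_sqrt hτ0.le, hr.τM, hr.tau_pos]
  obtain ⟨Err, hErr⟩ : ∃ Err : ℕ → ℝ, Err = fun n : ℕ => (n.divisors.card : ℝ) *
      (2 * (w ^ 4 / √(τ * n)) + 2 * (1 / (w ^ 3 * √√(τ * n))) + 1 / (G * n) ^ 2) := ⟨_, rfl⟩
  have hterm : ∀ n ∈ Finset.Ico 1 N, ‖(n.divisors.card : ℂ) * dualInt M G τ n -
      fresnel w * ((n.divisors.card : ℂ) * ((critWeight G τ n : ℂ) * eTau (critPhase τ n)))‖ ≤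
        K * Ca * Err n := by
    intro n hn
    rw [Finset.mem_Ico] at hn
    have hn1 : (1 : ℝ) ≤ n := Nat.one_le_cast.2 hn.1
    have hnN : (n : ℝ) ≤ N := Nat.cast_le.2 hn.2.le
    have hn0 : (0 : ℝ) < n := by linarith
    obtain ⟨h1, h2⟩ := hcrit n hn1 hnN
    have h8 : 8 ≤ crit τ n := by
      have h3 := crit_mul_succ hτ0.le hn0
      have h4 : (n : ℝ) < q := by rw [← Nat.lt_ceil, ← hN]; exact hn.2
      have h5 : G ^ 2 / 2 ≤ τ / n := by
        rw [le_div_iff₀ hn0]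
        nlinarith [mul_le_mul_of_nonneg_left h4.le (sq_nonneg G)]
      nlinarith
    have hst' : √τ ≤ √(τ * n) := Real.sqrt_le_sqrt (le_mul_of_one_le_right hτ0.le hn1)
    have h := hst G (64 * (M : ℝ)) Ca τ w n (amp etaFn G α 0) f₁ f₂ (by linarith) hr.GM hτ0 hn1 hw
      (by linarith) h8 hf hzero
    rw [hα, main_term_eq hτ0 hn1, ← hα] at h
    have he : (n.divisors.card : ℂ) * dualInt M G τ n -
        fresnel w * ((n.divisors.card : ℂ) * ((critWeight G τ n : ℂ) * eTau (critPhase τ n))) =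
        (n.divisors.card : ℂ) * ((∫ u in G..64 * (M : ℝ), (amp etaFn G α 0 u : ℂ) *
          eTau (phaseFn τ n u)) - fresnel w * (critWeight G τ n : ℂ) *
            eTau (phaseFn τ n (crit τ n))) := by
      rw [dualInt, hα, critPhase]; ring
    rw [he, norm_mul, Complex.norm_natCast, hErr]
    refine (mul_le_mul_of_nonneg_left h (Nat.cast_nonneg _)).trans ?_
    have hp : 0 < √(τ * (n : ℝ)) := Real.sqrt_pos.2 (by positivity)
    have e1 : w ^ 4 / (crit τ n * n) ≤ 2 * (w ^ 4 / √(τ * n)) := by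
      rw [show 2 * (w ^ 4 / √(τ * n)) = w ^ 4 / (√(τ * n) / 2) by field_simp]
      exact div_le_div_of_nonneg_left (by positivity) (by positivity) h2
    have e2 : 1 / (w ^ 3 * √(crit τ n * n)) ≤ 2 * (1 / (w ^ 3 * √√(τ * n))) := by
      rw [show 2 * (1 / (w ^ 3 * √√(τ * n))) = 1 / (w ^ 3 * (√√(τ * n) / 2)) by field_simp]
      refine one_div_le_one_div_of_le (by positivity) (mul_le_mul_of_nonneg_left ?_ (by positivity))
      rw [Real.le_sqrt (by positivity) (by positivity), div_pow, Real.sq_sqrt (Real.sqrt_nonneg _)]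
      linarith
    calc (n.divisors.card : ℝ) * (K * Ca * (w ^ 4 / (crit τ n * n) +
          1 / (w ^ 3 * √(crit τ n * n)) + 1 / (G * n) ^ 2))
        ≤ (n.divisors.card : ℝ) * (K * Ca * (2 * (w ^ 4 / √(τ * n)) +
            2 * (1 / (w ^ 3 * √√(τ * n))) + 1 / (G * n) ^ 2)) := by gcongr
      _ = _ := by ring
  -- the errors
  obtain ⟨L, hL⟩ : ∃ L, L = 1 + Real.log (2 * M) := ⟨_, rfl⟩
  have hL1 : 1 ≤ L := by
    rw [hL]; linarith [Real.log_nonneg (show (1 : ℝ) ≤ 2 * M by linarith [hr.M_pos])]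
  have hsN : √(N : ℝ) ≤ 2 * (√τ / G) := by
    rw [Real.sqrt_le_left (by positivity), mul_pow, div_pow, Real.sq_sqrt hτ0.le]
    rw [hq] at hNq
    linarith [show 2 * (2 * τ / G ^ 2) = 2 ^ 2 * (τ / G ^ 2) by ring]
  have hdsum : ∑ n ∈ Finset.Ico 1 N, (n.divisors.card : ℝ) / √(n : ℝ) ≤ 4 * (√τ / G) * L := by
    have h := FA.FourthMoment.sum_d_rpow_le N
    have e : ∀ n : ℕ, (n.divisors.card : ℝ) * (n : ℝ) ^ (-(1 / 2) : ℝ) =
        (n.divisors.card : ℝ) / √(n : ℝ) := fun n => by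
      rw [Real.rpow_neg (Nat.cast_nonneg n), ← Real.sqrt_eq_rpow, div_eq_mul_inv]
    simp only [e] at h
    refine (Finset.sum_le_sum_of_subset_of_nonneg (fun x hx => ?_) fun _ _ _ => by positivity).trans
      (h.trans ?_)
    · rw [Finset.mem_Ico] at hx; rw [Finset.mem_Icc]; omega
    · have hl : FA.ThreePrimes.logOne N ≤ L := by
        rw [hL, FA.ThreePrimes.logOne]
        have hN0 : (0 : ℝ) < N := Nat.cast_pos.2 hN1
        have := Real.log_le_log hN0 (show (N : ℝ) ≤ 2 * M by exact_mod_cast hNM)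
        linarith
      calc 2 * √(N : ℝ) * FA.ThreePrimes.logOne N ≤ 2 * √(N : ℝ) * L :=
            mul_le_mul_of_nonneg_left hl (by positivity)
        _ ≤ 2 * (2 * (√τ / G)) * L := by gcongr
        _ = _ := by ring
  have hEsum : ∑ n ∈ Finset.Ico 1 N, Err n ≤ 28 * L := by
    have hG1 : (1 : ℝ) ≤ G := by linarith
    obtain ⟨S, hS⟩ : ∃ S, S = ∑ n ∈ Finset.Ico 1 N, (n.divisors.card : ℝ) / √(n : ℝ) := ⟨_, rfl⟩
    have hle : ∀ n ∈ Finset.Ico 1 N, Err n ≤ (2 * (w ^ 4 / √τ) +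
        2 * (√√(N : ℝ) / (w ^ 3 * √√τ)) + 1 / G ^ 2) * ((n.divisors.card : ℝ) / √(n : ℝ)) := by
      intro n hn
      rw [Finset.mem_Ico] at hn
      have hn1 : (1 : ℝ) ≤ n := Nat.one_le_cast.2 hn.1
      have hn0 : (0 : ℝ) < n := by linarith
      obtain ⟨s, hs⟩ : ∃ s, s = √(n : ℝ) := ⟨_, rfl⟩
      have hs1 : 1 ≤ s := hs ▸ Real.one_le_sqrt.2 hn1
      obtain ⟨r, hr⟩ : ∃ r, r = √s := ⟨_, rfl⟩
      have hr2 : r * r = s := by rw [hr, Real.mul_self_sqrt (by linarith)]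
      have hr0 : 0 < r := hr ▸ Real.sqrt_pos.2 (by linarith)
      have hrN : r ≤ √√(N : ℝ) := by
        rw [hr, hs]; exact Real.sqrt_le_sqrt (Real.sqrt_le_sqrt (Nat.cast_le.2 hn.2.le))
      have hss : s ≤ (n : ℝ) ^ 2 := by
        have e : s * s = (n : ℝ) := by rw [hs, Real.mul_self_sqrt hn0.le]
        nlinarith
      have e1 : √(τ * n) = √τ * s := by rw [hs, Real.sqrt_mul hτ0.le]
      have e2 : √√(τ * n) = √√τ * r := by rw [e1, hr, Real.sqrt_mul (Real.sqrt_nonneg _)]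
      simp only [hErr]
      rw [e2, e1, ← hs]
      have hd : (0 : ℝ) ≤ n.divisors.card := Nat.cast_nonneg _
      have hs4 : 0 < √√τ := Real.sqrt_pos.2 hs0
      calc (n.divisors.card : ℝ) * (2 * (w ^ 4 / (√τ * s)) + 2 * (1 / (w ^ 3 * (√√τ * r))) +
            1 / (G * n) ^ 2)
          = (n.divisors.card : ℝ) * (2 * (w ^ 4 / √τ) * (1 / s) +
              2 * (r / (w ^ 3 * √√τ)) * (1 / s) + 1 / G ^ 2 * (1 / (n : ℝ) ^ 2)) := by
            rw [← hr2]; field_simp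
        _ ≤ (n.divisors.card : ℝ) * (2 * (w ^ 4 / √τ) * (1 / s) +
              2 * (√√(N : ℝ) / (w ^ 3 * √√τ)) * (1 / s) + 1 / G ^ 2 * (1 / s)) := by gcongr
        _ = _ := by ring
    refine (Finset.sum_le_sum hle).trans ?_
    rw [← Finset.mul_sum]
    refine (mul_le_mul_of_nonneg_left hdsum (by positivity)).trans ?_
    have t1 : w ^ 4 / √τ * (√τ / G) ≤ 1 := by
      rw [div_mul_div_comm, mul_comm √τ G, mul_div_mul_right _ _ hs0.ne', div_le_one hG0]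
      exact hwG
    have t2 : √√(N : ℝ) / (w ^ 3 * √√τ) * (√τ / G) ≤ 2 := by
      refine (pow_le_pow_iff_left₀ (by positivity) two_pos.le (show 4 ≠ 0 by norm_num)).1 ?_
      have e4 : ∀ x : ℝ, 0 ≤ x → √√x ^ 4 = x := fun x hx => by
        rw [show 4 = 2 * 2 from rfl, pow_mul, Real.sq_sqrt (Real.sqrt_nonneg _), Real.sq_sqrt hx]
      rw [mul_pow, div_pow, div_pow, mul_pow, e4 _ (Nat.cast_nonneg N), e4 _ hτ0.le,
        show √τ ^ 4 = τ ^ 2 by rw [show 4 = 2 * 2 from rfl, pow_mul, Real.sq_sqrt hτ0.le]]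
      calc (N : ℝ) / ((w ^ 3) ^ 4 * τ) * (τ ^ 2 / G ^ 4)
          ≤ 4 * τ / G ^ 2 / ((w ^ 3) ^ 4 * τ) * (τ ^ 2 / G ^ 4) := by
            gcongr
            rw [hq] at hNq
            exact hNq.trans (le_of_eq (by ring))
        _ = 4 * (τ / (w ^ 6 * G ^ 3)) ^ 2 := by field_simp
        _ ≤ 4 * 1 ^ 2 := by
            gcongr
            rw [div_le_one (by positivity)]
            exact hτw
        _ ≤ _ := by norm_num
    have t3 : 1 / G ^ 2 * (√τ / G) ≤ √τ / G ^ 3 := le_of_eq (by field_simp)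
    have t4 : √τ / G ^ 3 ≤ 1 := by
      rw [div_le_one (by positivity), Real.sqrt_le_left (by positivity)]
      refine hτw.trans ?_
      have h12 : w ^ 12 ≤ G ^ 3 := by
        have := pow_le_pow_left₀ (by positivity) hwG 3
        linarith [show (w ^ 4) ^ 3 = w ^ 12 by ring]
      have : w ^ 6 ≤ w ^ 12 := pow_le_pow_right₀ hw (by norm_num)
      nlinarith [pow_pos hG0 3]
    have : 0 ≤ L := by linarith
    calc _ = 4 * L * (2 * (w ^ 4 / √τ * (√τ / G)) + 2 * (√√(N : ℝ) / (w ^ 3 * √√τ) * (√τ / G)) +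
          1 / G ^ 2 * (√τ / G)) := by ring
      _ ≤ 4 * L * (2 * 1 + 2 * 2 + 1) := by
          gcongr
          exact t3.trans t4
      _ = _ := by ring
  -- the blocks
  obtain ⟨c', hc'⟩ : ∃ c' : ℕ → ℂ,
      c' = fun n : ℕ => (n.divisors.card : ℂ) * eTau (critPhase τ n) := ⟨_, rfl⟩
  obtain ⟨J, hJ⟩ : ∃ J, J = Nat.log 2 (2 * M) + 1 := ⟨_, rfl⟩
  have hk : ∀ j : ℕ, ∃ k : ℕ, 2 ^ j ≤ k ∧ k ≤ 2 ^ (j + 1) ∧
      (∀ n ∈ Finset.Ico (2 ^ j) k, (n : ℝ) < q) ∧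
      ‖∑ n ∈ Finset.Ico (min (2 ^ j) N) (min (2 ^ (j + 1)) N), (critWeight G τ n : ℂ) * c' n‖ ≤
        Cv * (√√(τ * (2 ^ j : ℕ)))⁻¹ * ‖blockSum τ (2 ^ j) k‖ := by
    intro j
    have hj2 : 2 ^ j ≤ 2 ^ (j + 1) := Nat.pow_le_pow_right two_pos (by omega)
    rcases le_or_gt N (2 ^ j) with h | h
    · refine ⟨2 ^ j, le_rfl, hj2, fun n hn => by simp at hn, ?_⟩
      rw [min_eq_right h, min_eq_right (h.trans hj2)]
      simp only [Finset.Ico_self, Finset.sum_empty, norm_zero]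
      positivity
    obtain ⟨b, hb⟩ : ∃ b, b = min (2 ^ (j + 1)) N := ⟨_, rfl⟩
    have hab : 2 ^ j ≤ b := hb ▸ le_min hj2 h.le
    obtain ⟨k, hkm, hmax⟩ := Finset.exists_max_image (Finset.Icc (2 ^ j) b)
      (fun m => ‖blockSum τ (2 ^ j) m‖) ⟨_, Finset.left_mem_Icc.2 hab⟩
    rw [Finset.mem_Icc] at hkm
    have hb1 : b ≤ 2 ^ (j + 1) := hb ▸ min_le_left _ _
    have hb2 : b ≤ N := hb ▸ min_le_right _ _
    refine ⟨k, hkm.1, hkm.2.trans hb1, fun n hn => ?_, ?_⟩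
    · rw [Finset.mem_Ico] at hn
      rw [← Nat.lt_ceil, ← hN]
      omega
    rw [min_eq_left h.le, ← hb]
    refine (norm_sum_weight_var_le c' (fun n : ℕ => critWeight G τ n) hab
      (B := ‖blockSum τ (2 ^ j) k‖) fun m hm hm' => ?_).trans ?_
    · have := hmax m (Finset.mem_Icc.2 ⟨hm, hm'⟩)
      simp only [hc']
      exact this
    · refine mul_le_mul_of_nonneg_right ?_ (norm_nonneg _)
      refine hvar G τ (2 ^ j) b hG0 hτ0 Nat.one_le_two_pow hab ?_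
      exact (hcrit b (Nat.one_le_cast.2 (Nat.one_le_two_pow.trans hab)) (Nat.cast_le.2 hb2)).1
  choose k hk1 hk2 hk3 hk4 using hk
  refine ⟨k, fun j => ⟨hk1 j, hk2 j, hk3 j⟩, ?_⟩
  rw [← hJ, ← hL]
  obtain ⟨B, hB⟩ : ∃ B, B = ∑ j ∈ Finset.range J,
      (√√(τ * (2 ^ j : ℕ)))⁻¹ * ‖blockSum τ (2 ^ j) (k j)‖ := ⟨_, rfl⟩
  have hB0 : 0 ≤ B := hB ▸ Finset.sum_nonneg fun j _ => by positivity
  rw [← hB]
  have hmain : ‖∑ n ∈ Finset.Ico 1 N, (critWeight G τ n : ℂ) * c' n‖ ≤ Cv * B := by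
    have hN2 : min (2 ^ J) N = N := min_eq_right (hNM.trans
      (hJ ▸ (Nat.lt_pow_succ_log_self one_lt_two (2 * M)).le))
    have e := sum_Ico_dyadic (fun n => (critWeight G τ n : ℂ) * c' n) hN1 J
    rw [hN2] at e
    rw [← e, hB, Finset.mul_sum]
    exact norm_sum_le_of_le _ fun j _ => (hk4 j).trans (le_of_eq (mul_assoc _ _ _))
  have hD : ‖∑ n ∈ Finset.Ico 1 N, (n.divisors.card : ℂ) * dualInt M G τ n‖ ≤
      E * L + Cf * Cv * B := by
    have h1 := norm_le_norm_sub_add (∑ n ∈ Finset.Ico 1 N, (n.divisors.card : ℂ) * dualInt M G τ n)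
      (fresnel w * ∑ n ∈ Finset.Ico 1 N, (critWeight G τ n : ℂ) * c' n)
    refine h1.trans (add_le_add ?_ ?_)
    · rw [Finset.mul_sum, ← Finset.sum_sub_distrib]
      refine (norm_sum_le_of_le _ (n := fun n => K * Ca * Err n) fun n hn => ?_).trans ?_
      · refine le_trans (le_of_eq ?_) (hterm n hn)
        congr 1
        simp only [hc']
        ring
      · rw [← Finset.mul_sum, hE, mul_assoc (K * Ca) 28]
        exact mul_le_mul_of_nonneg_left hEsum (by positivity)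
    · rw [norm_mul, mul_assoc]
      exact mul_le_mul (hfr w hw) hmain (norm_nonneg _) hCf
  refine h0.trans ?_
  rw [← hL]
  have hP : 0 ≤ A * G := by positivity
  calc A * G * (L + ‖∑ n ∈ Finset.Ico 1 N, (n.divisors.card : ℂ) * dualInt M G τ n‖)
      ≤ A * G * (L + (E * L + Cf * Cv * B)) := by gcongr
    _ ≤ A * G * ((1 + E + Cf * Cv) * (L + B)) := by
        refine mul_le_mul_of_nonneg_left ?_ hP
        have : 0 ≤ E * B := mul_nonneg hE0 hB0
        have : 0 ≤ Cf * Cv * L := by positivity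
        linarith
    _ = _ := by ring

end FA.TwelfthMoment

end
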