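import Fermat.Agent.TwelfthMoment.DualSum

/-!
# The kernel

The derivative in `n` of the phase at the critical point is the critical point itself, so the
differences `F (τ, n) - F (σ, n)` have derivative `≍ Δ / √(T K)` and second derivative
`≍ Δ / (√T K ^ (3/2))` for `n ≍ K`, `Δ = τ - σ`.
-/

set_option autoImplicit false

noncomputable section

namespace FA.TwelfthMoment

open Filter Set
open FA.Subconvexity (expI expI_add conj_expI norm_expI)
open scoped Real Topology ComplexConjugate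

/-- `√(x (x + 4τ))`. -/
def critDen (τ x : ℝ) : ℝ := √(x * (x + 4 * τ))

theorem hasDerivAt_crit (τ : ℝ) {x : ℝ} (hτ : 0 ≤ τ) (hx : 0 < x) :
    HasDerivAt (crit τ) (-(4 * τ / x ^ 2) / (2 * √(1 + 4 * τ / x)) / 2) x := by
  have h1 : HasDerivAt (fun v : ℝ => 1 + 4 * τ / v) (-(4 * τ / x ^ 2)) x := by
    simpa [div_eq_mul_inv, mul_comm, mul_assoc, mul_left_comm] using
      (((hasDerivAt_inv hx.ne').const_mul (4 * τ)).const_add (1 : ℝ))
  exact ((h1.sqrt (by positivity)).sub_const 1).div_const 2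

/-- The derivative in `n` is the critical point. -/
theorem hasDerivAt_critPhase {τ x : ℝ} (hτ : 0 < τ) (hx : 0 < x) :
    HasDerivAt (critPhase τ) (crit τ x) x := by
  have hc := hasDerivAt_crit τ hτ.le hx
  have h1 := ((hasDerivAt_logStep (crit_pos hτ hx)).comp x hc).const_mul τ
  have h2 := (hasDerivAt_id' x).mul hc
  refine (h1.add h2).congr_deriv ?_
  rw [crit_mul_succ hτ.le hx]
  field_simp
  ring

theorem critDen_eq {τ x : ℝ} (hx : 0 < x) : critDen τ x = x * √(1 + 4 * τ / x) := by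
  rw [critDen, show x * (x + 4 * τ) = x ^ 2 * (1 + 4 * τ / x) by field_simp,
    Real.sqrt_mul (sq_nonneg x), Real.sqrt_sq hx.le]

theorem crit_sub_crit {τ σ x : ℝ} (hτ : 0 ≤ τ) (hσ : 0 ≤ σ) (hx : 0 < x) :
    crit τ x - crit σ x = 2 * (τ - σ) / (critDen τ x + critDen σ x) := by
  rw [critDen_eq hx, critDen_eq hx, crit, crit]
  obtain ⟨A, hA⟩ : ∃ A, A = √(1 + 4 * τ / x) := ⟨_, rfl⟩
  obtain ⟨B, hB⟩ : ∃ B, B = √(1 + 4 * σ / x) := ⟨_, rfl⟩
  have hA2 : A * A = 1 + 4 * τ / x := hA ▸ Real.mul_self_sqrt (by positivity)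
  have hB2 : B * B = 1 + 4 * σ / x := hB ▸ Real.mul_self_sqrt (by positivity)
  have hA0 : 0 < A := hA ▸ Real.sqrt_pos.2 (by positivity)
  have hB0 : 0 < B := hB ▸ Real.sqrt_pos.2 (by positivity)
  rw [← hA, ← hB, eq_div_iff (by positivity)]
  have e : x * (4 * τ / x) = 4 * τ := by field_simp
  have e' : x * (4 * σ / x) = 4 * σ := by field_simp
  linear_combination (x / 2) * hA2 - (x / 2) * hB2 + e / 2 - e' / 2

theorem critDen_bounds {T τ x : ℝ} {K : ℕ} (hT : 0 ≤ T) (hτ : T / 10 ≤ τ) (hτ' : τ ≤ T)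
    (hx : (K : ℝ) ≤ x) (hx' : x ≤ 2 * K) (hxτ : x ≤ τ) :
    √(T * K) / 2 ≤ critDen τ x ∧ critDen τ x ≤ 4 * √(T * K) := by
  have hK : (0 : ℝ) ≤ K := Nat.cast_nonneg K
  have hx0 : 0 ≤ x := hK.trans hx
  have h1 : T * K / 10 ≤ τ * x := by
    have := mul_le_mul hτ hx hK (by linarith)
    linarith
  have h2 : τ * x ≤ T * (2 * K) := mul_le_mul hτ' hx' hx0 hT
  constructor
  · rw [critDen, Real.le_sqrt (by positivity) (by nlinarith), div_pow,
      Real.sq_sqrt (by positivity)]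
    nlinarith
  · rw [critDen, Real.sqrt_le_left (by positivity), mul_pow, Real.sq_sqrt (by positivity)]
    nlinarith

/-- The increase of `critDen`. -/
theorem critDen_step {T τ x : ℝ} {K : ℕ} (hK : 1 ≤ K) (hT : 0 < T) (hτ : T / 10 ≤ τ)
    (hτ' : τ ≤ T) (hx : (K : ℝ) ≤ x) (hx' : x + 1 ≤ 2 * K) (hxτ : x + 1 ≤ τ) :
    √(T * K) / (20 * K) ≤ critDen τ (x + 1) - critDen τ x ∧
      critDen τ (x + 1) - critDen τ x ≤ 8 * √(T * K) / K := by
  have hK0 : (0 : ℝ) < K := Nat.cast_pos.2 hK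
  obtain ⟨a1, a2⟩ := critDen_bounds (K := K) hT.le hτ hτ' hx (by linarith) (by linarith)
  obtain ⟨b1, b2⟩ := critDen_bounds (x := x + 1) (K := K) hT.le hτ hτ' (by linarith) hx' hxτ
  obtain ⟨s, hs⟩ : ∃ s, s = √(T * K) := ⟨_, rfl⟩
  rw [← hs] at a1 a2 b1 b2 ⊢
  have hs0 : 0 < s := hs ▸ Real.sqrt_pos.2 (by positivity)
  have hs2 : s * s = T * K := hs ▸ Real.mul_self_sqrt (by positivity)
  have e : (critDen τ (x + 1) - critDen τ x) * (critDen τ (x + 1) + critDen τ x) =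
      2 * x + 1 + 4 * τ := by
    have h1 := Real.mul_self_sqrt (show 0 ≤ (x + 1) * (x + 1 + 4 * τ) by nlinarith)
    have h2 := Real.mul_self_sqrt (show 0 ≤ x * (x + 4 * τ) by nlinarith)
    rw [critDen, critDen]
    linear_combination h1 - h2
  have hsum : 0 < critDen τ (x + 1) + critDen τ x := by linarith
  have e' : critDen τ (x + 1) - critDen τ x =
      (2 * x + 1 + 4 * τ) / (critDen τ (x + 1) + critDen τ x) := by
    rw [eq_div_iff hsum.ne']; exact e
  rw [e']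
  constructor
  · rw [div_le_div_iff₀ (by positivity) hsum]
    calc s * (critDen τ (x + 1) + critDen τ x) ≤ s * (8 * s) := by gcongr; linarith
      _ = 8 * (T * K) := by rw [← hs2]; ring
      _ ≤ _ := by nlinarith
  · rw [div_le_div_iff₀ hsum hK0]
    calc (2 * x + 1 + 4 * τ) * K ≤ (8 * T) * K := by gcongr; linarith
      _ = 8 * (s * s) := by rw [hs2]; ring
      _ = 8 * s * s := by ring
      _ ≤ _ := by gcongr; linarith

/-- **The kernel.** -/
theorem norm_kernel_le {T τ σ : ℝ} {K a b : ℕ} (hK : 1 ≤ K) (hT : 0 < T) (hτ : T / 10 ≤ τ)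
    (hτ' : τ ≤ T) (hσ : T / 10 ≤ σ) (hσ' : σ ≤ T) (ha : K ≤ a) (hb : b ≤ 2 * K)
    (hbT : (b : ℝ) ≤ T / 10) (hne : τ ≠ σ) :
    ‖∑ n ∈ Finset.Ico a b, eTau (critPhase τ n) * conj (eTau (critPhase σ n))‖ ≤
      20000 * (√(T * K) / |τ - σ| + √(|τ - σ| * K / √(T * K))) := by
  wlog hlt : σ < τ generalizing τ σ with H
  · have h := H hσ hσ' hτ hτ' hne.symm (lt_of_le_of_ne (not_lt.1 hlt) hne)
    rw [abs_sub_comm, ← Complex.norm_conj, map_sum]
    refine le_trans (le_of_eq (congrArg norm (Finset.sum_congr rfl fun n _ => ?_))) h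
    rw [map_mul, Complex.conj_conj, mul_comm]
  obtain ⟨Δ, hΔ⟩ : ∃ Δ, Δ = τ - σ := ⟨_, rfl⟩
  have hΔ0 : 0 < Δ := by rw [hΔ]; linarith
  rw [← hΔ, abs_of_pos hΔ0]
  have hτ0 : 0 < τ := by linarith
  have hσ0 : 0 < σ := by linarith
  have hK0 : (0 : ℝ) < K := Nat.cast_pos.2 hK
  obtain ⟨s, hs⟩ : ∃ s, s = √(T * K) := ⟨_, rfl⟩
  have hs0 : 0 < s := hs ▸ Real.sqrt_pos.2 (by positivity)
  rw [← hs]
  obtain ⟨D, hD⟩ : ∃ D : ℝ → ℝ, D = fun x => 2 * π * critPhase τ x - 2 * π * critPhase σ x :=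
    ⟨_, rfl⟩
  obtain ⟨D', hD'⟩ : ∃ D' : ℝ → ℝ,
      D' = fun x => 4 * π * Δ / (critDen τ x + critDen σ x) := ⟨_, rfl⟩
  have hDd : ∀ x, 0 < x → HasDerivAt D (D' x) x := fun x hx => by
    rw [hD, hD']
    refine (((hasDerivAt_critPhase hτ0 hx).const_mul (2 * π)).sub
      ((hasDerivAt_critPhase hσ0 hx).const_mul (2 * π))).congr_deriv ?_
    rw [← mul_sub, crit_sub_crit hτ0.le hσ0.le hx, ← hΔ]
    ring
  have hsum : ∑ n ∈ Finset.Ico a b, eTau (critPhase τ n) * conj (eTau (critPhase σ n)) =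
      ∑ n ∈ Finset.Ico a b, expI (D (n : ℕ)) := Finset.sum_congr rfl fun n _ => by
    simp only [hD, eTau, sub_eq_add_neg]
    rw [expI_add, conj_expI]
  rw [hsum]
  obtain ⟨φ, hφ⟩ : ∃ φ : ℕ → ℝ, φ = fun n : ℕ => D n := ⟨_, rfl⟩
  have hin : ∀ x : ℝ, (a : ℝ) ≤ x → x ≤ b → (K : ℝ) ≤ x ∧ x ≤ 2 * K ∧ x ≤ τ ∧ x ≤ σ ∧ 0 < x :=
    fun x hx hx' => by
    have h1 : (K : ℝ) ≤ a := Nat.cast_le.2 ha
    have h2 : (b : ℝ) ≤ 2 * K := by exact_mod_cast hb
    refine ⟨by linarith, by linarith, by linarith, by linarith, by linarith⟩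
  have hden : ∀ x : ℝ, (a : ℝ) ≤ x → x ≤ b →
      s ≤ critDen τ x + critDen σ x ∧ critDen τ x + critDen σ x ≤ 8 * s := fun x hx hx' => by
    obtain ⟨k1, k2, k3, k4, -⟩ := hin x hx hx'
    obtain ⟨a1, a2⟩ := critDen_bounds hT.le hτ hτ' k1 k2 k3
    obtain ⟨b1, b2⟩ := critDen_bounds hT.le hσ hσ' k1 k2 k4
    rw [← hs] at a1 a2 b1 b2
    constructor <;> linarith
  have hanti : ∀ x y : ℝ, (a : ℝ) ≤ x → x ≤ y → y ≤ b → D' y ≤ D' x := fun x y hx hxy hy => by
    simp only [hD']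
    have h1 := (hden x hx (hxy.trans hy)).1
    refine div_le_div_of_nonneg_left (by positivity) (by linarith) (add_le_add ?_ ?_)
    all_goals
      rw [critDen, critDen]
      refine Real.sqrt_le_sqrt ?_
      have := (hin x hx (hxy.trans hy)).2.2.2.2
      nlinarith
  have hslope : ∀ x : ℝ, (a : ℝ) ≤ x → x + 1 ≤ b →
      ∃ ξ, x < ξ ∧ ξ < x + 1 ∧ D (x + 1) - D x = D' ξ := fun x hx hx' => by
    obtain ⟨ξ, hξ, h⟩ := exists_hasDerivAt_eq_slope D D' (show x < x + 1 by linarith)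
      (fun v hv => (hDd v (hin v (hx.trans hv.1) (hv.2.trans hx')).2.2.2.2).continuousAt.continuousWithinAt)
      (fun v hv => hDd v (hin v (hx.trans hv.1.le) (hv.2.le.trans hx')).2.2.2.2)
    rw [add_sub_cancel_left, div_one] at h
    exact ⟨ξ, hξ.1, hξ.2, h.symm⟩
  have hcast : ∀ n : ℕ, n ∈ Finset.Ico a b → (a : ℝ) ≤ n ∧ (n : ℝ) + 1 ≤ b := fun n hn => by
    rw [Finset.mem_Ico] at hn
    exact ⟨Nat.cast_le.2 hn.1, by exact_mod_cast hn.2⟩
  rcases le_or_gt (4 * Δ) s with hsmall | hbig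
  · -- Kuzmin-Landau
    refine le_trans ?_ (mul_le_mul_of_nonneg_left (le_add_of_nonneg_right (Real.sqrt_nonneg _))
      (by norm_num))
    refine (FA.Subconvexity.norm_kuzmin_le (φ := fun n : ℕ => D n) (lam := π * Δ / (2 * s))
      (k := 0) (by positivity) (fun n hn => ?_) (Or.inr fun n hn hn' => ?_)).trans ?_
    · obtain ⟨h1, h2⟩ := hcast n hn
      obtain ⟨ξ, x1, x2, h⟩ := hslope n h1 h2
      obtain ⟨d1, d2⟩ := hden ξ (by linarith) (by linarith)
      push_cast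
      rw [h]
      simp only [hD', mul_zero, zero_add, mul_one]
      have u1 : π * Δ / (2 * s) ≤ 4 * π * Δ / (critDen τ ξ + critDen σ ξ) := by
        rw [div_le_div_iff₀ (by positivity) (by linarith)]
        nlinarith [mul_le_mul_of_nonneg_left d2 (by positivity : 0 ≤ π * Δ)]
      have u2 : 4 * π * Δ / (critDen τ ξ + critDen σ ξ) ≤ π := by
        rw [div_le_iff₀ (by linarith)]
        nlinarith [mul_le_mul_of_nonneg_left (hsmall.trans d1) Real.pi_pos.le]
      have u3 : π * Δ / (2 * s) ≤ π := by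
        rw [div_le_iff₀ (by positivity)]
        nlinarith [mul_le_mul_of_nonneg_left hsmall Real.pi_pos.le, mul_pos Real.pi_pos hs0]
      exact ⟨u1, by linarith⟩
    · obtain ⟨h1, h2⟩ := hcast n hn
      have h3 : (n : ℝ) + 1 + 1 ≤ b := by
        rw [Finset.mem_Ico] at hn
        exact_mod_cast (show n + 1 + 1 ≤ b by omega)
      obtain ⟨ξ, x1, x2, h⟩ := hslope n h1 h2
      obtain ⟨η, y1, y2, h'⟩ := hslope ((n : ℝ) + 1) (by linarith) h3
      push_cast
      rw [show (n : ℝ) + 2 = n + 1 + 1 by ring, h, h']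
      exact hanti ξ η (by linarith) (by linarith) (by linarith)
    · have h1 : 1 ≤ s / Δ := by rw [le_div_iff₀ hΔ0]; linarith
      rw [show 2 * π / (π * Δ / (2 * s)) = 4 * (s / Δ) by field_simp; ring]
      linarith
  · -- the second derivative test
    refine le_trans ?_ (mul_le_mul_of_nonneg_left (le_add_of_nonneg_left (by positivity))
      (by norm_num))
    rw [← FA.Subconvexity.norm_sum_expI_neg]
    obtain ⟨lam, hlam⟩ : ∃ lam, lam = Δ / (120 * (K * s)) := ⟨_, rfl⟩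
    have hlam0 : 0 < lam := hlam ▸ by positivity
    refine (FA.Subconvexity.norm_vdc_second_le (φ := fun n : ℕ => -D n) hlam0
      (A := 40000) (by norm_num) (fun n hn hn' => ?_)).trans ?_
    · have h1 : (a : ℝ) ≤ n := Nat.cast_le.2 hn
      have h3 : (n : ℝ) + 1 + 1 ≤ b := by exact_mod_cast (show n + 1 + 1 ≤ b by omega)
      obtain ⟨G, hG⟩ : ∃ G : ℝ → ℝ, G = fun x => D (x + 1) - D x := ⟨_, rfl⟩
      have hGd : ∀ v, (n : ℝ) ≤ v → v ≤ n + 1 → HasDerivAt G (D' (v + 1) - D' v) v := fun v hv hv' => by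
        rw [hG]
        exact ((hDd (v + 1) (hin _ (by linarith) (by linarith)).2.2.2.2).comp_add_const v 1).sub
          (hDd v (hin _ (by linarith) (by linarith)).2.2.2.2)
      obtain ⟨ξ, hξ, h⟩ := exists_hasDerivAt_eq_slope G (fun v => D' (v + 1) - D' v)
        (show (n : ℝ) < n + 1 by linarith)
        (fun v hv => (hGd v hv.1 hv.2).continuousAt.continuousWithinAt)
        (fun v hv => hGd v hv.1.le hv.2.le)
      rw [add_sub_cancel_left, div_one] at h
      have e : -D ((n + 2 : ℕ) : ℝ) - -D ((n + 1 : ℕ) : ℝ) -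
          (-D ((n + 1 : ℕ) : ℝ) - -D (n : ℝ)) = D' ξ - D' (ξ + 1) := by
        simp only [hG] at h
        push_cast
        rw [show (n : ℝ) + 2 = n + 1 + 1 by ring]
        linarith
      have x1 : (a : ℝ) ≤ ξ := by linarith [hξ.1]
      have x2 : ξ + 1 ≤ b := by linarith [hξ.2]
      obtain ⟨k1, -, -, -, -⟩ := hin ξ x1 (by linarith)
      obtain ⟨-, k2, k3, k4, -⟩ := hin (ξ + 1) (by linarith) x2
      obtain ⟨p1, p2⟩ := critDen_step hK hT hτ hτ' k1 k2 k3
      obtain ⟨q1, q2⟩ := critDen_step hK hT hσ hσ' k1 k2 k4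
      rw [← hs] at p1 p2 q1 q2
      obtain ⟨d1, d2⟩ := hden ξ x1 (by linarith)
      obtain ⟨e1, e2⟩ := hden (ξ + 1) (by linarith) x2
      obtain ⟨S₀, hS₀⟩ : ∃ S₀, S₀ = critDen τ ξ + critDen σ ξ := ⟨_, rfl⟩
      obtain ⟨S₁, hS₁⟩ : ∃ S₁, S₁ = critDen τ (ξ + 1) + critDen σ (ξ + 1) := ⟨_, rfl⟩
      have hdif : s / (10 * K) ≤ S₁ - S₀ ∧ S₁ - S₀ ≤ 16 * s / K := by
        rw [show s / (10 * K) = s / (20 * K) + s / (20 * K) by ring,
          show 16 * s / K = 8 * s / K + 8 * s / K by ring, hS₀, hS₁]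
        constructor <;> linarith
      have e3 : D' ξ - D' (ξ + 1) = 4 * π * Δ * (S₁ - S₀) / (S₀ * S₁) := by
        simp only [hD', ← hS₀, ← hS₁]
        have : S₀ ≠ 0 := by rw [hS₀]; linarith
        have : S₁ ≠ 0 := by rw [hS₁]; linarith
        field_simp
      rw [← hS₀] at d1 d2
      rw [← hS₁] at e1 e2
      rw [e, e3]
      have hS00 : 0 < S₀ := by linarith
      have hS10 : 0 < S₁ := by linarith
      have hd0 : 0 ≤ s / (10 * K) := by positivity
      constructor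
      · calc lam ≤ 4 * 3 * Δ * (s / (10 * K)) / (8 * s * (8 * s)) := by
              rw [hlam, show 4 * 3 * Δ * (s / (10 * K)) / (8 * s * (8 * s)) =
                Δ * (12 / 640) / (K * s) by field_simp; ring,
                show Δ / (120 * (K * s)) = Δ * (1 / 120) / (K * s) by ring]
              exact div_le_div_of_nonneg_right (mul_le_mul_of_nonneg_left (by norm_num) hΔ0.le)
                (by positivity)
          _ ≤ _ := by
              gcongr
              · exact mul_nonneg (by positivity) (by linarith)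
              · exact Real.pi_gt_three.le
              · exact hdif.1
      · calc 4 * π * Δ * (S₁ - S₀) / (S₀ * S₁) ≤ 4 * 4 * Δ * (16 * s / K) / (s * s) := by
              gcongr
              · linarith [hdif.1]
              · exact Real.pi_le_four
              · exact hdif.2
          _ = 256 * 120 * lam := by rw [hlam]; field_simp; ring
          _ ≤ _ := by linarith
    · obtain ⟨R, hR⟩ : ∃ R, R = √(Δ * K / s) := ⟨_, rfl⟩
      rw [← hR]
      have hba : ((b - a : ℕ) : ℝ) ≤ K := Nat.cast_le.2 (by omega)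
      have h1 : (K : ℝ) * √lam ≤ R / 10 := by
        rw [hR, le_div_iff₀ (by norm_num), Real.le_sqrt (by positivity) (by positivity), mul_pow,
          mul_pow, Real.sq_sqrt hlam0.le, hlam]
        rw [show (K : ℝ) ^ 2 * (Δ / (120 * (K * s))) * 10 ^ 2 = Δ * K / s * (100 / 120) by
          field_simp; ring]
        exact mul_le_of_le_one_right (by positivity) (by norm_num)
      have h2 : 1 / √lam ≤ 44 * R := by
        rw [hR, div_le_iff₀ (Real.sqrt_pos.2 hlam0), mul_assoc, ← Real.sqrt_mul (by positivity),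
          hlam, show Δ * K / s * (Δ / (120 * (K * s))) = (Δ / s) ^ 2 / 120 by field_simp]
        have h4 : (1 / 4 : ℝ) ≤ Δ / s := by rw [le_div_iff₀ hs0]; linarith
        have h5 : (1 / 44 : ℝ) ≤ √((Δ / s) ^ 2 / 120) := Real.le_sqrt_of_sq_le (by nlinarith)
        linarith
      have hR0 : 0 ≤ R := hR ▸ Real.sqrt_nonneg _
      rw [div_eq_mul_one_div (26 : ℝ)]
      calc 3 * 40000 * ((b - a : ℕ) : ℝ) * √lam + 26 * (1 / √lam)
          ≤ 3 * 40000 * K * √lam + 26 * (44 * R) := by gcongr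
        _ = 120000 * (K * √lam) + 1144 * R := by ring
        _ ≤ _ := by linarith

end FA.TwelfthMoment

end
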