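import Fermat.Agent.TwelfthMoment.Kernel
import Fermat.Agent.SecondMoment.Approx
import Fermat.Agent.Huxley.LargeValues
import Fermat.Agent.Forms3.RepresentationBound

/-!
# Large values of `ζ (1/2 + it)`

At most `O (T ^ (2 + ε) / V ^ 12)` points of `[T, 2T]` spaced by `1` carry `|ζ (1/2 + it)| ≥ V` for
`V ≥ T ^ (1/8)` (Heath-Brown): with windows of length `G = V² / T ^ ε`, grouped in intervals of
length `G³`, the method of Halász applies to the partial sums of the dual sum.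
-/

set_option autoImplicit false

noncomputable section

namespace FA.TwelfthMoment

open MeasureTheory Filter Finset
open FA.Subconvexity (expI expI_add conj_expI norm_expI phase)
open scoped Real Topology ComplexConjugate

theorem sum_by_parts (w : ℕ → ℝ) (a : ℕ → ℂ) (M : ℕ) (hw : ∀ n, n ≤ M → w n = 1) :
    ∀ N, M ≤ N → ∑ n ∈ Icc 1 N, (w n : ℂ) * a n = (w N : ℂ) * (∑ n ∈ Icc 1 N, a n) +
      ∑ m ∈ Ico M N, ((w m - w (m + 1) : ℝ) : ℂ) * ∑ n ∈ Icc 1 m, a n := by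
  intro N hN
  induction N, hN using Nat.le_induction with
  | base =>
    rw [Ico_self, sum_empty, add_zero, hw M le_rfl, Complex.ofReal_one, one_mul]
    refine sum_congr rfl fun n hn => ?_
    rw [hw n (mem_Icc.1 hn).2, Complex.ofReal_one, one_mul]
  | succ N hN ih =>
    rw [sum_Icc_succ_top (by omega : 1 ≤ N + 1), sum_Icc_succ_top (by omega : 1 ≤ N + 1), ih,
      sum_Ico_succ_top hN]
    push_cast
    ring

/-- **`ζ` is the smoothed sum up to `O (1)`.** -/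
theorem exists_zeta_sub_le : ∃ C, 0 ≤ C ∧ ∀ (M : ℕ) (t : ℝ), 2 ≤ t → t ≤ M → (M : ℝ) ≤ 4 * t →
    ‖riemannZeta (1 / 2 + t * Complex.I) - dirPoly M t‖ ≤ C := by
  obtain ⟨Cw, hCw, hcut⟩ := exists_cutW_bounds
  refine ⟨Cw * (140 * 4), by positivity, fun M t ht htM hM => ?_⟩
  have hM0 : (0 : ℝ) < M := by linarith
  obtain ⟨w, hw⟩ : ∃ w : ℕ → ℝ, w = fun n : ℕ => cutW ((n : ℝ) / M) := ⟨_, rfl⟩
  obtain ⟨a, ha⟩ : ∃ a : ℕ → ℂ,
      a = fun n : ℕ => 1 / (n : ℂ) ^ ((1 / 2 : ℂ) + t * Complex.I) := ⟨_, rfl⟩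
  have hS : dirPoly M t = ∑ n ∈ Icc 1 (2 * M), (w n : ℂ) * a n := by
    rw [dirPoly]
    refine sum_congr rfl fun n hn => ?_
    simp only [hw, ha]
    rw [FA.Subconvexity.term_eq (mem_Icc.1 hn).1]
    push_cast
    ring
  have hw1 : ∀ n, n ≤ M → w n = 1 := fun n hn => by
    simp only [hw]
    refine cutW_eq_one ?_
    rw [abs_of_nonneg (by positivity), div_le_one hM0]
    exact Nat.cast_le.2 hn
  have hw2 : w (2 * M) = 0 := by
    simp only [hw]
    refine cutW_eq_zero ?_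
    rw [abs_of_nonneg (by positivity)]
    push_cast
    rw [mul_div_assoc, div_self hM0.ne', mul_one]
  have hone : ∑ m ∈ Ico M (2 * M), ((w m - w (m + 1) : ℝ) : ℂ) = 1 := by
    rw [← Complex.ofReal_sum, ← Complex.ofReal_one]
    congr 1
    have h := sum_Ico_sub w (show M ≤ 2 * M by omega)
    rw [← neg_neg (∑ m ∈ Ico M (2 * M), (w m - w (m + 1))), ← sum_neg_distrib]
    simp only [neg_sub]
    rw [h, hw2, hw1 M le_rfl]
    norm_num
  rw [hS, sum_by_parts w a M hw1 _ (by omega), hw2, Complex.ofReal_zero, zero_mul, zero_add]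
  have e : riemannZeta (1 / 2 + t * Complex.I) -
      ∑ m ∈ Ico M (2 * M), ((w m - w (m + 1) : ℝ) : ℂ) * ∑ n ∈ Icc 1 m, a n =
      ∑ m ∈ Ico M (2 * M), ((w m - w (m + 1) : ℝ) : ℂ) * FA.SecondMoment.truncErr m t := by
    simp only [FA.SecondMoment.truncErr, ha, mul_sub]
    rw [sum_sub_distrib, ← sum_mul, hone, one_mul]
  rw [e]
  refine (norm_sum_le_of_le _ (n := fun _ => Cw / M * (140 * 4)) fun m hm => ?_).trans ?_
  · rw [mem_Ico] at hm
    have hmM : (M : ℝ) ≤ m := Nat.cast_le.2 hm.1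
    have hm2 : (m : ℝ) + 1 ≤ 2 * M := by exact_mod_cast hm.2
    rw [norm_mul, Complex.norm_real, Real.norm_eq_abs]
    refine mul_le_mul ?_ ((FA.SecondMoment.norm_truncErr_le ht (by linarith)).trans ?_)
      (norm_nonneg _) (by positivity)
    · have h := convex_univ.norm_image_sub_le_of_norm_hasDerivWithin_le (C := Cw)
        (fun v _ => (hasDerivAt_of_smooth contDiff_cutW v).hasDerivWithinAt)
        (fun v _ => (Real.norm_eq_abs _).le.trans (hcut v).1)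
        (Set.mem_univ (((m + 1 : ℕ) : ℝ) / M)) (Set.mem_univ ((m : ℝ) / M))
      rw [Real.norm_eq_abs, Real.norm_eq_abs, ← sub_div, abs_div, abs_of_pos hM0] at h
      simp only [hw]
      refine h.trans (le_of_eq ?_)
      push_cast
      rw [show (m : ℝ) - (m + 1) = -1 by ring, abs_neg, abs_one]
      ring
    · have : √((m : ℝ) + 1) / t ≤ 3 := by
        rw [div_le_iff₀ (by linarith), Real.sqrt_le_left (by positivity)]
        nlinarith
      linarith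
  · rw [sum_const, Nat.card_Ico, show 2 * M - M = M by omega, nsmul_eq_mul]
    refine le_of_eq ?_
    field_simp

/-- The divisor bound. -/
theorem exists_divisors_le {δ : ℝ} (hδ : 0 < δ) (hδ1 : δ ≤ 1) : ∃ C, 1 ≤ C ∧
    ∀ (T : ℝ) (n : ℕ), 1 ≤ T → 1 ≤ n → (n : ℝ) ≤ 16 * T →
      (n.divisors.card : ℝ) ≤ C * T ^ δ := by
  obtain ⟨C, hC, h⟩ := FA.RepresentationBound.card_divisors_isBigO δ hδ
  refine ⟨16 * C, by linarith, fun T n hT hn hnT => (h n (by omega)).trans ?_⟩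
  have h1 : (n : ℝ) ^ δ ≤ 16 * T ^ δ := by
    refine (Real.rpow_le_rpow (Nat.cast_nonneg n) hnT hδ.le).trans ?_
    rw [Real.mul_rpow (by norm_num) (by linarith)]
    refine mul_le_mul_of_nonneg_right ?_ (Real.rpow_nonneg (by linarith) _)
    exact (Real.rpow_le_rpow_of_exponent_le (by norm_num) hδ1).trans (le_of_eq (Real.rpow_one _))
  calc C * (n : ℝ) ^ δ ≤ C * (16 * T ^ δ) := mul_le_mul_of_nonneg_left h1 (by linarith)
    _ = _ := by ring

/-- **Halász's inequality for the partial sums.** -/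
theorem sum_blockSum_le (S : Finset ℕ) (τ : ℕ → ℝ) (k : ℕ → ℕ) (K : ℕ)
    (hk : ∀ j ∈ S, k j ≤ 2 * K) :
    ∑ j ∈ S, ‖blockSum (τ j) K (k j)‖ ≤ √(∑ n ∈ Ico K (2 * K), (n.divisors.card : ℝ) ^ 2) *
      √(∑ j ∈ S, ∑ l ∈ S, ‖∑ n ∈ Ico K (min (k j) (k l)),
        eTau (critPhase (τ j) n) * conj (eTau (critPhase (τ l) n))‖) := by
  obtain ⟨ξ, hξ⟩ : ∃ ξ : ℕ → ℂ, ∀ j, ‖ξ j‖ ≤ 1 ∧
      ξ j * blockSum (τ j) K (k j) = (‖blockSum (τ j) K (k j)‖ : ℂ) := by
    refine ⟨fun j => conj (blockSum (τ j) K (k j)) / (‖blockSum (τ j) K (k j)‖ : ℂ), fun j => ?_⟩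
    rcases eq_or_ne (blockSum (τ j) K (k j)) 0 with h | h
    · simp [h]
    · refine ⟨le_of_eq ?_, ?_⟩
      · rw [norm_div, Complex.norm_conj, Complex.norm_real, Real.norm_of_nonneg (norm_nonneg _),
          div_self (norm_ne_zero_iff.2 h)]
      · rw [div_mul_eq_mul_div, ← Complex.normSq_eq_conj_mul_self, Complex.normSq_eq_norm_sq,
          div_eq_iff (Complex.ofReal_ne_zero.2 (norm_ne_zero_iff.2 h))]
        push_cast
        ring
  obtain ⟨A, hA⟩ : ∃ A : ℕ → ℕ → ℂ,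
      A = fun j n => if n < k j then ξ j * eTau (critPhase (τ j) n) else 0 := ⟨_, rfl⟩
  have hfil : ∀ m : ℕ, m ≤ 2 * K → (Ico K (2 * K)).filter (fun n => n < m) = Ico K m := fun m hm => by
    ext n; simp only [mem_filter, mem_Ico]; omega
  have e : ((∑ j ∈ S, ‖blockSum (τ j) K (k j)‖ : ℝ) : ℂ) =
      ∑ n ∈ Ico K (2 * K), (n.divisors.card : ℂ) * ∑ j ∈ S, A j n := by
    rw [Complex.ofReal_sum]
    simp only [mul_sum]
    rw [sum_comm]
    refine sum_congr rfl fun j hj => ?_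
    rw [← (hξ j).2, blockSum, mul_sum, ← hfil _ (hk j hj), sum_filter]
    refine sum_congr rfl fun n _ => ?_
    simp only [hA]
    split_ifs <;> ring
  have hV : ∑ n ∈ Ico K (2 * K), ‖∑ j ∈ S, A j n‖ ^ 2 ≤
      ∑ j ∈ S, ∑ l ∈ S, ‖∑ n ∈ Ico K (min (k j) (k l)),
        eTau (critPhase (τ j) n) * conj (eTau (critPhase (τ l) n))‖ := by
    have e2 : ((∑ n ∈ Ico K (2 * K), ‖∑ j ∈ S, A j n‖ ^ 2 : ℝ) : ℂ) =
        ∑ j ∈ S, ∑ l ∈ S, ξ j * conj (ξ l) * ∑ n ∈ Ico K (min (k j) (k l)),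
          eTau (critPhase (τ j) n) * conj (eTau (critPhase (τ l) n)) := by
      rw [Complex.ofReal_sum]
      simp only [← Complex.normSq_eq_norm_sq, ← Complex.mul_conj, map_sum, sum_mul_sum]
      rw [sum_comm]
      refine sum_congr rfl fun j hj => ?_
      rw [sum_comm]
      refine sum_congr rfl fun l _ => ?_
      rw [mul_sum, ← hfil _ ((min_le_left _ _).trans (hk j hj)), sum_filter]
      refine sum_congr rfl fun n _ => ?_
      simp only [hA]
      by_cases h1 : n < k j <;> by_cases h2 : n < k l <;>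
        simp [h1, h2] <;> ring
    have := congrArg norm e2
    rw [Complex.norm_real, Real.norm_of_nonneg (sum_nonneg fun n _ => sq_nonneg _)] at this
    rw [this]
    refine norm_sum_le_of_le _ fun j _ => norm_sum_le_of_le _ fun l _ => ?_
    rw [norm_mul, norm_mul, Complex.norm_conj]
    exact mul_le_of_le_one_left (norm_nonneg _)
      (mul_le_one₀ (hξ j).1 (norm_nonneg _) (hξ l).1)
  have h := congrArg norm e
  rw [Complex.norm_real, Real.norm_of_nonneg (sum_nonneg fun j _ => norm_nonneg _)] at h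
  rw [h]
  refine (norm_sum_le_of_le _ (n := fun n : ℕ => (n.divisors.card : ℝ) * ‖∑ j ∈ S, A j n‖)
    fun n _ => le_of_eq (by rw [norm_mul, Complex.norm_natCast])).trans ?_
  exact (Real.sum_mul_le_sqrt_mul_sqrt _ _ _).trans
    (mul_le_mul_of_nonneg_left (Real.sqrt_le_sqrt hV) (Real.sqrt_nonneg _))

/-- The centre of the `j`-th window, in turns. -/
def centre (T G : ℝ) (j : ℕ) : ℝ := (T + (2 * j + 1) * G) / (2 * π)

theorem centre_bounds {T G : ℝ} (hT : 0 ≤ T) (hG : 0 < G) (hGT : G ≤ T) {j : ℕ}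
    (hj : (j : ℝ) * (2 * G) ≤ T) : T / 7 ≤ centre T G j ∧ centre T G j ≤ T / 2 := by
  have hpi := Real.pi_gt_three
  have hpi' := Real.pi_lt_d2
  have h0 : (0 : ℝ) ≤ j * (2 * G) := by positivity
  constructor
  · rw [centre, le_div_iff₀ Real.two_pi_pos]
    nlinarith
  · rw [centre, div_le_iff₀ Real.two_pi_pos]
    nlinarith

/-- One dyadic range in one group of windows. -/
theorem exists_block_group_le {δ : ℝ} (hδ : 0 < δ) (hδ1 : δ ≤ 1) :
    ∃ C, 0 ≤ C ∧ ∀ (T G : ℝ) (S : Finset ℕ) (k : ℕ → ℕ) (K : ℕ),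
      3 ≤ T → 16 ≤ G → G ^ 3 ≤ T * G → G ^ 2 ≤ T / 40 → 1 ≤ K → K ≤ 8 * T →
      (∀ j ∈ S, (j : ℝ) * (2 * G) ≤ T) →
      (∀ j ∈ S, ∀ l ∈ S, |(j : ℝ) - l| ≤ 2 * G ^ 2) →
      (∀ j ∈ S, K ≤ k j ∧ k j ≤ 2 * K ∧
        ∀ n ∈ Ico K (k j), (n : ℝ) < 2 * centre T G j / G ^ 2) →
      ∑ j ∈ S, (√√(centre T G j * K))⁻¹ * ‖blockSum (centre T G j) K (k j)‖ ≤
        C * T ^ δ * (√(S.card * (1 + Real.log T) * T / G ^ 3) + S.card) := by
  obtain ⟨Cd, hCd, hdiv⟩ := exists_divisors_le hδ hδ1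
  refine ⟨10 ^ 4 * Cd, by positivity, fun T G S k K hT hG hGT hG40 hK hK8 hj hspan hk => ?_⟩
  have hT0 : 0 < T := by linarith
  have hG0 : 0 < G := by linarith
  have hpi := Real.pi_gt_three
  have hK0 : (0 : ℝ) < K := Nat.cast_pos.2 hK
  have hGT' : G ≤ T := by nlinarith
  have hlog : 0 ≤ Real.log T := Real.log_nonneg (by linarith)
  rcases le_or_gt (T / G ^ 2) K with hbig | hK'
  · refine le_trans (le_of_eq (sum_eq_zero fun j hj' => ?_)) (by positivity)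
    have hempty : Ico K (k j) = ∅ := eq_empty_of_forall_notMem fun n hn => by
      have h1 := (hk j hj').2.2 n hn
      have h2 := (centre_bounds hT0.le hG0 hGT' (hj j hj')).2
      have h3 : (K : ℝ) ≤ n := Nat.cast_le.2 (mem_Ico.1 hn).1
      have : 2 * centre T G j / G ^ 2 ≤ T / G ^ 2 :=
        div_le_div_of_nonneg_right (by linarith) (by positivity)
      linarith
    rw [blockSum, hempty, sum_empty, norm_zero, mul_zero]
  obtain ⟨ρ, hρ⟩ : ∃ ρ, ρ = √((K : ℝ) / T) := ⟨_, rfl⟩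
  have hρ0 : 0 < ρ := hρ ▸ Real.sqrt_pos.2 (by positivity)
  have hρK : (K : ℝ) = ρ ^ 2 * T := by
    rw [hρ, Real.sq_sqrt (by positivity), div_mul_cancel₀ _ hT0.ne']
  have hρG : ρ * G ≤ 1 := by
    rw [← le_div_iff₀ hG0, hρ, Real.sqrt_le_left (by positivity), div_pow, one_pow,
      div_le_div_iff₀ hT0 (by positivity)]
    rw [lt_div_iff₀ (by positivity)] at hK'
    linarith
  -- the weights
  have hw : ∀ j ∈ S, (√√(centre T G j * K))⁻¹ ≤ (√√(T / 7 * K))⁻¹ := fun j hj' =>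
    inv_anti₀ (Real.sqrt_pos.2 (Real.sqrt_pos.2 (by positivity))) (Real.sqrt_le_sqrt
      (Real.sqrt_le_sqrt (mul_le_mul_of_nonneg_right (centre_bounds hT0.le hG0 hGT' (hj j hj')).1
        hK0.le)))
  refine (sum_le_sum fun j hj' => mul_le_mul_of_nonneg_right (hw j hj') (norm_nonneg _)).trans ?_
  rw [← mul_sum]
  refine (mul_le_mul_of_nonneg_left
    (sum_blockSum_le S (centre T G) k K fun j hj' => (hk j hj').2.1) (by positivity)).trans ?_
  obtain ⟨Lg, hLg⟩ : ∃ Lg, Lg = 1 + Real.log T := ⟨_, rfl⟩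
  rw [← hLg]
  have hLg1 : 1 ≤ Lg := by rw [hLg]; linarith
  obtain ⟨R, hR⟩ : ∃ R : ℝ, R = (S.card : ℝ) := ⟨_, rfl⟩
  rw [← hR]
  have hR0 : 0 ≤ R := hR ▸ Nat.cast_nonneg _
  have hdd : ∑ n ∈ Ico K (2 * K), (n.divisors.card : ℝ) ^ 2 ≤ (Cd * T ^ δ) ^ 2 * K := by
    refine (sum_le_sum (g := fun _ => (Cd * T ^ δ) ^ 2) fun n hn => ?_).trans (le_of_eq ?_)
    · rw [mem_Ico] at hn
      have : (n : ℝ) ≤ 2 * K := by exact_mod_cast hn.2.le
      exact pow_le_pow_left₀ (Nat.cast_nonneg _)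
        (hdiv T n (by linarith) (hK.trans hn.1) (by linarith)) 2
    · rw [sum_const, Nat.card_Ico, show 2 * K - K = K by omega, nsmul_eq_mul, mul_comm]
  -- the kernel
  have hker : ∀ j ∈ S, ∀ l ∈ S, ‖∑ n ∈ Ico K (min (k j) (k l)),
      eTau (critPhase (centre T G j) n) * conj (eTau (critPhase (centre T G l) n))‖ ≤
        (if j = l then (K : ℝ) else 0) +
          400000 * (ρ * T / G * (1 / (1 + |(j : ℝ) - l|)) + √(G ^ 3 * ρ)) := by
    intro j hj' l hl'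
    obtain ⟨m, hm⟩ : ∃ m, m = min (k j) (k l) := ⟨_, rfl⟩
    rw [← hm]
    have hpos : 0 ≤ 400000 * (ρ * T / G * (1 / (1 + |(j : ℝ) - l|)) + √(G ^ 3 * ρ)) := by positivity
    rcases eq_or_ne j l with rfl | hne
    · rw [if_pos rfl]
      refine le_trans ((norm_sum_le _ _).trans ?_) (le_add_of_nonneg_right hpos)
      rw [sum_congr rfl fun n _ => by rw [norm_mul, Complex.norm_conj, norm_eTau, one_mul],
        sum_const, Nat.card_Ico, nsmul_eq_mul, mul_one]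
      exact Nat.cast_le.2 (by have := (hk j hj').2.1; omega)
    rw [if_neg hne, zero_add]
    rcases le_or_gt m K with hmK | hmK
    · rw [Ico_eq_empty (by omega), sum_empty, norm_zero]
      exact hpos
    obtain ⟨cj1, cj2⟩ := centre_bounds hT0.le hG0 hGT' (hj j hj')
    obtain ⟨cl1, cl2⟩ := centre_bounds hT0.le hG0 hGT' (hj l hl')
    have hb : (m : ℝ) ≤ T / 20 := by
      have hmj : m ≤ k j := hm ▸ min_le_left _ _
      have h1 := (hk j hj').2.2 (m - 1) (mem_Ico.2 ⟨by omega, by omega⟩)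
      rw [Nat.cast_sub (by omega : 1 ≤ m), Nat.cast_one] at h1
      have h3 : 2 * centre T G j / G ^ 2 ≤ T / 256 :=
        div_le_div₀ hT0.le (by linarith) (by norm_num) (by nlinarith)
      nlinarith
    obtain ⟨d, hd⟩ : ∃ d, d = |(j : ℝ) - l| := ⟨_, rfl⟩
    have hd1 : 1 ≤ d := by
      rw [hd, show (j : ℝ) - l = (((j : ℤ) - l : ℤ) : ℝ) by push_cast; ring, ← Int.cast_abs]
      exact_mod_cast Int.one_le_abs (sub_ne_zero.2 (Nat.cast_injective.ne hne) : (j : ℤ) - l ≠ 0)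
    have hΔ : |centre T G j - centre T G l| = G * d / π := by
      rw [hd, centre, centre, ← sub_div, show T + (2 * (j : ℝ) + 1) * G - (T + (2 * l + 1) * G) =
        2 * (G * ((j : ℝ) - l)) by ring, abs_div, abs_mul, abs_mul, abs_two,
        abs_of_pos hG0, abs_of_pos Real.two_pi_pos]
      field_simp
    have hne' : centre T G j ≠ centre T G l := fun h => by
      have : 0 < G * d / π := by positivity
      rw [← hΔ, h, sub_self, abs_zero] at this
      exact lt_irrefl _ this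
    refine (norm_kernel_le (T := T / 2) hK (by linarith) (by linarith) (by linarith) (by linarith)
      (by linarith) le_rfl (hm ▸ (min_le_left _ _).trans (hk j hj').2.1) (by linarith) hne').trans ?_
    rw [hΔ, ← hd]
    have hsq : √(T / 2 * K) ≤ ρ * T ∧ ρ * T / 2 ≤ √(T / 2 * K) := by
      constructor
      · rw [Real.sqrt_le_left (by positivity), hρK]; nlinarith
      · rw [Real.le_sqrt (by positivity) (by positivity), hρK]; nlinarith
    have a1 : √(T / 2 * K) / (G * d / π) ≤ 20 * (ρ * T / G * (1 / (1 + d))) := by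
      calc √(T / 2 * K) / (G * d / π) ≤ ρ * T / (G * d / π) := by gcongr; exact hsq.1
        _ = π * (ρ * T / G) * (1 / d) := by field_simp
        _ ≤ 4 * (ρ * T / G) * (5 / (1 + d)) := by
            refine mul_le_mul (mul_le_mul_of_nonneg_right Real.pi_le_four (by positivity)) ?_
              (by positivity) (by positivity)
            rw [div_le_div_iff₀ (by linarith) (by linarith)]
            linarith
        _ = _ := by ring
    have a2 : √(G * d / π * K / √(T / 2 * K)) ≤ 20 * √(G ^ 3 * ρ) := by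
      rw [Real.sqrt_le_left (by positivity), mul_pow, Real.sq_sqrt (by positivity)]
      calc G * d / π * K / √(T / 2 * K) ≤ G * (2 * G ^ 2) / 1 * K / (ρ * T / 2) := by
            gcongr
            · exact hd ▸ hspan j hj' l hl'
            · linarith
            · exact hsq.2
        _ = 4 * (G ^ 3 * ρ) := by rw [hρK]; field_simp; ring
        _ ≤ _ := by
            have : 0 ≤ G ^ 3 * ρ := by positivity
            linarith
    linarith
  have hsum : ∑ j ∈ S, ∑ l ∈ S, ‖∑ n ∈ Ico K (min (k j) (k l)),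
      eTau (critPhase (centre T G j) n) * conj (eTau (critPhase (centre T G l) n))‖ ≤
        R * K + 400000 * (R * (ρ * T / G) * (4 * Lg) + R ^ 2 * √(G ^ 3 * ρ)) := by
    refine (sum_le_sum fun j hj' => sum_le_sum (hker j hj')).trans ?_
    refine (sum_le_sum (g := fun _ => (K : ℝ) + 400000 * (ρ * T / G * (4 * Lg) +
      R * √(G ^ 3 * ρ))) fun j hj' => ?_).trans (le_of_eq ?_)
    · rw [sum_add_distrib, sum_ite_eq, if_pos hj', ← mul_sum, sum_add_distrib, sum_const,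
        nsmul_eq_mul, ← hR, ← mul_sum]
      gcongr
      have hsub : S ⊆ range (⌊T⌋₊ + 1) := fun l hl' => mem_range.2 (Nat.lt_succ_of_le
        (Nat.le_floor (by nlinarith [hj l hl'])))
      refine ((sum_le_sum_of_subset_of_nonneg hsub fun l _ _ => by positivity).trans
        (FA.Huxley.harmonic_shift_le (mem_range.1 (hsub hj')))).trans ?_
      have h1 : Real.log ((⌊T⌋₊ + 1 : ℕ) : ℝ) ≤ Real.log (T * T) := by
        refine Real.log_le_log (by positivity) ?_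
        push_cast
        nlinarith [Nat.floor_le hT0.le]
      rw [Real.log_mul hT0.ne' hT0.ne'] at h1
      linarith
    · rw [sum_const, nsmul_eq_mul, ← hR]; ring
  refine (mul_le_mul_of_nonneg_left (mul_le_mul (Real.sqrt_le_sqrt hdd) (Real.sqrt_le_sqrt hsum)
    (Real.sqrt_nonneg _) (Real.sqrt_nonneg _)) (by positivity)).trans ?_
  obtain ⟨X, hX⟩ : ∃ X, X = R * Lg * T / G ^ 3 := ⟨_, rfl⟩
  rw [← hX]
  have hX0 : 0 ≤ X := hX ▸ by positivity
  have hq : (√√(T / 7 * K))⁻¹ = √((√(T / 7 * K))⁻¹) := (Real.sqrt_inv _).symm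
  rw [hq, ← Real.sqrt_mul (by positivity), ← Real.sqrt_mul (by positivity),
    Real.sqrt_le_left (by positivity)]
  have hs7 : (√(T / 7 * K))⁻¹ ≤ 3 / (ρ * T) := by
    rw [← one_div, div_le_div_iff₀ (Real.sqrt_pos.2 (by positivity)) (by positivity), one_mul]
    have : ρ * T / 3 ≤ √(T / 7 * K) := by
      rw [Real.le_sqrt (by positivity) (by positivity), hρK]; nlinarith
    linarith
  have t1 : ρ ^ 3 * T ≤ T / G ^ 3 := by
    rw [le_div_iff₀ (by positivity)]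
    calc ρ ^ 3 * T * G ^ 3 = (ρ * G) ^ 3 * T := by ring
      _ ≤ _ := mul_le_of_le_one_left hT0.le (pow_le_one₀ (by positivity) hρG)
  have t2 : ρ ^ 2 * T / G ≤ T / G ^ 3 := by
    rw [div_le_div_iff₀ hG0 (by positivity)]
    calc ρ ^ 2 * T * G ^ 3 = (ρ * G) ^ 2 * (T * G) := by ring
      _ ≤ _ := mul_le_of_le_one_left (by positivity) (pow_le_one₀ (by positivity) hρG)
  have t3 : ρ * √(G ^ 3 * ρ) ≤ 1 := by
    rw [mul_comm, ← le_div_iff₀ hρ0, Real.sqrt_le_left (by positivity), div_pow, one_pow,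
      le_div_iff₀ (by positivity)]
    calc G ^ 3 * ρ * ρ ^ 2 = (ρ * G) ^ 3 := by ring
      _ ≤ 1 := pow_le_one₀ (by positivity) hρG
  calc (√(T / 7 * K))⁻¹ * ((Cd * T ^ δ) ^ 2 * K *
        (R * K + 400000 * (R * (ρ * T / G) * (4 * Lg) + R ^ 2 * √(G ^ 3 * ρ))))
      ≤ 3 / (ρ * T) * ((Cd * T ^ δ) ^ 2 * K *
        (R * K + 400000 * (R * (ρ * T / G) * (4 * Lg) + R ^ 2 * √(G ^ 3 * ρ)))) := by gcongr
    _ = 3 * (Cd * T ^ δ) ^ 2 * (R * (ρ ^ 3 * T) + 1600000 * (R * Lg * (ρ ^ 2 * T / G)) +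
          400000 * (R ^ 2 * (ρ * √(G ^ 3 * ρ)))) := by rw [hρK]; field_simp; ring
    _ ≤ 3 * (Cd * T ^ δ) ^ 2 * (R * Lg * (T / G ^ 3) + 1600000 * (R * Lg * (T / G ^ 3)) +
          400000 * (R ^ 2 * 1)) := by
        gcongr
        exact le_mul_of_one_le_right hR0 hLg1
    _ = 3 * (Cd * T ^ δ) ^ 2 * (1600001 * X + 400000 * R ^ 2) := by rw [hX]; ring
    _ ≤ (10 ^ 4 * Cd * T ^ δ) ^ 2 * (X + R ^ 2) := by
        have h0 : 0 ≤ (Cd * T ^ δ) ^ 2 := sq_nonneg _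
        have : 0 ≤ R ^ 2 := sq_nonneg R
        rw [show (10 ^ 4 * Cd * T ^ δ) ^ 2 = 10 ^ 8 * (Cd * T ^ δ) ^ 2 by ring]
        nlinarith [mul_nonneg h0 hX0, mul_nonneg h0 this]
    _ ≤ _ := by
        rw [mul_pow (10 ^ 4 * Cd * T ^ δ)]
        refine mul_le_mul_of_nonneg_left ?_ (sq_nonneg _)
        nlinarith [Real.sq_sqrt hX0, Real.sqrt_nonneg X]

/-- **Heath-Brown's large values theorem.** -/
theorem exists_large_values {δ : ℝ} (hδ : 0 < δ) (hδ1 : δ ≤ 1 / 400) :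
    ∃ C T₀, 0 ≤ C ∧ 3 ≤ T₀ ∧ ∀ (T V : ℝ) (P : Finset ℝ), T₀ ≤ T → T ^ (1 / 8 : ℝ) ≤ V →
      (∀ t ∈ P, T ≤ t ∧ t ≤ 2 * T ∧ V ≤ ‖riemannZeta (1 / 2 + t * Complex.I)‖) →
      (∀ s ∈ P, ∀ t ∈ P, s ≠ t → 1 ≤ |s - t|) →
      (P.card : ℝ) * V ^ 12 ≤ C * T ^ (2 + 30 * δ) := by
  obtain ⟨C0, hC0, hzeta⟩ := exists_zeta_sub_le
  obtain ⟨Cw, hCw, hwin⟩ := exists_sum_sq_le_window
  obtain ⟨Cd, hCd, hdual⟩ := exists_window_dual_le
  obtain ⟨Cb, hCb, hblock⟩ := exists_block_group_le hδ (by linarith : δ ≤ 1)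
  obtain ⟨Cl, hCl⟩ : ∃ Cl, Cl = 1 + 16 / δ := ⟨_, rfl⟩
  have hCl1 : 1 ≤ Cl := by rw [hCl]; linarith [show 0 ≤ 16 / δ by positivity]
  have hcl0 : 0 < Cl := by linarith
  obtain ⟨C1, hC1⟩ : ∃ C1, C1 = 64 * Cw * Cd * Cl * Cb * (3 * Cl) := ⟨_, rfl⟩
  have hC10 : 0 ≤ C1 := hC1 ▸ by positivity
  obtain ⟨Cz, hCz⟩ : ∃ Cz : ℝ, Cz = 600000 * (3 * Cl) := ⟨_, rfl⟩
  have hCz1 : 1 ≤ Cz := by rw [hCz]; nlinarith
  obtain ⟨C2, hC2⟩ : ∃ C2, C2 = (2 * C1) ^ 2 * (2 * Cl) := ⟨_, rfl⟩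
  have hC20 : 0 ≤ C2 := hC2 ▸ by positivity
  obtain ⟨T₀, hT₀⟩ : ∃ T₀ : ℝ, ∀ T, T₀ ≤ T → 4 * (C0 + Cw + 1) ≤ T ^ (1 / 8 : ℝ) ∧
      16 ≤ T ^ (1 / 5 : ℝ) ∧ 40 * Cz ^ 4 ≤ T ^ (1 / 3 : ℝ) ∧ 7168 ≤ T ^ (4 / 5 : ℝ) ∧
      16 * Cw * Cd * Cl ^ 2 ≤ T ^ (3 * δ) ∧ 2 * C1 ≤ T ^ (2 * δ) := by
    have key : ∀ K e : ℝ, 0 < e → ∀ᶠ T : ℝ in atTop, K ≤ T ^ e := fun K e he =>
      (tendsto_rpow_atTop he).eventually_ge_atTop K
    exact eventually_atTop.1 ((key _ _ (by norm_num)).and <| (key _ _ (by norm_num)).and <|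
      (key _ _ (by norm_num)).and <| (key _ _ (by norm_num)).and <|
      (key _ _ (by linarith)).and (key _ _ (by linarith)))
  refine ⟨C2 * (1 + Cz ^ 6), max T₀ 3, by positivity, le_max_right _ _,
    fun T V P hT hV hP hsep => ?_⟩
  obtain ⟨f1, f2, f3, f4, f5, f6⟩ := hT₀ T ((le_max_left _ _).trans hT)
  have hT3 : 3 ≤ T := (le_max_right _ _).trans hT
  have hT0 : 0 < T := by linarith
  have hT1 : 1 ≤ T := by linarith
  rcases P.eq_empty_or_nonempty with rfl | hne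
  · rw [card_empty, Nat.cast_zero, zero_mul]; positivity
  have hV4 : 4 * (C0 + Cw + 1) ≤ V := f1.trans hV
  have hV0 : 0 < V := by linarith
  have hp : ∀ {a b : ℝ}, a ≤ b → T ^ a ≤ T ^ b := fun h =>
    Real.rpow_le_rpow_of_exponent_le hT1 h
  obtain ⟨M, hMd⟩ : ∃ M : ℕ, M = ⌈3 * T⌉₊ := ⟨_, rfl⟩
  have hM3 : 3 * T ≤ M := hMd ▸ Nat.le_ceil _
  have hM4 : (M : ℝ) ≤ 4 * T := by
    have := (Nat.ceil_lt_add_one (show 0 ≤ 3 * T by linarith)).le
    rw [← hMd] at this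
    linarith
  obtain ⟨L, hLd⟩ : ∃ L, L = 1 + Real.log (2 * M) := ⟨_, rfl⟩
  have hlog8 : ∀ x : ℝ, 1 ≤ x → x ≤ 8 * T → 1 + Real.log x ≤ Cl * T ^ δ := fun x hx hx' => by
    have h1 := Real.log_le_rpow_div (show 0 ≤ x by linarith) hδ
    have h2 : x ^ δ ≤ 8 * T ^ δ := by
      refine (Real.rpow_le_rpow (by linarith) hx' hδ.le).trans ?_
      rw [Real.mul_rpow (by norm_num) hT0.le]
      refine mul_le_mul_of_nonneg_right ?_ (Real.rpow_nonneg hT0.le _)
      exact (Real.rpow_le_rpow_of_exponent_le (by norm_num) (by linarith : δ ≤ 1)).trans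
        (le_of_eq (Real.rpow_one _))
    have h3 : 1 ≤ T ^ δ := Real.one_le_rpow hT1 hδ.le
    have h4 : x ^ δ / δ ≤ 8 * T ^ δ / δ := div_le_div_of_nonneg_right h2 hδ.le
    rw [hCl, add_mul, one_mul, div_mul_eq_mul_div]
    have : 0 ≤ T ^ δ / δ := by positivity
    rw [mul_div_assoc] at h4 ⊢
    linarith
  have hLT : L ≤ Cl * T ^ δ := hLd ▸ hlog8 _ (by linarith) (by linarith)
  have hlogM : 0 ≤ Real.log (2 * M) := Real.log_nonneg (by linarith)
  have hL1 : 1 ≤ L := by rw [hLd]; linarith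
  -- the size of `V` and of the window
  have hVz : V ≤ Cz * T ^ (1 / 6 + δ) := by
    obtain ⟨t, ht⟩ := hne
    obtain ⟨h1, h2, h3⟩ := hP t ht
    refine h3.trans ((FA.Subconvexity.norm_riemannZeta_half_le (by linarith)).trans ?_)
    have hl : Real.log t ≤ Cl * T ^ δ := by linarith [hlog8 t (by linarith) (by linarith)]
    have ht6 : t ^ ((1 : ℝ) / 6) ≤ 2 * T ^ (1 / 6 : ℝ) := by
      refine (Real.rpow_le_rpow (by linarith) h2 (by norm_num)).trans ?_
      rw [Real.mul_rpow (by norm_num) hT0.le]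
      refine mul_le_mul_of_nonneg_right ?_ (Real.rpow_nonneg hT0.le _)
      exact (Real.rpow_le_rpow_of_exponent_le (by norm_num)
        (show (1 / 6 : ℝ) ≤ 1 by norm_num)).trans (le_of_eq (Real.rpow_one _))
    calc 600000 * t ^ ((1 : ℝ) / 6) * Real.log t ≤ 600000 * (2 * T ^ (1 / 6 : ℝ)) * (Cl * T ^ δ) :=
          mul_le_mul (by linarith) hl (Real.log_nonneg (by linarith)) (by positivity)
      _ ≤ Cz * (T ^ (1 / 6 : ℝ) * T ^ δ) := by
          rw [hCz]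
          have : 0 ≤ Cl * (T ^ (1 / 6 : ℝ) * T ^ δ) := by positivity
          linarith
      _ = _ := by rw [← Real.rpow_add hT0]
  have hV6 : V ^ 6 ≤ Cz ^ 6 * T ^ (1 + 6 * δ) := by
    refine (pow_le_pow_left₀ hV0.le hVz 6).trans (le_of_eq ?_)
    rw [mul_pow, ← Real.rpow_mul_natCast hT0.le]
    congr 2
    push_cast
    ring
  obtain ⟨G, hGd⟩ : ∃ G, G = V ^ 2 / T ^ (5 * δ) := ⟨_, rfl⟩
  have hT5 : 0 < T ^ (5 * δ) := Real.rpow_pos_of_pos hT0 _
  have hGV : G * T ^ (5 * δ) = V ^ 2 := by rw [hGd, div_mul_cancel₀ _ hT5.ne']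
  have hG5 : T ^ (1 / 5 : ℝ) ≤ G := by
    rw [hGd, le_div_iff₀ hT5, ← Real.rpow_add hT0]
    refine le_trans ?_ (pow_le_pow_left₀ (Real.rpow_nonneg hT0.le _) hV 2)
    rw [← Real.rpow_mul_natCast hT0.le]
    exact hp (by push_cast; linarith)
  have hG16 : 16 ≤ G := f2.trans hG5
  have hG0 : 0 < G := by linarith
  have hGz : G ≤ Cz ^ 2 * T ^ (1 / 3 : ℝ) := by
    rw [hGd, div_le_iff₀ hT5]
    refine (pow_le_pow_left₀ hV0.le hVz 2).trans ?_
    rw [mul_pow, ← Real.rpow_mul_natCast hT0.le, mul_assoc, ← Real.rpow_add hT0]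
    exact mul_le_mul_of_nonneg_left (hp (by push_cast; linarith)) (by positivity)
  have hG40 : G ^ 2 ≤ T / 40 := by
    have h1 := pow_le_pow_left₀ hG0.le hGz 2
    rw [mul_pow, ← Real.rpow_mul_natCast hT0.le, ← pow_mul] at h1
    push_cast at h1
    have h2 := mul_le_mul_of_nonneg_right f3 (Real.rpow_nonneg hT0.le (1 / 3 * 2 : ℝ))
    rw [← Real.rpow_add hT0, show (1 / 3 : ℝ) + 1 / 3 * 2 = 1 by norm_num, Real.rpow_one] at h2
    norm_num at h1 h2 ⊢
    linarith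
  have hGT : G ≤ T := by nlinarith
  have hG3 : G ^ 3 ≤ T * G := by
    rw [show G ^ 3 = G ^ 2 * G by ring]
    exact mul_le_mul_of_nonneg_right (by linarith) hG0.le
  obtain ⟨w, hwd⟩ : ∃ w, w = T ^ (1 / 20 : ℝ) := ⟨_, rfl⟩
  have hw1 : 1 ≤ w := hwd ▸ Real.one_le_rpow hT1 (by norm_num)
  have hw4 : w ^ 4 ≤ G := by
    refine le_trans (le_of_eq ?_) hG5
    rw [hwd, ← Real.rpow_mul_natCast hT0.le]
    norm_num
  have hw6 : T ≤ w ^ 6 * G ^ 3 := by
    have h1 : T ^ (1 / 4 - 5 * δ) ≤ G := by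
      rw [hGd, le_div_iff₀ hT5, ← Real.rpow_add hT0]
      refine le_trans ?_ (pow_le_pow_left₀ (Real.rpow_nonneg hT0.le _) hV 2)
      rw [← Real.rpow_mul_natCast hT0.le]
      exact hp (by push_cast; linarith)
    refine le_trans ?_ (mul_le_mul_of_nonneg_left
      (pow_le_pow_left₀ (Real.rpow_nonneg hT0.le _) h1 3) (by positivity))
    rw [hwd, ← Real.rpow_mul_natCast hT0.le, ← Real.rpow_mul_natCast hT0.le, ← Real.rpow_add hT0]
    exact (Real.rpow_one T).symm.le.trans (hp (by push_cast; linarith))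
  have hMG : (M : ℝ) ^ 2 / G ^ 14 ≤ 1 := by
    rw [div_le_one (by positivity)]
    refine (pow_le_pow_left₀ (by positivity) hM4 2).trans ?_
    refine le_trans ?_ (pow_le_pow_left₀ (Real.rpow_nonneg hT0.le _) hG5 14)
    rw [← Real.rpow_mul_natCast hT0.le, show (1 / 5 : ℝ) * ((14 : ℕ) : ℝ) = 4 / 5 + 2 by norm_num,
      Real.rpow_add hT0, Real.rpow_two, mul_pow]
    exact mul_le_mul_of_nonneg_right (by linarith) (sq_nonneg T)
  -- the windows
  obtain ⟨jf, hjf⟩ : ∃ jf : ℝ → ℕ, jf = fun t => ⌊(t - T) / (2 * G)⌋₊ := ⟨_, rfl⟩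
  obtain ⟨W, hW⟩ : ∃ W, W = P.image jf := ⟨_, rfl⟩
  have hjW : ∀ j ∈ W, (j : ℝ) * (2 * G) ≤ T := fun j hj => by
    rw [hW, mem_image] at hj
    obtain ⟨t, ht, rfl⟩ := hj
    simp only [hjf]
    rw [← le_div_iff₀ (by positivity)]
    refine (Nat.floor_le (div_nonneg (by linarith [(hP t ht).1]) (by positivity))).trans ?_
    exact div_le_div_of_nonneg_right (by linarith [(hP t ht).2.1]) (by positivity)
  obtain ⟨J, hJ⟩ : ∃ J, J = Nat.log 2 (2 * M) + 1 := ⟨_, rfl⟩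
  have hJL : (J : ℝ) ≤ 2 * L := by
    have h0 : ((2 ^ Nat.log 2 (2 * M) : ℕ) : ℝ) ≤ ((2 * M : ℕ) : ℝ) := by
      refine Nat.cast_le.2 (Nat.pow_log_le_self 2 ?_)
      have : (0 : ℝ) < M := by linarith
      have : 0 < M := Nat.cast_pos.1 this
      omega
    push_cast at h0
    have h1 := Real.log_le_log (by positivity) h0
    rw [Real.log_pow] at h1
    have h2 : (0.69 : ℝ) ≤ Real.log 2 := by linarith [Real.log_two_gt_d9]
    rw [hJ, hLd]
    push_cast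
    nlinarith [mul_le_mul_of_nonneg_left h2 (Nat.cast_nonneg (α := ℝ) (Nat.log 2 (2 * M)))]
  have hone : ∀ j ∈ W, ∃ k : ℕ → ℕ,
      (∀ i, 2 ^ i ≤ k i ∧ k i ≤ 2 * 2 ^ i ∧
        ∀ n ∈ Ico (2 ^ i) (k i), (n : ℝ) < 2 * centre T G j / G ^ 2) ∧
      ((P.filter fun t => jf t = j).card : ℝ) * V ^ 2 ≤ 16 * Cw * Cd * L * G *
        ∑ i ∈ range J, (√√(centre T G j * (2 ^ i : ℕ)))⁻¹ *
          ‖blockSum (centre T G j) (2 ^ i) (k i)‖ := by
    intro j hj
    obtain ⟨c1, c2⟩ := centre_bounds hT0.le hG0 hGT (hjW j hj)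
    obtain ⟨c, hc⟩ : ∃ c, c = T + (2 * (j : ℝ) + 1) * G := ⟨_, rfl⟩
    have hcc : c / (2 * π) = centre T G j := by rw [hc, centre]
    obtain ⟨k, hk, hint⟩ := hdual M G c w (by
      rw [hcc]
      exact ⟨by linarith, by linarith, by linarith, by linarith⟩) hG16 hw1 hw4 (by
      rw [hcc, hwd, Real.le_sqrt (by positivity) (by linarith), mul_pow, ← pow_mul,
        ← Real.rpow_mul_natCast hT0.le]
      have h := mul_le_mul_of_nonneg_right f4 (Real.rpow_nonneg hT0.le (1 / 5 : ℝ))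
      rw [← Real.rpow_add hT0, show (4 / 5 : ℝ) + 1 / 5 = 1 by norm_num, Real.rpow_one] at h
      norm_num at h ⊢
      linarith) (by rw [hcc]; linarith)
    rw [hcc] at hk hint
    refine ⟨k, fun i => ⟨(hk i).1, (hk i).2.1.trans (le_of_eq (by ring)), (hk i).2.2⟩, ?_⟩
    obtain ⟨Q, hQ⟩ : ∃ Q, Q = P.filter fun t => jf t = j := ⟨_, rfl⟩
    rw [← hQ]
    have hQP : ∀ t ∈ Q, t ∈ P ∧ jf t = j := fun t ht => by rw [hQ, mem_filter] at ht; exact ht
    have hQ1 : 1 ≤ Q.card := by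
      rw [hW, mem_image] at hj
      obtain ⟨t, ht, e⟩ := hj
      exact card_pos.2 ⟨t, by rw [hQ, mem_filter]; exact ⟨ht, e⟩⟩
    have hQc : ∀ t ∈ Q, |t - c| ≤ G := fun t ht => by
      obtain ⟨htP, e⟩ := hQP t ht
      simp only [hjf] at e
      have h1 := Nat.floor_le (div_nonneg (show 0 ≤ t - T by linarith [(hP t htP).1])
        (show 0 ≤ 2 * G by positivity))
      have h2 := Nat.lt_floor_add_one ((t - T) / (2 * G))
      rw [e, le_div_iff₀ (by positivity)] at h1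
      rw [e, div_lt_iff₀ (by positivity)] at h2
      rw [hc, abs_le]
      constructor <;> linarith
    have hsum := hwin M L G c Q hL1 (by rw [hLd]; linarith) (by linarith)
      (fun s hs t ht => hsep s (hQP s hs).1 t (hQP t ht).1) hQc
    have hlow : (Q.card : ℝ) * (V ^ 2 / 4) ≤ ∑ t ∈ Q, ‖dirPoly M t‖ ^ 2 := by
      rw [← nsmul_eq_mul]
      refine card_nsmul_le_sum _ _ _ fun t ht => ?_
      obtain ⟨h1, h2, h3⟩ := hP t (hQP t ht).1
      have h4 := hzeta M t (by linarith) (by linarith) (by linarith)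
      have h5 : V / 2 ≤ ‖dirPoly M t‖ := by
        have := norm_sub_norm_le (riemannZeta (1 / 2 + t * Complex.I)) (dirPoly M t)
        linarith
      calc V ^ 2 / 4 = (V / 2) ^ 2 := by ring
        _ ≤ _ := pow_le_pow_left₀ (by linarith) h5 2
    rw [← hJ, ← hLd] at hint
    obtain ⟨X, hX⟩ : ∃ X, X = ∑ i ∈ range J, (√√(centre T G j * (2 ^ i : ℕ)))⁻¹ *
        ‖blockSum (centre T G j) (2 ^ i) (k i)‖ := ⟨_, rfl⟩
    rw [← hX] at hint ⊢
    have hX0 : 0 ≤ X := hX ▸ sum_nonneg fun i _ => by positivity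
    have h6 : Cw * (Q.card : ℝ) * (M : ℝ) ^ 2 / G ^ 14 ≤ (Q.card : ℝ) * (V ^ 2 / 8) := by
      rw [mul_div_assoc, mul_comm Cw, mul_assoc]
      refine mul_le_mul_of_nonneg_left ?_ (Nat.cast_nonneg _)
      refine (mul_le_of_le_one_right hCw hMG).trans ?_
      nlinarith
    have h7 : Cw * L * (Cd * G * L) ≤ V ^ 2 / 16 := by
      have h8 : Cw * Cd * L ^ 2 ≤ Cw * Cd * (Cl * T ^ δ) ^ 2 := by gcongr
      have h9 : Cw * Cd * Cl ^ 2 * 16 * T ^ (2 * δ) ≤ T ^ (5 * δ) := by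
        refine (mul_le_mul_of_nonneg_right (show _ ≤ T ^ (3 * δ) by linarith)
          (Real.rpow_nonneg hT0.le _)).trans (le_of_eq ?_)
        rw [← Real.rpow_add hT0]
        ring_nf
      rw [show (2 : ℝ) * δ = δ * ((2 : ℕ) : ℝ) by push_cast; ring,
        Real.rpow_mul_natCast hT0.le] at h9
      nlinarith [mul_le_mul_of_nonneg_left h8 hG0.le, mul_le_mul_of_nonneg_left h9 hG0.le]
    have h10 := mul_le_mul_of_nonneg_left hint (show 0 ≤ Cw * L by positivity)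
    have h11 : (1 : ℝ) ≤ Q.card := Nat.one_le_cast.2 hQ1
    have h12 : V ^ 2 / 16 ≤ (Q.card : ℝ) * (V ^ 2 / 16) := le_mul_of_one_le_left (by positivity) h11
    linarith
  choose! k hk hkey using hone
  obtain ⟨B, hB⟩ : ∃ B, B = ⌈G ^ 2⌉₊ := ⟨_, rfl⟩
  have hB1 : 1 ≤ B := hB ▸ Nat.one_le_ceil_iff.2 (by positivity)
  have hBR : G ^ 2 ≤ B ∧ (B : ℝ) ≤ 2 * G ^ 2 := by
    refine ⟨hB ▸ Nat.le_ceil _, ?_⟩
    have := (Nat.ceil_lt_add_one (sq_nonneg G)).le
    rw [← hB] at this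
    nlinarith
  -- one group
  have hgroup : ∀ g : ℕ,
      ((P.filter fun t => jf t / B = g).card : ℝ) * V ^ 6 ≤ C2 * T ^ (1 + 12 * δ) := by
    intro g
    obtain ⟨S, hS⟩ : ∃ S, S = W.filter fun j => j / B = g := ⟨_, rfl⟩
    obtain ⟨Ng, hNg⟩ : ∃ Ng : ℕ, Ng = (P.filter fun t => jf t / B = g).card := ⟨_, rfl⟩
    rw [← hNg]
    have hSW : ∀ j ∈ S, j ∈ W ∧ j / B = g := fun j hj => by rw [hS, mem_filter] at hj; exact hj
    have hfib : Ng = ∑ j ∈ S, (P.filter fun t => jf t = j).card := by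
      rw [hNg, card_eq_sum_card_fiberwise (f := jf) (t := S) fun t ht => ?_]
      · refine sum_congr rfl fun j hj => ?_
        congr 1
        ext t
        simp only [mem_filter]
        exact ⟨fun h => ⟨h.1.1, h.2⟩, fun h => ⟨⟨h.1, by rw [h.2]; exact (hSW j hj).2⟩, h.2⟩⟩
      · rw [mem_coe, mem_filter] at ht
        rw [mem_coe, hS, mem_filter, hW]
        exact ⟨mem_image_of_mem jf ht.1, ht.2⟩
    have hcard : (S.card : ℝ) ≤ Ng := by
      refine Nat.cast_le.2 ?_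
      rw [hfib, card_eq_sum_ones]
      refine sum_le_sum fun j hj => ?_
      have := (hSW j hj).1
      rw [hW, mem_image] at this
      obtain ⟨t, ht, e⟩ := this
      exact card_pos.2 ⟨t, by rw [mem_filter]; exact ⟨ht, e⟩⟩
    have hspan : ∀ j ∈ S, ∀ l ∈ S, |(j : ℝ) - l| ≤ 2 * G ^ 2 := fun j hj l hl => by
      have h1 : ∀ x ∈ S, (g : ℝ) * B ≤ x ∧ (x : ℝ) ≤ g * B + B := fun x hx => by
        have h2 := Nat.div_add_mod x B
        have h3 := Nat.mod_lt x (show B > 0 by omega)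
        rw [(hSW x hx).2] at h2
        have a : g * B ≤ x := by rw [mul_comm]; omega
        have b : x ≤ g * B + B := by rw [mul_comm g B]; omega
        exact ⟨by exact_mod_cast a, by exact_mod_cast b⟩
      obtain ⟨a1, a2⟩ := h1 j hj
      obtain ⟨b1, b2⟩ := h1 l hl
      rw [abs_le]
      constructor <;> linarith [hBR.2]
    obtain ⟨Y, hY⟩ : ∃ Y, Y = √((Ng : ℝ) * (Cl * T ^ δ) * T / G ^ 3) + Ng := ⟨_, rfl⟩
    have hY0 : 0 ≤ Y := hY ▸ by positivity
    have hblk : ∀ i ∈ range J, ∑ j ∈ S, (√√(centre T G j * (2 ^ i : ℕ)))⁻¹ *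
        ‖blockSum (centre T G j) (2 ^ i) (k j i)‖ ≤ Cb * T ^ δ * Y := fun i hi => by
      have hi2 : ((2 ^ i : ℕ) : ℝ) ≤ 8 * T := by
        rw [mem_range, hJ] at hi
        have hM1 : 2 * M ≠ 0 := by
          have : (0 : ℝ) < M := by linarith
          have : 0 < M := Nat.cast_pos.1 this
          omega
        have h3 : 2 ^ i ≤ 2 * M :=
          (Nat.pow_le_pow_right two_pos (by omega)).trans (Nat.pow_log_le_self 2 hM1)
        have : ((2 ^ i : ℕ) : ℝ) ≤ ((2 * M : ℕ) : ℝ) := Nat.cast_le.2 h3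
        push_cast at this ⊢
        linarith
      refine (hblock T G S (fun j => k j i) (2 ^ i) hT3 hG16 hG3 hG40 Nat.one_le_two_pow hi2
        (fun j hj => hjW j (hSW j hj).1) hspan fun j hj => hk j (hSW j hj).1 i).trans ?_
      rw [hY]
      refine mul_le_mul_of_nonneg_left (add_le_add (Real.sqrt_le_sqrt ?_) hcard) (by positivity)
      gcongr
      · linarith [Real.log_nonneg hT1]
      · exact hlog8 T hT1 (by linarith)
    have hmain : (Ng : ℝ) * V ^ 2 ≤ C1 * T ^ (3 * δ) * G * Y := by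
      have h1 : (Ng : ℝ) * V ^ 2 ≤ ∑ j ∈ S, 16 * Cw * Cd * L * G *
          ∑ i ∈ range J, (√√(centre T G j * (2 ^ i : ℕ)))⁻¹ *
            ‖blockSum (centre T G j) (2 ^ i) (k j i)‖ := by
        rw [hfib, Nat.cast_sum, sum_mul]
        exact sum_le_sum fun j hj => hkey j (hSW j hj).1
      rw [← mul_sum, sum_comm] at h1
      refine h1.trans ((mul_le_mul_of_nonneg_left (sum_le_sum hblk) (by positivity)).trans ?_)
      rw [sum_const, card_range, nsmul_eq_mul]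
      calc 16 * Cw * Cd * L * G * ((J : ℝ) * (Cb * T ^ δ * Y))
          ≤ 16 * Cw * Cd * (Cl * T ^ δ) * G * (2 * (Cl * T ^ δ) * (Cb * T ^ δ * Y)) := by
            gcongr
            exact hJL.trans (by linarith)
        _ = 32 * Cw * Cd * Cl * Cb * Cl * (T ^ δ) ^ 3 * G * Y := by ring
        _ ≤ C1 * (T ^ δ) ^ 3 * G * Y := by
            gcongr
            rw [hC1]
            have : 0 ≤ Cw * Cd * Cl * Cb * Cl := by positivity
            linarith
        _ = _ := by rw [← Real.rpow_mul_natCast hT0.le]; push_cast; ring_nf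
    obtain ⟨A, hA⟩ : ∃ A, A = C1 * T ^ (3 * δ) * G := ⟨_, rfl⟩
    rw [← hA, hY] at hmain
    have hA0 : 0 ≤ A := hA ▸ by positivity
    have hA2 : A ≤ V ^ 2 / 2 := by
      rw [hA, ← hGV, show T ^ (5 * δ) = T ^ (2 * δ) * T ^ (3 * δ) by
        rw [← Real.rpow_add hT0]; ring_nf]
      have := mul_le_mul_of_nonneg_right f6 (show 0 ≤ T ^ (3 * δ) * G by positivity)
      linarith
    have hN0 : (0 : ℝ) ≤ Ng := Nat.cast_nonneg _
    have h3 : (Ng : ℝ) * V ^ 2 ≤ 2 * A * √((Ng : ℝ) * (Cl * T ^ δ) * T / G ^ 3) := by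
      have := mul_le_mul_of_nonneg_left hA2 hN0
      linarith
    rcases hN0.eq_or_lt with h0 | h0
    · rw [← h0, zero_mul]; positivity
    have h4 := pow_le_pow_left₀ (by positivity) h3 2
    rw [mul_pow (2 * A), Real.sq_sqrt (by positivity)] at h4
    have h5 : (Ng : ℝ) * V ^ 4 ≤ (2 * A) ^ 2 * (Cl * T ^ δ) * T / G ^ 3 :=
      le_of_mul_le_mul_left (by linarith [show (Ng : ℝ) * ((Ng : ℝ) * V ^ 4) =
        ((Ng : ℝ) * V ^ 2) ^ 2 by ring, show (2 * A) ^ 2 * ((Ng : ℝ) * (Cl * T ^ δ) * T / G ^ 3) =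
        (Ng : ℝ) * ((2 * A) ^ 2 * (Cl * T ^ δ) * T / G ^ 3) by ring]) h0
    calc (Ng : ℝ) * V ^ 6 = (Ng : ℝ) * V ^ 4 * (G * T ^ (5 * δ)) := by rw [hGV]; ring
      _ ≤ (2 * A) ^ 2 * (Cl * T ^ δ) * T / G ^ 3 * (G * T ^ (5 * δ)) :=
          mul_le_mul_of_nonneg_right h5 (by positivity)
      _ = (2 * C1) ^ 2 * Cl * ((T ^ (3 * δ)) ^ 2 * T ^ δ * T ^ (1 : ℝ) * T ^ (5 * δ)) := by
          rw [hA, Real.rpow_one]; field_simp
      _ = (2 * C1) ^ 2 * Cl * T ^ (1 + 12 * δ) := by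
          rw [← Real.rpow_mul_natCast hT0.le, ← Real.rpow_add hT0, ← Real.rpow_add hT0,
            ← Real.rpow_add hT0]
          push_cast
          ring_nf
      _ ≤ _ := by
          refine mul_le_mul_of_nonneg_right ?_ (Real.rpow_nonneg hT0.le _)
          rw [hC2]
          have : 0 ≤ (2 * C1) ^ 2 * Cl := by positivity
          linarith
  -- all the groups
  obtain ⟨Gr, hGr⟩ : ∃ Gr, Gr = range (⌊T / G ^ 3⌋₊ + 1) := ⟨_, rfl⟩
  have hmaps : ∀ t ∈ P, jf t / B ∈ Gr := fun t ht => by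
    rw [hGr, mem_range, Nat.lt_add_one_iff]
    refine Nat.le_floor (Nat.cast_div_le.trans ?_)
    have h1 := hjW (jf t) (hW ▸ mem_image_of_mem jf ht)
    rw [div_le_div_iff₀ (by linarith [hBR.1, show 0 < G ^ 2 by positivity]) (by positivity)]
    calc ((jf t : ℕ) : ℝ) * G ^ 3 ≤ ((jf t : ℕ) : ℝ) * (2 * G) * G ^ 2 := by
          have : 0 ≤ ((jf t : ℕ) : ℝ) * G ^ 3 := by positivity
          linarith [show ((jf t : ℕ) : ℝ) * (2 * G) * G ^ 2 = 2 * (((jf t : ℕ) : ℝ) * G ^ 3) by ring]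
      _ ≤ T * B := mul_le_mul h1 hBR.1 (by positivity) hT0.le
  have hcount : (Gr.card : ℝ) ≤ T / G ^ 3 + 1 := by
    rw [hGr, card_range]
    push_cast
    linarith [Nat.floor_le (show 0 ≤ T / G ^ 3 by positivity)]
  rw [card_eq_sum_card_fiberwise (f := fun t => jf t / B) (t := Gr) fun t ht => hmaps t ht,
    Nat.cast_sum, sum_mul]
  refine (sum_le_card_nsmul _ _ (C2 * T ^ (1 + 12 * δ) * V ^ 6) fun g _ => ?_).trans ?_
  · rw [show V ^ 12 = V ^ 6 * V ^ 6 by ring, ← mul_assoc]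
    exact mul_le_mul_of_nonneg_right (hgroup g) (by positivity)
  rw [nsmul_eq_mul]
  refine (mul_le_mul_of_nonneg_right hcount (by positivity)).trans ?_
  have e1 : T / G ^ 3 * V ^ 6 = T ^ (1 + 15 * δ) := by
    rw [show V ^ 6 = G ^ 3 * (T ^ (5 * δ)) ^ 3 by
      rw [← mul_pow, hGV]; ring, ← mul_assoc, div_mul_cancel₀ _ (by positivity),
      ← Real.rpow_mul_natCast hT0.le]
    nth_rewrite 1 [← Real.rpow_one T]
    rw [← Real.rpow_add hT0]
    push_cast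
    ring_nf
  have e2 : T ^ (1 + 15 * δ) * T ^ (1 + 12 * δ) ≤ T ^ (2 + 30 * δ) := by
    rw [← Real.rpow_add hT0]; exact hp (by linarith)
  have e3 : V ^ 6 * T ^ (1 + 12 * δ) ≤ Cz ^ 6 * T ^ (2 + 30 * δ) := by
    refine (mul_le_mul_of_nonneg_right hV6 (Real.rpow_nonneg hT0.le _)).trans ?_
    rw [mul_assoc, ← Real.rpow_add hT0]
    exact mul_le_mul_of_nonneg_left (hp (by linarith)) (by positivity)
  calc (T / G ^ 3 + 1) * (C2 * T ^ (1 + 12 * δ) * V ^ 6)
      = C2 * (T / G ^ 3 * V ^ 6 * T ^ (1 + 12 * δ) + V ^ 6 * T ^ (1 + 12 * δ)) := by ring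
    _ ≤ C2 * (T ^ (2 + 30 * δ) + Cz ^ 6 * T ^ (2 + 30 * δ)) := by
        rw [e1]
        exact mul_le_mul_of_nonneg_left (add_le_add e2 e3) hC20
    _ = _ := by ring

end FA.TwelfthMoment

end
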