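import Fermat.Agent.TwelfthMoment.LargeValues
import Fermat.Agent.FourthMoment.Main
import Fermat.Agent.SecondMoment.Main

/-!
# The twelfth moment

`∫_0^T |ζ (1/2 + it)| ^ 12 = O (T ^ (2 + ε))`: where `|ζ| ≤ T ^ (1/8)` the fourth moment suffices,
elsewhere one sums over dyadic levels of the large values.
-/

set_option autoImplicit false

noncomputable section

namespace FA.TwelfthMoment

open MeasureTheory Filter Finset
open scoped Real Topology

/-- `|ζ (1/2 + it)|`. -/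
def zetaAbs (t : ℝ) : ℝ := ‖riemannZeta (1 / 2 + t * Complex.I)‖

theorem continuous_zetaAbs : Continuous zetaAbs := FA.SecondMoment.continuous_zeta_line.norm

theorem zetaAbs_nonneg (t : ℝ) : 0 ≤ zetaAbs t := norm_nonneg _

theorem zetaAbs_le {T t : ℝ} (hT : 2 ≤ T) (h1 : T ≤ t) (h2 : t ≤ 2 * T) :
    zetaAbs t ≤ 2400000 * T ^ 2 := by
  refine (FA.Subconvexity.norm_riemannZeta_half_le (hT.trans h1)).trans ?_
  have ht : t ^ ((1 : ℝ) / 6) ≤ t := (Real.rpow_le_rpow_of_exponent_le (by linarith)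
    (show (1 : ℝ) / 6 ≤ 1 by norm_num)).trans (le_of_eq (Real.rpow_one _))
  have hl : Real.log t ≤ t :=
    (Real.log_le_sub_one_of_pos (by linarith)).trans (by linarith)
  calc 600000 * t ^ ((1 : ℝ) / 6) * Real.log t ≤ 600000 * (2 * T) * (2 * T) :=
        mul_le_mul (by linarith) (by linarith) (Real.log_nonneg (by linarith)) (by linarith)
    _ = _ := by ring

/-- The level of a large value. -/
def valueLevel (T x : ℝ) : ℕ := Nat.log 2 ⌊x / T ^ (1 / 8 : ℝ)⌋₊

theorem valueLevel_bounds {T x : ℝ} (hT : 0 < T) (hx : T ^ (1 / 8 : ℝ) < x) :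
    2 ^ valueLevel T x * T ^ (1 / 8 : ℝ) ≤ x ∧
      x ≤ 2 * (2 ^ valueLevel T x * T ^ (1 / 8 : ℝ)) := by
  have hr : 0 < T ^ (1 / 8 : ℝ) := Real.rpow_pos_of_pos hT _
  obtain ⟨y, hy⟩ : ∃ y, y = x / T ^ (1 / 8 : ℝ) := ⟨_, rfl⟩
  have hy1 : 1 ≤ y := by rw [hy, le_div_iff₀ hr, one_mul]; exact hx.le
  have hxy : x = y * T ^ (1 / 8 : ℝ) := by rw [hy, div_mul_cancel₀ _ hr.ne']
  rw [valueLevel, ← hy, hxy]
  obtain ⟨m, hm⟩ : ∃ m, m = ⌊y⌋₊ := ⟨_, rfl⟩
  rw [← hm]
  have hm0 : m ≠ 0 := by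
    have : 1 ≤ m := hm ▸ Nat.le_floor (by exact_mod_cast hy1)
    omega
  have h1 : ((2 : ℝ) ^ Nat.log 2 m) ≤ m := by exact_mod_cast Nat.pow_log_le_self 2 hm0
  have h2 : (m : ℝ) + 1 ≤ (2 : ℝ) ^ (Nat.log 2 m + 1) := by
    exact_mod_cast Nat.lt_pow_succ_log_self one_lt_two m
  have h3 : (m : ℝ) ≤ y := hm ▸ Nat.floor_le (by linarith)
  have h4 : y < m + 1 := hm ▸ Nat.lt_floor_add_one y
  rw [pow_succ] at h2
  constructor
  · exact mul_le_mul_of_nonneg_right (by linarith) hr.le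
  · rw [← mul_assoc]
    exact mul_le_mul_of_nonneg_right (by linarith) hr.le

/-- **The moment over `[T, 2T]`.** -/
theorem exists_dyadic {δ : ℝ} (hδ : 0 < δ) (hδ1 : δ ≤ 1 / 400) :
    ∃ C T₁, 0 ≤ C ∧ 3 ≤ T₁ ∧ ∀ T, T₁ ≤ T →
      ∫ t in T..2 * T, zetaAbs t ^ 12 ≤ C * T ^ (2 + 31 * δ) := by
  obtain ⟨C, T₀, hC, hT₀, hlv⟩ := exists_large_values hδ hδ1
  obtain ⟨Q, hQ, hquart⟩ := FA.FourthMoment.fourth_moment_le
  obtain ⟨A, hA⟩ : ∃ A, A = 2 * (16 + 2 / δ) + 1 := ⟨_, rfl⟩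
  have hA0 : 0 ≤ A := hA ▸ by positivity
  refine ⟨2 * Q * (4 + 1 / δ) ^ 4 + A * (2 * 4096 * C), T₀, by positivity, hT₀, fun T hT => ?_⟩
  have hT3 : 3 ≤ T := hT₀.trans hT
  have hT0 : 0 < T := by linarith
  have hT1 : 1 ≤ T := by linarith
  obtain ⟨r, hr⟩ : ∃ r, r = T ^ (1 / 8 : ℝ) := ⟨_, rfl⟩
  have hr0 : 0 < r := hr ▸ Real.rpow_pos_of_pos hT0 _
  obtain ⟨a, ha⟩ : ∃ a : ℕ → ℝ, a = fun i : ℕ => min (T + i) (2 * T) := ⟨_, rfl⟩
  obtain ⟨N, hN⟩ : ∃ N, N = ⌈T⌉₊ := ⟨_, rfl⟩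
  have ha0 : a 0 = T := by simp only [ha]; push_cast; rw [add_zero, min_eq_left (by linarith)]
  have haN : a N = 2 * T := by
    simp only [ha]
    exact min_eq_right (by linarith [hN ▸ Nat.le_ceil T])
  have hamono : ∀ i, a i ≤ a (i + 1) := fun i => by
    simp only [ha]; push_cast; exact min_le_min_right _ (by linarith)
  have haT : ∀ i, T ≤ a i ∧ a i ≤ 2 * T := fun i => by
    simp only [ha]
    exact ⟨le_min (by linarith [(Nat.cast_nonneg i : (0 : ℝ) ≤ i)]) (by linarith), min_le_right _ _⟩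
  have hlen : ∀ i, a (i + 1) - a i ≤ 1 := fun i => by
    simp only [ha]; push_cast
    rcases le_total (T + (i : ℝ)) (2 * T) with h | h
    · rw [min_eq_left h]; linarith [min_le_left (T + ((i : ℝ) + 1)) (2 * T)]
    · rw [min_eq_right h, min_eq_right (by linarith)]; linarith
  have hmax : ∀ i, ∃ s ∈ Set.Icc (a i) (a (i + 1)), ∀ t ∈ Set.Icc (a i) (a (i + 1)),
      zetaAbs t ≤ zetaAbs s := fun i => by
    obtain ⟨s, hs, h⟩ := (isCompact_Icc (a := a i) (b := a (i + 1))).exists_isMaxOn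
      (Set.nonempty_Icc.2 (hamono i)) continuous_zetaAbs.continuousOn
    exact ⟨s, hs, fun t ht => h ht⟩
  choose s hs hsmax using hmax
  have hint : ∀ (k : ℕ) (x y : ℝ), IntervalIntegrable (fun t => zetaAbs t ^ k) volume x y :=
    fun k x y => (continuous_zetaAbs.pow k).intervalIntegrable x y
  obtain ⟨B, hB⟩ : ∃ B, B = (range N).filter fun i => r < zetaAbs (s i) := ⟨_, rfl⟩
  -- each piece
  have hpiece : ∀ i, ∫ t in a i..a (i + 1), zetaAbs t ^ 12 ≤
      T * (∫ t in a i..a (i + 1), zetaAbs t ^ 4) +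
        if r < zetaAbs (s i) then zetaAbs (s i) ^ 12 else 0 := by
    intro i
    split_ifs with h
    · refine le_trans ?_ (le_add_of_nonneg_left (mul_nonneg hT0.le
        (intervalIntegral.integral_nonneg (hamono i) fun t _ => by positivity)))
      refine (intervalIntegral.integral_mono_on (hamono i) (hint 12 _ _) intervalIntegrable_const
        fun t ht => pow_le_pow_left₀ (zetaAbs_nonneg t) (hsmax i t ht) 12).trans ?_
      rw [intervalIntegral.integral_const, smul_eq_mul]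
      exact mul_le_of_le_one_left (by positivity) (hlen i)
    · rw [add_zero, ← intervalIntegral.integral_const_mul]
      refine intervalIntegral.integral_mono_on (hamono i) (hint 12 _ _) ((hint 4 _ _).const_mul T)
        fun t ht => ?_
      have h8 : zetaAbs t ^ 8 ≤ T := by
        refine (pow_le_pow_left₀ (zetaAbs_nonneg t) ((hsmax i t ht).trans (not_lt.1 h)) 8).trans
          (le_of_eq ?_)
        rw [hr, ← Real.rpow_mul_natCast hT0.le]
        norm_num
      calc zetaAbs t ^ 12 = zetaAbs t ^ 8 * zetaAbs t ^ 4 := by ring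
        _ ≤ _ := mul_le_mul_of_nonneg_right h8 (by positivity)
  have hsum : ∫ t in T..2 * T, zetaAbs t ^ 12 ≤
      T * (∫ t in T..2 * T, zetaAbs t ^ 4) + ∑ i ∈ B, zetaAbs (s i) ^ 12 := by
    have e := intervalIntegral.sum_integral_adjacent_intervals (a := a) (n := N)
      (f := fun t => zetaAbs t ^ 12) fun k _ => hint 12 _ _
    have e' := intervalIntegral.sum_integral_adjacent_intervals (a := a) (n := N)
      (f := fun t => zetaAbs t ^ 4) fun k _ => hint 4 _ _
    rw [ha0, haN] at e e'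
    rw [← e, ← e', mul_sum, hB, sum_filter, ← sum_add_distrib]
    exact sum_le_sum fun i _ => hpiece i
  -- the levels
  obtain ⟨J, hJ⟩ : ∃ J, J = Nat.log 2 ⌊2400000 * T ^ 2⌋₊ + 1 := ⟨_, rfl⟩
  have hmaps : ∀ i ∈ B, valueLevel T (zetaAbs (s i)) ∈ range J := fun i _ => by
    rw [mem_range, hJ, valueLevel, Nat.lt_add_one_iff]
    refine Nat.log_mono_right (Nat.floor_mono ?_)
    refine (div_le_self (zetaAbs_nonneg _) (Real.one_le_rpow hT1 (by norm_num))).trans ?_
    exact zetaAbs_le (by linarith) ((haT i).1.trans (hs i).1) ((hs i).2.trans (haT _).2)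
  have hlevel : ∀ l, ∑ i ∈ B.filter (fun i => valueLevel T (zetaAbs (s i)) = l),
      zetaAbs (s i) ^ 12 ≤ 2 * 4096 * C * T ^ (2 + 30 * δ) := by
    intro l
    obtain ⟨V, hV⟩ : ∃ V, V = 2 ^ l * r := ⟨_, rfl⟩
    have hV0 : 0 ≤ V := hV ▸ by positivity
    have hrV : T ^ (1 / 8 : ℝ) ≤ V := by
      rw [hV, ← hr]; exact le_mul_of_one_le_left hr0.le (one_le_pow₀ one_le_two)
    obtain ⟨D, hD⟩ : ∃ D, D = B.filter fun i => valueLevel T (zetaAbs (s i)) = l := ⟨_, rfl⟩
    rw [← hD]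
    have hDv : ∀ i ∈ D, i < N ∧ V ≤ zetaAbs (s i) ∧ zetaAbs (s i) ≤ 2 * V := fun i hi => by
      rw [hD, mem_filter, hB, mem_filter, mem_range] at hi
      obtain ⟨h1, h2⟩ := valueLevel_bounds hT0 (x := zetaAbs (s i)) (hr ▸ hi.1.2)
      rw [hi.2, ← hr, ← hV] at h1 h2
      exact ⟨hi.1.1, h1, h2⟩
    have hpar : ∀ e, ∑ i ∈ D.filter (fun i => i % 2 = e), zetaAbs (s i) ^ 12 ≤
        4096 * C * T ^ (2 + 30 * δ) := by
      intro e
      obtain ⟨E, hE⟩ : ∃ E, E = D.filter fun i => i % 2 = e := ⟨_, rfl⟩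
      rw [← hE]
      have hEv : ∀ i ∈ E, i ∈ D ∧ i % 2 = e := fun i hi => by rw [hE, mem_filter] at hi; exact hi
      have hgap : ∀ i ∈ E, ∀ j ∈ E, i < j → 1 ≤ s j - s i := fun i hi j hj hij => by
        have h2 : i + 2 ≤ j := by have := (hEv i hi).2; have := (hEv j hj).2; omega
        have hjN := (hDv j (hEv j hj).1).1
        have hj' : (j : ℝ) < T := Nat.lt_ceil.1 (hN ▸ hjN)
        have h3 : ((i + 2 : ℕ) : ℝ) ≤ j := Nat.cast_le.2 h2
        have h4 := (hs j).1
        have h5 := (hs i).2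
        simp only [ha] at h4 h5
        push_cast at h3 h5
        rw [min_eq_left (by linarith)] at h4
        have := h5.trans (min_le_left _ _)
        linarith
      have hsep : ∀ i ∈ E, ∀ j ∈ E, i ≠ j → 1 ≤ |s i - s j| := fun i hi j hj h => by
        rcases lt_or_gt_of_ne h with h | h
        · rw [abs_sub_comm]; exact (hgap i hi j hj h).trans (le_abs_self _)
        · exact (hgap j hj i hi h).trans (le_abs_self _)
      have hinj : Set.InjOn s E := fun i hi j hj h => by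
        by_contra hne
        have := hsep i hi j hj hne
        rw [h, sub_self, abs_zero] at this
        linarith
      have h := hlv T V (E.image s) hT hrV (fun t ht => by
          rw [mem_image] at ht
          obtain ⟨i, hi, rfl⟩ := ht
          exact ⟨(haT i).1.trans (hs i).1, (hs i).2.trans (haT _).2, (hDv i (hEv i hi).1).2.1⟩)
        (fun x hx y hy hne => by
          rw [mem_image] at hx hy
          obtain ⟨i, hi, rfl⟩ := hx
          obtain ⟨j, hj, rfl⟩ := hy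
          exact hsep i hi j hj fun h => hne (h ▸ rfl))
      rw [card_image_of_injOn hinj] at h
      refine (sum_le_card_nsmul _ _ ((2 * V) ^ 12) fun i hi => pow_le_pow_left₀ (zetaAbs_nonneg _)
        (hDv i (hEv i hi).1).2.2 12).trans ?_
      rw [nsmul_eq_mul, show (2 * V) ^ 12 = 4096 * V ^ 12 by ring]
      linarith
    rw [← sum_fiberwise_of_maps_to (g := fun i => i % 2) (t := range 2)
      fun i _ => mem_range.2 (Nat.mod_lt _ two_pos)]
    refine (sum_le_card_nsmul _ _ _ fun e _ => hpar e).trans (le_of_eq ?_)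
    rw [card_range, nsmul_eq_mul]
    push_cast
    ring
  have hBsum : ∑ i ∈ B, zetaAbs (s i) ^ 12 ≤ J * (2 * 4096 * C * T ^ (2 + 30 * δ)) := by
    rw [← sum_fiberwise_of_maps_to hmaps]
    refine (sum_le_card_nsmul _ _ _ fun l _ => hlevel l).trans (le_of_eq ?_)
    rw [card_range, nsmul_eq_mul]
  have hTd : 1 ≤ T ^ δ := Real.one_le_rpow hT1 hδ.le
  have hlogT : Real.log T ≤ T ^ δ / δ := Real.log_le_rpow_div hT0.le hδ
  have hJA : (J : ℝ) ≤ A * T ^ δ := by
    obtain ⟨m, hm⟩ : ∃ m, m = ⌊2400000 * T ^ 2⌋₊ := ⟨_, rfl⟩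
    have hm1 : 1 ≤ m := by
      rw [hm]; refine Nat.le_floor ?_; push_cast; nlinarith
    have h1 : ((2 ^ Nat.log 2 m : ℕ) : ℝ) ≤ (m : ℝ) :=
      Nat.cast_le.2 (Nat.pow_log_le_self 2 (by omega))
    push_cast at h1
    have h2 := Real.log_le_log (by positivity)
      (h1.trans (hm ▸ Nat.floor_le (by positivity) : (m : ℝ) ≤ 2400000 * T ^ 2))
    rw [Real.log_pow, Real.log_mul (by norm_num) (by positivity), Real.log_pow] at h2
    push_cast at h2
    have h3 : Real.log 2400000 ≤ 16 := by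
      rw [Real.log_le_iff_le_exp (by norm_num)]
      have h := pow_le_pow_left₀ (by norm_num) Real.exp_one_gt_d9.le 16
      rw [← Real.exp_nat_mul] at h
      norm_num at h ⊢
      linarith
    have h4 := mul_le_mul_of_nonneg_left (show (1 / 2 : ℝ) ≤ Real.log 2 by
      linarith [Real.log_two_gt_d9]) (Nat.cast_nonneg (α := ℝ) (Nat.log 2 m))
    rw [hJ, ← hm, hA]
    push_cast
    have e : (2 * (16 + 2 / δ) + 1) * T ^ δ = 32 * T ^ δ + 4 * (T ^ δ / δ) + T ^ δ := by ring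
    linarith
  have hq : ∫ t in T..2 * T, zetaAbs t ^ 4 ≤ Q * (2 * T) * ((4 + 1 / δ) * T ^ δ) ^ 4 := by
    have h1 : ∫ t in T..2 * T, zetaAbs t ^ 4 ≤ ∫ t in (0 : ℝ)..2 * T, zetaAbs t ^ 4 := by
      rw [← intervalIntegral.integral_add_adjacent_intervals (hint 4 0 T) (hint 4 T (2 * T))]
      exact le_add_of_nonneg_left (intervalIntegral.integral_nonneg hT0.le fun t _ => by positivity)
    refine (h1.trans (hquart (2 * T) (by linarith))).trans ?_
    rw [← mul_assoc]
    refine mul_le_mul_of_nonneg_left (pow_le_pow_left₀ (Real.log_nonneg (by linarith)) ?_ 4)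
      (by positivity)
    refine (Real.log_le_log (by linarith) (show 2 * T + 2 ≤ 4 * T by linarith)).trans ?_
    rw [Real.log_mul (by norm_num) hT0.ne', add_mul, one_div_mul_eq_div]
    have : Real.log 4 ≤ 4 := (Real.log_le_sub_one_of_pos (by norm_num)).trans (by norm_num)
    linarith
  refine hsum.trans ((add_le_add (mul_le_mul_of_nonneg_left hq hT0.le)
    (hBsum.trans (mul_le_mul_of_nonneg_right hJA (by positivity)))).trans ?_)
  have e1 : T * T * (T ^ δ) ^ 4 ≤ T ^ (2 + 31 * δ) := by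
    rw [← Real.rpow_mul_natCast hT0.le, ← pow_two, ← Real.rpow_two, ← Real.rpow_add hT0]
    exact Real.rpow_le_rpow_of_exponent_le hT1 (by push_cast; linarith)
  have e2 : T ^ δ * T ^ (2 + 30 * δ) = T ^ (2 + 31 * δ) := by
    rw [← Real.rpow_add hT0]; ring_nf
  calc T * (Q * (2 * T) * ((4 + 1 / δ) * T ^ δ) ^ 4) +
        A * T ^ δ * (2 * 4096 * C * T ^ (2 + 30 * δ))
      = 2 * Q * (4 + 1 / δ) ^ 4 * (T * T * (T ^ δ) ^ 4) +
          A * (2 * 4096 * C) * (T ^ δ * T ^ (2 + 30 * δ)) := by ring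
    _ ≤ 2 * Q * (4 + 1 / δ) ^ 4 * T ^ (2 + 31 * δ) +
          A * (2 * 4096 * C) * T ^ (2 + 31 * δ) := by
        rw [e2]
        gcongr
    _ = _ := by ring

/-- **Heath-Brown's twelfth moment.** -/
theorem twelfth_moment_le {ε : ℝ} (hε : 0 < ε) : ∃ C, 0 ≤ C ∧ ∀ T : ℝ, 1 ≤ T →
    (∫ t in (0 : ℝ)..T, zetaAbs t ^ 12) ≤ C * T ^ (2 + ε) := by
  obtain ⟨δ, hδd⟩ : ∃ δ : ℝ, δ = min (1 / 400) (ε / 31) := ⟨_, rfl⟩
  have hδ : 0 < δ := hδd ▸ lt_min (by norm_num) (by positivity)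
  obtain ⟨C, T₁, hC, hT₁, hdy⟩ := exists_dyadic hδ (hδd ▸ min_le_left _ _)
  have hδε : 31 * δ ≤ ε := by
    have : δ ≤ ε / 31 := hδd ▸ min_le_right _ _
    linarith
  have hint : ∀ x y : ℝ, IntervalIntegrable (fun t => zetaAbs t ^ 12) volume x y := fun x y =>
    (continuous_zetaAbs.pow 12).intervalIntegrable x y
  obtain ⟨F, hF⟩ : ∃ F : ℝ → ℝ, F = fun T => ∫ t in (0 : ℝ)..T, zetaAbs t ^ 12 := ⟨_, rfl⟩
  have hF0 : ∀ T, 0 ≤ T → 0 ≤ F T := fun T hT => by
    simp only [hF]; exact intervalIntegral.integral_nonneg hT fun t _ => by positivity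
  have hadd : ∀ x y, F y = F x + ∫ t in x..y, zetaAbs t ^ 12 := fun x y => by
    simp only [hF]
    rw [intervalIntegral.integral_add_adjacent_intervals (hint 0 x) (hint x y)]
  obtain ⟨K, hK⟩ : ∃ K, K = C + F (2 * T₁) := ⟨_, rfl⟩
  have hK0 : 0 ≤ K := by rw [hK]; linarith [hF0 (2 * T₁) (by linarith)]
  refine ⟨K, hK0, ?_⟩
  have key : ∀ n : ℕ, ∀ T : ℝ, 1 ≤ T → T ≤ 2 ^ n * (2 * T₁) → F T ≤ K * T ^ (2 + ε) := by
    intro n
    induction n with
    | zero =>
      intro T hT hTn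
      rw [pow_zero, one_mul] at hTn
      have h1 : F T ≤ F (2 * T₁) := by
        rw [hadd T (2 * T₁)]
        exact le_add_of_nonneg_right (intervalIntegral.integral_nonneg hTn fun t _ => by positivity)
      refine h1.trans ((show F (2 * T₁) ≤ K by linarith).trans ?_)
      exact le_mul_of_one_le_right hK0 (Real.one_le_rpow hT (by linarith))
    | succ n ih =>
      intro T hT hTn
      rcases le_or_gt T (2 ^ n * (2 * T₁)) with h | h
      · exact ih T hT h
      have h2 : 2 * T₁ < T := lt_of_le_of_lt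
        (le_mul_of_one_le_left (by linarith) (one_le_pow₀ one_le_two)) h
      rw [hadd (T / 2) T]
      have hhalf := ih (T / 2) (by linarith) (by rw [pow_succ] at hTn; linarith)
      have hd := hdy (T / 2) (by linarith)
      rw [show 2 * (T / 2) = T by ring] at hd
      have hp : (T / 2) ^ (2 + ε) ≤ T ^ (2 + ε) / 4 := by
        rw [Real.div_rpow (by linarith) (by norm_num)]
        refine div_le_div_of_nonneg_left (Real.rpow_nonneg (by linarith) _) (by norm_num) ?_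
        calc (4 : ℝ) = 2 ^ (2 : ℝ) := by norm_num
          _ ≤ _ := Real.rpow_le_rpow_of_exponent_le one_le_two (by linarith)
      have hCK : C ≤ K := by rw [hK]; linarith [hF0 (2 * T₁) (by linarith)]
      calc F (T / 2) + ∫ t in T / 2..T, zetaAbs t ^ 12
          ≤ K * (T / 2) ^ (2 + ε) + C * (T / 2) ^ (2 + 31 * δ) := add_le_add hhalf hd
        _ ≤ K * (T / 2) ^ (2 + ε) + K * (T / 2) ^ (2 + ε) := by
            gcongr
            linarith
        _ ≤ K * (T ^ (2 + ε) / 4) + K * (T ^ (2 + ε) / 4) := by gcongr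
        _ ≤ _ := by
            have : 0 ≤ K * T ^ (2 + ε) := by positivity
            linarith
  intro T hT
  obtain ⟨n, hn⟩ := pow_unbounded_of_one_lt T (one_lt_two (α := ℝ))
  have h := key n T hT (hn.le.trans (le_mul_of_one_le_right (by positivity) (by linarith)))
  simpa only [hF] using h

end FA.TwelfthMoment

end
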