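import Fermat.Agent.Subconvexity.SecondDerivative
import Mathlib.Analysis.Calculus.Deriv.Inv
import Mathlib.MeasureTheory.Integral.IntervalIntegral.IntegrationByParts
import Mathlib.Analysis.SpecialFunctions.Integrals.Basic

/-!
# Oscillatory integrals without a stationary point

`SymbolBound a C k f f₁ f₂`: on `[a, ∞)` the function `f` has derivatives `f₁`, `f₂` with
`|f^(j) u| ≤ C / u ^ (k + j)`. Two integrations by parts bound `∫ f e(P)` by the integral of
`1 / (u ^ 3 P' ^ 2)` when `k = 1` and `P'' = O (P'/u)`, `P''' = O (P'/u²)`.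
-/

set_option autoImplicit false

noncomputable section

namespace FA.TwelfthMoment

open MeasureTheory Filter Set
open FA.Subconvexity (expI norm_expI)
open scoped Real Topology

/-- `e (x) = exp (2 π i x)`. -/
def eTau (x : ℝ) : ℂ := expI (2 * π * x)

theorem norm_eTau (x : ℝ) : ‖eTau x‖ = 1 := norm_expI _

theorem eTau_add (x y : ℝ) : eTau (x + y) = eTau x * eTau y := by
  rw [eTau, eTau, eTau, mul_add, FA.Subconvexity.expI_add]

theorem continuous_eTau : Continuous eTau := by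
  unfold eTau expI
  fun_prop

theorem hasDerivAt_eTau {P : ℝ → ℝ} {p u : ℝ} (hP : HasDerivAt P p u) :
    HasDerivAt (fun v => eTau (P v))
      (((2 * π : ℝ) : ℂ) * Complex.I * (p : ℂ) * eTau (P u)) u := by
  have h := (((hP.const_mul (2 * π)).ofReal_comp).mul_const Complex.I).cexp
  refine h.congr_deriv ?_
  rw [eTau, expI]
  push_cast
  ring

/-- Bounds for a function and two derivatives on `[a, ∞)`. -/
structure SymbolBound (a C : ℝ) (k : ℕ) (f f₁ f₂ : ℝ → ℝ) : Prop where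
  d₁ : ∀ u, a ≤ u → HasDerivAt f (f₁ u) u
  d₂ : ∀ u, a ≤ u → HasDerivAt f₁ (f₂ u) u
  cont : ContinuousOn f₂ (Ici a)
  b₀ : ∀ u, a ≤ u → |f u| ≤ C / u ^ k
  b₁ : ∀ u, a ≤ u → |f₁ u| ≤ C / u ^ (k + 1)
  b₂ : ∀ u, a ≤ u → |f₂ u| ≤ C / u ^ (k + 2)

namespace SymbolBound

variable {a C D : ℝ} {k l : ℕ} {f f₁ f₂ g g₁ g₂ : ℝ → ℝ}

theorem nonneg (h : SymbolBound a C k f f₁ f₂) (ha : 0 < a) : 0 ≤ C := by
  have h0 := (abs_nonneg _).trans (h.b₀ a le_rfl)
  exact (div_nonneg_iff.1 h0).resolve_right (fun h' => absurd h'.2 (not_le.2 (pow_pos ha k))) |>.1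

theorem contOn (h : SymbolBound a C k f f₁ f₂) : ContinuousOn f (Ici a) :=
  fun u hu => (h.d₁ u hu).continuousAt.continuousWithinAt

theorem contOn₁ (h : SymbolBound a C k f f₁ f₂) : ContinuousOn f₁ (Ici a) :=
  fun u hu => (h.d₂ u hu).continuousAt.continuousWithinAt

theorem restrict (h : SymbolBound a C k f f₁ f₂) {b : ℝ} (hb : a ≤ b) :
    SymbolBound b C k f f₁ f₂ :=
  ⟨fun u hu => h.d₁ u (hb.trans hu), fun u hu => h.d₂ u (hb.trans hu),
    h.cont.mono (Ici_subset_Ici.2 hb), fun u hu => h.b₀ u (hb.trans hu),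
    fun u hu => h.b₁ u (hb.trans hu), fun u hu => h.b₂ u (hb.trans hu)⟩

/-- Products. -/
theorem mul (h : SymbolBound a C k f f₁ f₂) (h' : SymbolBound a D l g g₁ g₂) (ha : 0 < a) :
    SymbolBound a (4 * C * D) (k + l) (fun u => f u * g u) (fun u => f₁ u * g u + f u * g₁ u)
      (fun u => f₂ u * g u + 2 * (f₁ u * g₁ u) + f u * g₂ u) := by
  have hC := h.nonneg ha
  have hD := h'.nonneg ha
  have key : ∀ u, a ≤ u → ∀ i j : ℕ, ∀ x y : ℝ, |x| ≤ C / u ^ (k + i) → |y| ≤ D / u ^ (l + j) →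
      |x * y| ≤ C * D / u ^ (k + l + (i + j)) := fun u hu i j x y hx hy => by
    have hu0 : 0 < u := ha.trans_le hu
    rw [abs_mul]
    refine (mul_le_mul hx hy (abs_nonneg _) (by positivity)).trans (le_of_eq ?_)
    rw [div_mul_div_comm, ← pow_add]
    ring_nf
  refine ⟨fun u hu => (h.d₁ u hu).mul (h'.d₁ u hu), fun u hu => ?_, ?_, fun u hu => ?_,
    fun u hu => ?_, fun u hu => ?_⟩
  · exact (((h.d₂ u hu).mul (h'.d₁ u hu)).add ((h.d₁ u hu).mul (h'.d₂ u hu))).congr_deriv (by ring)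
  · exact ((h.cont.mul h'.contOn).add (continuousOn_const.mul (h.contOn₁.mul h'.contOn₁))).add
      (h.contOn.mul h'.cont)
  all_goals have hu0 : 0 < u := ha.trans_le hu
  · have := key u hu 0 0 _ _ (h.b₀ u hu) (h'.b₀ u hu)
    refine this.trans (div_le_div_of_nonneg_right ?_ (by positivity))
    nlinarith
  · refine (abs_add_le _ _).trans ((add_le_add (key u hu 1 0 _ _ (h.b₁ u hu) (h'.b₀ u hu))
      (key u hu 0 1 _ _ (h.b₀ u hu) (h'.b₁ u hu))).trans (le_of_le_of_eq ?_ rfl))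
    rw [← add_div]
    exact div_le_div_of_nonneg_right (by nlinarith) (by positivity)
  · refine (abs_add_three _ _ _).trans ?_
    rw [abs_mul 2, abs_two]
    refine (add_le_add (add_le_add (key u hu 2 0 _ _ (h.b₂ u hu) (h'.b₀ u hu))
      (mul_le_mul_of_nonneg_left (key u hu 1 1 _ _ (h.b₁ u hu) (h'.b₁ u hu)) two_pos.le))
      (key u hu 0 2 _ _ (h.b₀ u hu) (h'.b₂ u hu))).trans (le_of_eq ?_)
    ring

end SymbolBound

/-- One integration by parts. -/
theorem integral_mul_eTau_ibp {a b : ℝ} (hab : a ≤ b) {g g' P p : ℝ → ℝ}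
    (hg : ∀ u ∈ Icc a b, HasDerivAt g (g' u) u) (hP : ∀ u ∈ Icc a b, HasDerivAt P (p u) u)
    (hc : ContinuousOn g' (Icc a b)) (hpc : ContinuousOn p (Icc a b))
    (ha : g a = 0) (hb : g b = 0) :
    ∫ u in a..b, ((g u * p u : ℝ) : ℂ) * eTau (P u) =
      -(1 / (((2 * π : ℝ) : ℂ) * Complex.I)) * ∫ u in a..b, (g' u : ℂ) * eTau (P u) := by
  rw [← uIcc_of_le hab] at hc hpc hg hP
  have hgc : ContinuousOn g (uIcc a b) := fun u hu => (hg u hu).continuousAt.continuousWithinAt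
  have hPc : ContinuousOn (fun u => eTau (P u)) (uIcc a b) :=
    continuous_eTau.comp_continuousOn fun u hu => (hP u hu).continuousAt.continuousWithinAt
  have h1 : ContinuousOn (fun u => (g' u : ℂ) * eTau (P u)) (uIcc a b) :=
    (Complex.continuous_ofReal.comp_continuousOn hc).mul hPc
  have h2 : ContinuousOn (fun u => ((g u * p u : ℝ) : ℂ) * eTau (P u)) (uIcc a b) :=
    (Complex.continuous_ofReal.comp_continuousOn (hgc.mul hpc)).mul hPc
  obtain ⟨w, hw⟩ : ∃ w : ℂ, w = ((2 * π : ℝ) : ℂ) * Complex.I := ⟨_, rfl⟩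
  have hw0 : w ≠ 0 := hw ▸ mul_ne_zero (Complex.ofReal_ne_zero.2 (by positivity)) Complex.I_ne_zero
  have h := intervalIntegral.integral_eq_sub_of_hasDerivAt
    (f := fun u => (g u : ℂ) * eTau (P u))
    (f' := fun u => (g' u : ℂ) * eTau (P u) + w * (((g u * p u : ℝ) : ℂ) * eTau (P u)))
    (fun u hu => ((hg u hu).ofReal_comp.mul (hasDerivAt_eTau (hP u hu))).congr_deriv (by
      rw [hw]; push_cast; ring))
    (h1.intervalIntegrable.add (h2.intervalIntegrable.const_mul w))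
  rw [intervalIntegral.integral_add h1.intervalIntegrable (h2.intervalIntegrable.const_mul w), intervalIntegral.integral_const_mul, ha, hb]
    at h
  simp only [Complex.ofReal_zero, zero_mul, sub_zero] at h
  rw [← hw, neg_mul, one_div_mul_eq_div, ← neg_div, eq_div_iff hw0]
  linear_combination h

/-- **Two integrations by parts.** -/
theorem norm_integral_ibp_twice_le {a b : ℝ} (hab : a ≤ b) {f f₁ f₂ P p p₁ p₂ : ℝ → ℝ}
    (hd₁ : ∀ u ∈ Icc a b, HasDerivAt f (f₁ u) u) (hd₂ : ∀ u ∈ Icc a b, HasDerivAt f₁ (f₂ u) u)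
    (hf₂ : ContinuousOn f₂ (Icc a b)) (hfa : f a = 0) (hfb : f b = 0) (hf₁a : f₁ a = 0)
    (hf₁b : f₁ b = 0) (hP : ∀ u ∈ Icc a b, HasDerivAt P (p u) u)
    (hp : ∀ u ∈ Icc a b, HasDerivAt p (p₁ u) u) (hp₁ : ∀ u ∈ Icc a b, HasDerivAt p₁ (p₂ u) u)
    (hp₂ : ContinuousOn p₂ (Icc a b)) (hne : ∀ u ∈ Icc a b, p u ≠ 0 ∨ ∀ᶠ v in 𝓝 u, f v = 0 ∧ f₁ v = 0 ∧ f₂ v = 0) {R : ℝ → ℝ}
    (hR : ContinuousOn R (Icc a b))
    (hle : ∀ u ∈ Icc a b, |f₂ u| / |p u| ^ 2 + 3 * |f₁ u| * |p₁ u| / |p u| ^ 3 +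
      |f u| * |p₂ u| / |p u| ^ 3 + 3 * |f u| * |p₁ u| ^ 2 / |p u| ^ 4 ≤ R u) :
    ‖∫ u in a..b, (f u : ℂ) * eTau (P u)‖ ≤ ∫ u in a..b, R u := by
  have hfc : ContinuousOn f (Icc a b) := fun u hu => (hd₁ u hu).continuousAt.continuousWithinAt
  have hf₁c : ContinuousOn f₁ (Icc a b) := fun u hu => (hd₂ u hu).continuousAt.continuousWithinAt
  have hpc : ContinuousOn p (Icc a b) := fun u hu => (hp u hu).continuousAt.continuousWithinAt
  have hp₁c : ContinuousOn p₁ (Icc a b) := fun u hu => (hp₁ u hu).continuousAt.continuousWithinAt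
  obtain ⟨g, hg⟩ : ∃ g : ℝ → ℝ, g = fun u => f u / p u := ⟨_, rfl⟩
  obtain ⟨g', hg'⟩ : ∃ g' : ℝ → ℝ, g' = fun u => (f₁ u * p u - f u * p₁ u) / p u ^ 2 := ⟨_, rfl⟩
  obtain ⟨h', hh'⟩ : ∃ h' : ℝ → ℝ, h' = fun u =>
      (f₂ u * p u - f u * p₂ u) / p u ^ 3 - 3 * (f₁ u * p u - f u * p₁ u) * p₁ u / p u ^ 4 :=
    ⟨_, rfl⟩
  have hz : ∀ u ∈ Icc a b, p u = 0 → g =ᶠ[𝓝 u] (fun _ => 0) ∧ g' =ᶠ[𝓝 u] (fun _ => 0) ∧
      h' =ᶠ[𝓝 u] fun _ => 0 := fun u hu h0 => by
    have h := (hne u hu).resolve_left (not_not.2 h0)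
    refine ⟨?_, ?_, ?_⟩
    all_goals
      filter_upwards [h] with v hv
      simp [hg, hg', hh', hv.1, hv.2.1, hv.2.2]
  have hgd : ∀ u ∈ Icc a b, HasDerivAt g (g' u) u := fun u hu => by
    rcases em (p u = 0) with h0 | h0
    · rw [(hz u hu h0).2.1.self_of_nhds]
      exact (hasDerivAt_const u (0 : ℝ)).congr_of_eventuallyEq (hz u hu h0).1
    · rw [hg, hg']
      exact (hd₁ u hu).div (hp u hu) h0
  have hg'c : ContinuousOn g' (Icc a b) := fun u hu => by
    rcases em (p u = 0) with h0 | h0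
    · exact (continuousAt_const.congr (hz u hu h0).2.1.symm).continuousWithinAt
    · rw [hg']
      exact (((hf₁c u hu).mul (hpc u hu)).sub ((hfc u hu).mul (hp₁c u hu))).div
        ((hpc u hu).pow 2) (pow_ne_zero 2 h0)
  have hhd : ∀ u ∈ Icc a b, HasDerivAt (fun u => g' u / p u) (h' u) u := fun u hu => by
    rcases em (p u = 0) with h0 | h0
    · rw [(hz u hu h0).2.2.self_of_nhds]
      refine (hasDerivAt_const u (0 : ℝ)).congr_of_eventuallyEq ?_
      filter_upwards [(hz u hu h0).2.1] with v hv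
      rw [hv, zero_div]
    rw [hh', hg']
    refine (((((hd₂ u hu).mul (hp u hu)).sub ((hd₁ u hu).mul (hp₁ u hu))).div
      ((hp u hu).pow 2) (pow_ne_zero 2 h0)).div (hp u hu) h0).congr_deriv ?_
    simp only [Pi.sub_apply, Pi.mul_apply, Pi.div_apply, Pi.pow_apply]
    push_cast
    field_simp
    ring
  have hh'c : ContinuousOn h' (Icc a b) := fun u hu => by
    rcases em (p u = 0) with h0 | h0
    · exact (continuousAt_const.congr (hz u hu h0).2.2.symm).continuousWithinAt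
    · rw [hh']
      exact ((((hf₂ u hu).mul (hpc u hu)).sub ((hfc u hu).mul (hp₂ u hu))).div ((hpc u hu).pow 3)
        (pow_ne_zero 3 h0)).sub (((continuousWithinAt_const.mul
          (((hf₁c u hu).mul (hpc u hu)).sub ((hfc u hu).mul (hp₁c u hu)))).mul (hp₁c u hu)).div
            ((hpc u hu).pow 4) (pow_ne_zero 4 h0))
  have e1 : ∫ u in a..b, (f u : ℂ) * eTau (P u) =
      ∫ u in a..b, ((g u * p u : ℝ) : ℂ) * eTau (P u) :=
    intervalIntegral.integral_congr fun u hu => by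
      rw [uIcc_of_le hab] at hu
      rcases em (p u = 0) with h0 | h0
      · simp [((hne u hu).resolve_left (not_not.2 h0)).self_of_nhds.1, h0]
      · simp only [hg]
        rw [div_mul_cancel₀ _ h0]
  have e2 : ∫ u in a..b, (g' u : ℂ) * eTau (P u) =
      ∫ u in a..b, ((g' u / p u * p u : ℝ) : ℂ) * eTau (P u) :=
    intervalIntegral.integral_congr fun u hu => by
      rw [uIcc_of_le hab] at hu
      rcases em (p u = 0) with h0 | h0
      · simp [(hz u hu h0).2.1.self_of_nhds, h0]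
      · rw [div_mul_cancel₀ _ h0]
  rw [e1, integral_mul_eTau_ibp hab hgd hP hg'c hpc (by simp [hg, hfa]) (by simp [hg, hfb]), e2,
    integral_mul_eTau_ibp hab hhd hP hh'c hpc (by simp [hg', hfa, hf₁a]) (by simp [hg', hfb, hf₁b]),
    ← mul_assoc, norm_mul]
  have hc : ‖-(1 / (((2 * π : ℝ) : ℂ) * Complex.I)) * -(1 / (((2 * π : ℝ) : ℂ) * Complex.I))‖ ≤
      1 := by
    have h : ‖-(1 / (((2 * π : ℝ) : ℂ) * Complex.I))‖ ≤ 1 := by
      rw [norm_neg, norm_div, norm_one, norm_mul, Complex.norm_I, mul_one, Complex.norm_real,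
        Real.norm_of_nonneg (by positivity), div_le_one (by positivity)]
      linarith [Real.two_le_pi]
    rw [norm_mul]
    exact mul_le_one₀ h (norm_nonneg _) h
  refine (mul_le_of_le_one_left (norm_nonneg _) hc).trans ?_
  refine intervalIntegral.norm_integral_le_of_norm_le hab (Eventually.of_forall fun u hu => ?_)
    ((uIcc_of_le hab ▸ hR : ContinuousOn R (uIcc a b)).intervalIntegrable)
  have hu' := Ioc_subset_Icc_self hu
  rw [norm_mul, norm_eTau, mul_one, Complex.norm_real, Real.norm_eq_abs]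
  refine le_trans ?_ (hle u hu')
  rcases em (p u = 0) with h0 | h0
  · rw [(hz u hu' h0).2.2.self_of_nhds, abs_zero]
    positivity
  have hp0 : 0 < |p u| := abs_pos.2 h0
  rw [hh']
  refine (abs_sub _ _).trans ?_
  rw [abs_div, abs_div, abs_pow, abs_pow, abs_mul, abs_mul, show |(3 : ℝ)| = 3 by norm_num]
  have n1 := (abs_sub (f₂ u * p u) (f u * p₂ u)).trans_eq (by rw [abs_mul, abs_mul])
  have n2 := (abs_sub (f₁ u * p u) (f u * p₁ u)).trans_eq (by rw [abs_mul, abs_mul])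
  refine (add_le_add (div_le_div_of_nonneg_right n1 (by positivity))
    (div_le_div_of_nonneg_right (mul_le_mul_of_nonneg_right
      (mul_le_mul_of_nonneg_left n2 (by norm_num)) (abs_nonneg _)) (by positivity))).trans
    (le_of_eq ?_)
  field_simp
  ring

/-- Two integrations by parts for a symbol. -/
theorem norm_integral_symbol_le {a b C : ℝ} (ha : 0 < a) (hab : a ≤ b) {f f₁ f₂ P p p₁ p₂ : ℝ → ℝ}
    (hf : SymbolBound a C 1 f f₁ f₂) (hfa : f a = 0) (hfb : f b = 0) (hf₁a : f₁ a = 0)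
    (hf₁b : f₁ b = 0) (hP : ∀ u ∈ Icc a b, HasDerivAt P (p u) u)
    (hp : ∀ u ∈ Icc a b, HasDerivAt p (p₁ u) u) (hp₁ : ∀ u ∈ Icc a b, HasDerivAt p₁ (p₂ u) u)
    (hp₂ : ContinuousOn p₂ (Icc a b)) (hne : ∀ u ∈ Icc a b, p u ≠ 0)
    (h1 : ∀ u ∈ Icc a b, |p₁ u| ≤ 2 * |p u| / u)
    (h2 : ∀ u ∈ Icc a b, |p₂ u| ≤ 8 * |p u| / u ^ 2) {R : ℝ → ℝ}
    (hR : ContinuousOn R (Icc a b)) (hle : ∀ u ∈ Icc a b, 1 / (u ^ 3 * p u ^ 2) ≤ R u) :
    ‖∫ u in a..b, (f u : ℂ) * eTau (P u)‖ ≤ 27 * C * ∫ u in a..b, R u := by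
  have hC := hf.nonneg ha
  rw [← intervalIntegral.integral_const_mul]
  refine norm_integral_ibp_twice_le hab (fun u hu => hf.d₁ u hu.1) (fun u hu => hf.d₂ u hu.1)
    (hf.cont.mono fun u hu => hu.1) hfa hfb hf₁a hf₁b hP hp hp₁ hp₂
    (fun u hu => Or.inl (hne u hu)) (continuousOn_const.mul hR) fun u hu => ?_
  have hu0 : 0 < u := ha.trans_le hu.1
  refine le_trans ?_ (mul_le_mul_of_nonneg_left (hle u hu) (by positivity))
  have hp0 : 0 < |p u| := abs_pos.2 (hne u hu)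
  refine (add_le_add (add_le_add (add_le_add (div_le_div_of_nonneg_right (hf.b₂ u hu.1)
    (by positivity)) (div_le_div_of_nonneg_right (mul_le_mul (mul_le_mul_of_nonneg_left
      (hf.b₁ u hu.1) (by norm_num)) (h1 u hu) (abs_nonneg _) (by positivity)) (by positivity)))
    (div_le_div_of_nonneg_right (mul_le_mul (hf.b₀ u hu.1) (h2 u hu) (abs_nonneg _)
      (by positivity)) (by positivity)))
    (div_le_div_of_nonneg_right (mul_le_mul (mul_le_mul_of_nonneg_left (hf.b₀ u hu.1)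
      (by norm_num)) (pow_le_pow_left₀ (abs_nonneg _) (h1 u hu) 2) (by positivity)
      (by positivity)) (by positivity))).trans (le_of_eq ?_)
  rw [← sq_abs (p u)]
  field_simp
  ring

end FA.TwelfthMoment

end
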