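import Fermat.Agent.TwelfthMoment.Window
import Mathlib.Analysis.Fourier.PoissonSummation
import Mathlib.Analysis.PSeries
import Mathlib.NumberTheory.ArithmeticFunction.Misc

/-!
# The off-diagonal terms

For a difference `h` the sum over `m` is turned by Poisson's formula into integrals of the amplitude
against `e (τ log (1 + 1/u) - k h u)`. Those with `ν = -k h` outside `[1, 2τ/G²)` are negligible, and
in the others the amplitude may be replaced by one free of `h`.
-/

set_option autoImplicit false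

noncomputable section

namespace FA.TwelfthMoment

open MeasureTheory Filter Set
open FA.Subconvexity (expI expI_add conj_expI norm_expI phase)
open scoped Real Topology ComplexConjugate FourierTransform

theorem SymbolBound.sub {a C D : ℝ} {k : ℕ} {f f₁ f₂ g g₁ g₂ : ℝ → ℝ}
    (h : SymbolBound a C k f f₁ f₂) (h' : SymbolBound a D k g g₁ g₂) :
    SymbolBound a (C + D) k (fun u => f u - g u) (fun u => f₁ u - g₁ u) fun u => f₂ u - g₂ u :=
  ⟨fun u hu => (h.d₁ u hu).sub (h'.d₁ u hu), fun u hu => (h.d₂ u hu).sub (h'.d₂ u hu),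
    h.cont.sub h'.cont,
    fun u hu => (abs_sub _ _).trans ((add_le_add (h.b₀ u hu) (h'.b₀ u hu)).trans_eq (by ring)),
    fun u hu => (abs_sub _ _).trans ((add_le_add (h.b₁ u hu) (h'.b₁ u hu)).trans_eq (by ring)),
    fun u hu => (abs_sub _ _).trans ((add_le_add (h.b₂ u hu) (h'.b₂ u hu)).trans_eq (by ring))⟩

/-- The derivative vanishes at the end of an interval of zeros. -/
theorem deriv_zero_of_zero_left {f : ℝ → ℝ} {a y : ℝ} (h : HasDerivAt f y a)
    (hz : ∀ᶠ u in 𝓝[≤] a, f u = 0) : y = 0 :=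
  (uniqueDiffWithinAt_Iic a).eq_deriv _ h.hasDerivWithinAt
    ((hasDerivWithinAt_const a (Iic a) (0 : ℝ)).congr_of_eventuallyEq hz
      (hz.self_of_nhdsWithin self_mem_Iic))

/-- The derivative vanishes at the start of an interval of zeros. -/
theorem deriv_zero_of_zero_right {f : ℝ → ℝ} {a y : ℝ} (h : HasDerivAt f y a)
    (hz : ∀ u, a ≤ u → f u = 0) : y = 0 :=
  (uniqueDiffWithinAt_Ici a).eq_deriv _ h.hasDerivWithinAt
    ((hasDerivWithinAt_const a (Ici a) (0 : ℝ)).congr_of_mem hz self_mem_Ici)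

/-- **Away from a stationary point.** -/
theorem norm_far_le {a b C τ ν : ℝ} {f f₁ f₂ : ℝ → ℝ} (ha : 1 ≤ a) (hab : a ≤ b) (hτ : 0 ≤ τ)
    (hν : ν ≠ 0) (hf : SymbolBound 1 C 1 f f₁ f₂) (hzl : ∀ u, 0 < u → u ≤ a → f u = 0)
    (hzr : ∀ u, b ≤ u → f u = 0) (hfar : ∀ u ∈ Icc a b,
      |ν| / 2 ≤ |phaseD τ ν u| ∧ τ / (u * (u + 1)) ≤ |phaseD τ ν u|) :
    ‖∫ u in a..b, (f u : ℂ) * eTau (phaseFn τ ν u)‖ ≤ 54 * C / (a ^ 2 * ν ^ 2) := by
  have ha0 : 0 < a := by linarith
  have hν' : 0 < |ν| := abs_pos.2 hν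
  have hpos : ∀ u ∈ Icc a b, 0 < u := fun u hu => by linarith [hu.1]
  have h1a : f₁ a = 0 := deriv_zero_of_zero_left (hf.d₁ a ha) (by
    filter_upwards [Ioc_mem_nhdsLE ha0] with u hu
    exact hzl u hu.1 hu.2)
  have h1b : f₁ b = 0 := deriv_zero_of_zero_right (hf.d₁ b (ha.trans hab)) hzr
  have hic : ContinuousOn (fun u : ℝ => 1 / u ^ 3) (Icc a b) :=
    continuousOn_const.div (by fun_prop) fun u hu => pow_ne_zero 3 (hpos u hu).ne'
  refine (norm_integral_symbol_le ha0 hab (hf.restrict ha) (hzl a ha0 le_rfl) (hzr b le_rfl) h1a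
    h1b (fun u hu => hasDerivAt_phaseFn τ ν (hpos u hu))
    (fun u hu => hasDerivAt_phaseD τ ν (hpos u hu))
    (fun u hu => hasDerivAt_phaseDD τ (hpos u hu))
    ((continuousOn_phaseDDD τ).mono fun u hu => hpos u hu) (fun u hu h => ?_) (fun u hu => ?_)
    (fun u hu => ?_) (R := fun u => 4 / ν ^ 2 * (1 / u ^ 3)) (continuousOn_const.mul hic)
    fun u hu => ?_).trans ?_
  · have := (hfar u hu).1
    rw [h, abs_zero] at this
    linarith
  · refine (abs_phaseDD_le hτ (hpos u hu)).trans ?_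
    exact div_le_div_of_nonneg_right (by linarith [(hfar u hu).2]) (hpos u hu).le
  · refine (abs_phaseDDD_le hτ (hpos u hu)).trans ?_
    exact div_le_div_of_nonneg_right (by linarith [(hfar u hu).2]) (sq_nonneg u)
  · have hu0 := hpos u hu
    have hp : ν ^ 2 / 4 ≤ phaseD τ ν u ^ 2 := by
      have := pow_le_pow_left₀ (by positivity) (hfar u hu).1 2
      rw [div_pow, sq_abs, sq_abs] at this
      linarith
    have hν2 : 0 < ν ^ 2 := by positivity
    refine (div_le_div_of_nonneg_left zero_le_one (by positivity)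
      (mul_le_mul_of_nonneg_left hp (pow_nonneg hu0.le 3))).trans (le_of_eq ?_)
    field_simp
  · have hC : 0 ≤ C := hf.nonneg one_pos
    have hne : ∀ u ∈ uIcc a b, u ≠ 0 := fun u hu => by
      rw [uIcc_of_le hab] at hu; exact (hpos u hu).ne'
    rw [intervalIntegral.integral_const_mul,
      intervalIntegral.integral_eq_sub_of_hasDerivAt (f := fun u : ℝ => -((u ^ 2)⁻¹) / 2)
        (f' := fun u => 1 / u ^ 3) (fun u hu => ?_) ((uIcc_of_le hab).symm ▸ hic).intervalIntegrable]
    · have : (0 : ℝ) ≤ (b ^ 2)⁻¹ := by positivity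
      calc 27 * C * (4 / ν ^ 2 * (-(b ^ 2)⁻¹ / 2 - -(a ^ 2)⁻¹ / 2)) ≤
            27 * C * (4 / ν ^ 2 * ((a ^ 2)⁻¹ / 2)) := by gcongr; linarith
        _ = _ := by field_simp; ring
    · have := hne u hu
      refine ((((hasDerivAt_id' u).pow 2).inv (pow_ne_zero 2 this)).neg.div_const 2).congr_deriv ?_
      simp only [Pi.pow_apply]
      push_cast
      field_simp

/-- The amplitude vanishes right of `64 M`. -/
theorem amp_zero_right {η : ℝ → ℝ} {G α β : ℝ} {M : ℕ} (h : 1 / 32 ≤ α * M) {u : ℝ}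
    (hu : 64 * (M : ℝ) ≤ u) (hα : 0 ≤ α) : amp η G α β u = 0 :=
  amp_eq_zero_right (by nlinarith [mul_le_mul_of_nonneg_left hu hα])

/-- The integral with frequency `ν` for the difference `h`. -/
def shiftInt (M : ℕ) (G τ : ℝ) (h : ℕ) (ν : ℝ) : ℂ :=
  ∫ u in G..64 * (M : ℝ), (amp etaFn G ((h : ℝ) / M) ((h : ℝ) / M) u : ℂ) * eTau (phaseFn τ ν u)

/-- The integral with the amplitude free of `h`. -/
def dualInt (M : ℕ) (G τ n : ℝ) : ℂ :=
  ∫ u in G..64 * (M : ℝ), (amp etaFn G (1 / (4 * √τ)) 0 u : ℂ) * eTau (phaseFn τ n u)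

/-- The standing hypotheses on `M`, `G`, `τ`. -/
structure Range (M : ℕ) (G τ : ℝ) : Prop where
  G10 : 10 ≤ G
  Gsq : G ^ 2 ≤ τ
  τM : τ ≤ M
  Mτ : (M : ℝ) ≤ 64 * τ

namespace Range

variable {M : ℕ} {G τ : ℝ}

theorem tau_pos (hr : Range M G τ) : 100 ≤ τ := by nlinarith [hr.G10, hr.Gsq]

theorem M_pos (hr : Range M G τ) : (100 : ℝ) ≤ M := hr.tau_pos.trans hr.τM

theorem GM (hr : Range M G τ) : G ≤ 64 * (M : ℝ) := by
  nlinarith [hr.G10, hr.Gsq, hr.τM]

theorem dual_alpha (hr : Range M G τ) : 1 / 32 ≤ 1 / (4 * √τ) * M := by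
  have hτ := hr.tau_pos
  have hs : 0 < √τ := Real.sqrt_pos.2 (by linarith)
  rw [div_mul_eq_mul_div, one_mul, le_div_iff₀ (by linarith)]
  nlinarith [Real.sq_sqrt (show 0 ≤ τ by linarith), hr.τM]

end Range

theorem exists_shiftInt_bounds : ∃ C, 0 ≤ C ∧ ∀ (M : ℕ) (G τ : ℝ) (h : ℕ), Range M G τ → 1 ≤ h →
    (∀ ν : ℝ, ν < 0 ∨ 2 * τ / G ^ 2 ≤ ν → ‖shiftInt M G τ h ν‖ ≤ C / (G * ν) ^ 2) ∧
    ‖shiftInt M G τ h 0‖ ≤ C / (h : ℝ) ^ 2 ∧
    ∀ n : ℝ, (h : ℝ) ≤ n → n < 2 * τ / G ^ 2 →
      ‖shiftInt M G τ h n - dualInt M G τ n‖ ≤ C / (G * n) ^ 2 := by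
  obtain ⟨C, hC, hamp⟩ := exists_symbol_amp isTest_etaFn
  refine ⟨54 * C * 131072 + 54 * (2 * C), by positivity, fun M G τ h hr hh => ?_⟩
  have hG := hr.G10
  have hG0 : 0 < G := by linarith
  have hτ : 0 < τ := by linarith [hr.tau_pos]
  have hM : (0 : ℝ) < M := by linarith [hr.M_pos]
  have hh1 : (1 : ℝ) ≤ h := Nat.one_le_cast.2 hh
  obtain ⟨α, hα⟩ : ∃ α, α = (h : ℝ) / M := ⟨_, rfl⟩
  have hα0 : 0 < α := hα ▸ by positivity
  have hαM : α * M = h := by rw [hα, div_mul_cancel₀ _ hM.ne']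
  obtain ⟨f₁, f₂, hf⟩ := hamp G α α (by linarith) hα0.le hα0.le
  have hzl : ∀ u, 0 < u → u ≤ G → amp etaFn G α α u = 0 := fun u hu hu' =>
    amp_eq_zero_left isTest_etaFn (by linarith) hu (by linarith)
  have hzr : ∀ u, 64 * (M : ℝ) ≤ u → amp etaFn G α α u = 0 := fun u hu =>
    amp_zero_right (by linarith [hαM]) hu hα0.le
  refine ⟨fun ν hν => ?_, ?_, fun n hhn hn => ?_⟩
  · have hν0 : ν ≠ 0 := by
      rintro rfl
      rcases hν with h | h
      · exact lt_irrefl _ h
      · linarith [show 0 < 2 * τ / G ^ 2 by positivity]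
    rw [shiftInt, ← hα]
    refine (norm_far_le (by linarith) hr.GM hτ.le hν0 hf hzl hzr fun u hu => ?_).trans ?_
    · have hu0 : 0 < u := by linarith [hu.1]
      obtain ⟨q, hq⟩ : ∃ q, q = τ / (u * (u + 1)) := ⟨_, rfl⟩
      have hq0 : 0 ≤ q := hq ▸ by positivity
      have hqG : q ≤ τ / G ^ 2 :=
        hq ▸ div_le_div_of_nonneg_left hτ.le (by positivity) (by nlinarith [hu.1])
      rw [phaseD, ← hq]
      rcases hν with h' | h'
      · rw [abs_of_neg h', abs_of_neg (by linarith)]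
        constructor <;> linarith
      · rw [show 2 * τ / G ^ 2 = 2 * (τ / G ^ 2) by ring] at h'
        rw [abs_of_nonneg (by linarith : 0 ≤ ν), abs_of_nonneg (by linarith : 0 ≤ ν - q)]
        constructor <;> linarith
    · rw [mul_pow]
      exact div_le_div_of_nonneg_right (by linarith) (by positivity)
  · rw [shiftInt, ← hα]
    rcases le_or_gt (4 * (M : ℝ) / h) G with hb | hb
    · rw [intervalIntegral.integral_congr (g := fun _ => (0 : ℂ)) fun u hu => ?_,
        intervalIntegral.integral_zero, norm_zero]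
      · positivity
      rw [uIcc_of_le hr.GM] at hu
      rw [amp_eq_zero_right (by
        rw [div_le_iff₀ (by linarith)] at hb
        nlinarith [mul_le_mul_of_nonneg_left hu.1 hα0.le])]
      simp
    have hzr' : ∀ u, 4 * (M : ℝ) / h ≤ u → amp etaFn G α α u = 0 := fun u hu =>
      amp_eq_zero_right (by
        rw [div_le_iff₀ (by linarith)] at hu
        nlinarith)
    obtain ⟨b, hb'⟩ : ∃ b, b = 4 * (M : ℝ) / h := ⟨_, rfl⟩
    rw [← hb'] at hb hzr'
    have hpos : ∀ u ∈ Icc G b, 0 < u := fun u hu => by linarith [hu.1]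
    have hbM : b ≤ 64 * (M : ℝ) := by rw [hb', div_le_iff₀ (by linarith)]; nlinarith
    have he : ∫ u in G..64 * (M : ℝ), (amp etaFn G α α u : ℂ) * eTau (phaseFn τ 0 u) =
        ∫ u in G..b, (amp etaFn G α α u : ℂ) * eTau (phaseFn τ 0 u) := by
      have hi : ∀ x y : ℝ, G ≤ x → x ≤ y → IntervalIntegrable
          (fun u => (amp etaFn G α α u : ℂ) * eTau (phaseFn τ 0 u)) volume x y := fun x y hx hxy => by
        refine ContinuousOn.intervalIntegrable_of_Icc hxy ((Complex.continuous_ofReal.comp_continuousOn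
          (hf.contOn.mono fun u hu => ?_)).mul (continuous_eTau.comp_continuousOn fun u hu => ?_))
        · exact Set.mem_Ici.2 (by linarith [hu.1])
        · exact (hasDerivAt_phaseFn τ 0 (by linarith [hu.1])).continuousAt.continuousWithinAt
      rw [← intervalIntegral.integral_add_adjacent_intervals (hi G b le_rfl hb.le)
        (hi b _ hb.le hbM), intervalIntegral.integral_congr (a := b) (b := 64 * (M : ℝ))
        (g := fun _ => (0 : ℂ)) fun u hu => ?_, intervalIntegral.integral_zero, add_zero]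
      rw [uIcc_of_le hbM] at hu
      simp [hzr' u hu.1]
    rw [he]
    have h1a : f₁ G = 0 := deriv_zero_of_zero_left (hf.d₁ G (by linarith)) (by
      filter_upwards [Ioc_mem_nhdsLE hG0] with u hu
      exact hzl u hu.1 hu.2)
    have h1b : f₁ b = 0 := deriv_zero_of_zero_right (hf.d₁ b (by linarith)) hzr'
    have hp : ∀ u ∈ Icc G b, |phaseD τ 0 u| = τ / (u * (u + 1)) := fun u hu => by
      have := hpos u hu
      rw [phaseD, zero_sub, abs_neg, abs_of_pos (by positivity)]
    refine (norm_integral_symbol_le hG0 hb.le (hf.restrict (by linarith)) (hzl G hG0 le_rfl)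
      (hzr' b le_rfl) h1a h1b (fun u hu => hasDerivAt_phaseFn τ 0 (hpos u hu))
      (fun u hu => hasDerivAt_phaseD τ 0 (hpos u hu))
      (fun u hu => hasDerivAt_phaseDD τ (hpos u hu))
      ((continuousOn_phaseDDD τ).mono fun u hu => hpos u hu) (fun u hu h' => ?_) (fun u hu => ?_)
      (fun u hu => ?_) (R := fun _ => 4 * b / τ ^ 2) continuousOn_const fun u hu => ?_).trans ?_
    · have := hp u hu
      rw [h', abs_zero] at this
      have := hpos u hu
      have : 0 < τ / (u * (u + 1)) := by positivity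
      linarith
    · rw [hp u hu]; exact abs_phaseDD_le hτ.le (hpos u hu)
    · rw [hp u hu]; exact abs_phaseDDD_le hτ.le (hpos u hu)
    · have hu0 := hpos u hu
      rw [← sq_abs (phaseD τ 0 u), hp u hu]
      calc 1 / (u ^ 3 * (τ / (u * (u + 1))) ^ 2) = (u + 1) ^ 2 / (u * τ ^ 2) := by field_simp
        _ ≤ (2 * u) ^ 2 / (u * τ ^ 2) := by gcongr; linarith [hu.1]
        _ = 4 * u / τ ^ 2 := by field_simp; ring
        _ ≤ _ := by gcongr; exact hu.2
    · rw [intervalIntegral.integral_const, smul_eq_mul]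
      have h4 : (M : ℝ) / τ ≤ 64 := by rw [div_le_iff₀ hτ]; exact hr.Mτ
      calc 27 * C * ((b - G) * (4 * b / τ ^ 2)) ≤ 27 * C * (b * (4 * b / τ ^ 2)) := by
            gcongr
            · have : 0 ≤ b := by linarith
              positivity
            · linarith
        _ = 1728 * C * ((M : ℝ) / τ) ^ 2 / (h : ℝ) ^ 2 := by rw [hb']; field_simp; ring
        _ ≤ 1728 * C * (64 : ℝ) ^ 2 / (h : ℝ) ^ 2 := by gcongr
        _ ≤ _ := div_le_div_of_nonneg_right (by linarith) (by positivity)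
  · have hn0 : 0 < n := by linarith
    have hn2 : n * G ^ 2 < 2 * τ := by rwa [lt_div_iff₀ (by positivity)] at hn
    obtain ⟨g₁, g₂, hg⟩ := hamp G (1 / (4 * √τ)) 0 (by linarith) (by positivity) le_rfl
    obtain ⟨r, hr'⟩ : ∃ r, r = √(τ / n) := ⟨_, rfl⟩
    have hr0 : 0 < r := hr' ▸ Real.sqrt_pos.2 (by positivity)
    have hrsq : r ^ 2 * n = τ := by
      rw [hr', Real.sq_sqrt (by positivity), div_mul_cancel₀ _ hn0.ne']
    obtain ⟨a, ha⟩ : ∃ a, a = max G (2 * r) := ⟨_, rfl⟩
    have haG : G ≤ a := ha ▸ le_max_left _ _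
    have hsτ : √τ ^ 2 = τ := Real.sq_sqrt hτ.le
    have hs0 : 0 < √τ := Real.sqrt_pos.2 hτ
    have hrs : r ≤ √τ := by
      rw [hr']
      exact Real.sqrt_le_sqrt (div_le_self hτ.le (by linarith))
    have hrn : 4 * (n * r) ≤ M := by
      have h1 : (n * r) ^ 2 * G ^ 2 ≤ 2 * τ ^ 2 := by
        nlinarith [mul_le_mul_of_nonneg_right hn2.le hτ.le]
      have h2 : (4 * (n * r)) ^ 2 ≤ τ ^ 2 := by
        have : (n * r) ^ 2 * 100 ≤ (n * r) ^ 2 * G ^ 2 :=
          mul_le_mul_of_nonneg_left (by nlinarith) (sq_nonneg _)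
        nlinarith
      linarith [(pow_le_pow_iff_left₀ (by positivity) hτ.le two_ne_zero).1 h2, hr.τM]
    have haM : a ≤ 64 * (M : ℝ) := by
      rw [ha, max_le_iff]
      refine ⟨hr.GM, ?_⟩
      nlinarith [hr.τM]
    have hdl : ∀ u, 0 < u → u ≤ a →
        amp etaFn G α α u - amp etaFn G (1 / (4 * √τ)) 0 u = 0 := fun u hu hua => by
      rcases le_or_gt u G with hu' | hu'
      · rw [amp_eq_zero_left isTest_etaFn (by linarith) hu (by linarith),
          amp_eq_zero_left isTest_etaFn (by linarith) hu (by linarith), sub_zero]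
      · have hur : u ≤ 2 * r := by
          rw [ha, le_max_iff] at hua
          rcases hua with h' | h'
          · linarith
          · exact h'
        have e2 : α * u + α ≤ 1 := by
          rw [hα, div_mul_eq_mul_div, ← add_div, div_le_one hM]
          have : (h : ℝ) * u ≤ n * (2 * r) := mul_le_mul hhn hur hu.le hn0.le
          have : n ≤ τ / 50 := by
            nlinarith [mul_le_mul_of_nonneg_left (show (100 : ℝ) ≤ G ^ 2 by nlinarith) hn0.le]
          linarith [hr.τM]
        have e1 : α * u ≤ 1 := by linarith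
        have e3 : 1 / (4 * √τ) * u ≤ 1 := by
          rw [div_mul_eq_mul_div, one_mul, div_le_one (by positivity)]
          linarith
        have hp0 : 0 ≤ α * u := by positivity
        have hp3 : 0 ≤ 1 / (4 * √τ) * u := by positivity
        simp only [amp, add_zero]
        rw [cutW_eq_one (abs_le.2 ⟨by linarith, e1⟩),
          cutW_eq_one (abs_le.2 ⟨by linarith, e2⟩),
          cutW_eq_one (abs_le.2 ⟨by linarith, e3⟩), sub_self]
    have hdr : ∀ u, 64 * (M : ℝ) ≤ u →
        amp etaFn G α α u - amp etaFn G (1 / (4 * √τ)) 0 u = 0 := fun u hu => by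
      rw [hzr u hu, amp_zero_right hr.dual_alpha hu (by positivity), sub_zero]
    have hi : ∀ {F F₁ F₂ : ℝ → ℝ} {D : ℝ}, SymbolBound 1 D 1 F F₁ F₂ → ∀ x y : ℝ, G ≤ x → x ≤ y →
        IntervalIntegrable (fun u => (F u : ℂ) * eTau (phaseFn τ n u)) volume x y := by
      intro F F₁ F₂ D hF x y hx hxy
      refine ContinuousOn.intervalIntegrable_of_Icc hxy ((Complex.continuous_ofReal.comp_continuousOn
        (hF.contOn.mono fun u hu => ?_)).mul (continuous_eTau.comp_continuousOn fun u hu => ?_))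
      · exact Set.mem_Ici.2 (by linarith [hu.1])
      · exact (hasDerivAt_phaseFn τ n (by linarith [hu.1])).continuousAt.continuousWithinAt
    rw [shiftInt, dualInt, ← hα, ← intervalIntegral.integral_sub (hi hf _ _ le_rfl hr.GM)
      (hi hg _ _ le_rfl hr.GM)]
    simp only [← sub_mul, ← Complex.ofReal_sub]
    rw [← intervalIntegral.integral_add_adjacent_intervals (hi (hf.sub hg) G a le_rfl haG)
      (hi (hf.sub hg) a _ haG haM),
      intervalIntegral.integral_congr (a := G) (b := a) (g := fun _ => (0 : ℂ)) fun u hu => ?_,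
      intervalIntegral.integral_zero, zero_add]
    · refine (norm_far_le (by linarith) haM hτ.le hn0.ne' (hf.sub hg) hdl hdr fun u hu => ?_).trans
        ?_
      · have hu2 : 2 * r ≤ u := (ha ▸ le_max_right G (2 * r) : 2 * r ≤ a).trans hu.1
        have hu0 : 0 < u := by linarith
        have hq : τ / (u * (u + 1)) ≤ n / 4 := by
          rw [div_le_iff₀ (by positivity)]
          have := mul_le_mul_of_nonneg_left (pow_le_pow_left₀ (by positivity) hu2 2) hn0.le
          nlinarith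
        rw [phaseD, abs_of_pos hn0, abs_of_nonneg (by linarith)]
        constructor <;> linarith
      · rw [mul_pow]
        refine div_le_div₀ (by positivity) (by linarith) (by positivity) ?_
        gcongr
    · rw [uIcc_of_le haG] at hu
      rw [hdl u (by linarith [hu.1]) hu.2]
      simp

/-- One difference, as a function on the line. -/
def shiftFn (M : ℕ) (G τ : ℝ) (h : ℕ) (u : ℝ) : ℂ :=
  if G < u then (amp etaFn G ((h : ℝ) / M) ((h : ℝ) / M) u : ℂ) * eTau (τ * logStep u) else 0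

/-- The terms with `n = m + h`. -/
theorem tsum_shift_eq {M : ℕ} {G τ : ℝ} {h : ℕ} (hr : Range M G τ) (hh : 1 ≤ h)
    (hs : Summable fun k : ℤ => shiftInt M G τ h (-((k : ℝ) * h))) :
    ∑ m ∈ Finset.Icc 1 (2 * M), ((cutW ((m : ℝ) / M) / √(m : ℝ) *
        (cutW (((m + h : ℕ) : ℝ) / M) / √((m + h : ℕ) : ℝ)) *
          etaFn (G * (Real.log (m + h : ℕ) - Real.log m)) : ℝ) : ℂ) *
        expI (2 * π * τ * (Real.log (m + h : ℕ) - Real.log m)) =
      ∑' k : ℤ, shiftInt M G τ h (-((k : ℝ) * h)) := by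
  have hG0 : 0 < G := by linarith [hr.G10]
  have hM : (0 : ℝ) < M := by linarith [hr.M_pos]
  have hh0 : (0 : ℝ) < h := Nat.cast_pos.2 hh
  obtain ⟨α, hα⟩ : ∃ α, α = (h : ℝ) / M := ⟨_, rfl⟩
  have hα0 : 0 ≤ α := hα ▸ by positivity
  obtain ⟨f₁, f₂, hf⟩ : ∃ f₁ f₂, ∃ C, SymbolBound 1 C 1 (amp etaFn G α α) f₁ f₂ := by
    obtain ⟨C, -, hamp⟩ := exists_symbol_amp isTest_etaFn
    obtain ⟨f₁, f₂, hf⟩ := hamp G α α (by linarith [hr.G10]) hα0 hα0
    exact ⟨f₁, f₂, C, hf⟩
  obtain ⟨C, hf⟩ := hf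
  obtain ⟨g, hg⟩ : ∃ g, g = shiftFn M G τ h := ⟨_, rfl⟩
  have hzero : ∀ u, u < 2 * G ∨ 2 * (M : ℝ) / h ≤ u → g u = 0 := fun u hu => by
    rw [hg, shiftFn]
    split_ifs with hlt
    · rw [← hα]
      rcases hu with h' | h'
      · rw [amp_eq_zero_left isTest_etaFn (by linarith [hr.G10]) (by linarith) h'.le]; simp
      · rw [amp_eq_zero_right (by
          rw [div_le_iff₀ hh0] at h'
          rw [hα, div_mul_eq_mul_div, le_div_iff₀ hM]; linarith)]
        simp
    · rfl
  have hgc : Continuous g := continuous_iff_continuousAt.2 fun u => by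
    rcases lt_or_ge u (2 * G) with h' | h'
    · exact ContinuousAt.congr continuousAt_const (by
        filter_upwards [Iio_mem_nhds h'] with v hv using (hzero v (Or.inl hv)).symm)
    · refine ContinuousAt.congr (f := fun v => (amp etaFn G α α v : ℂ) * eTau (τ * logStep v))
        ((Complex.continuous_ofReal.continuousAt.comp
          (hf.d₁ u (by linarith [hr.G10])).continuousAt).mul (continuous_eTau.continuousAt.comp
          ((hasDerivAt_logStep (by linarith)).const_mul τ).continuousAt)) ?_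
      filter_upwards [Ioi_mem_nhds (show G < u by linarith)] with v hv
      rw [hg, shiftFn, if_pos (Set.mem_Ioi.1 hv), hα]
  obtain ⟨F, hF⟩ : ∃ F : ℝ → ℂ, F = fun x => g (x / h) := ⟨_, rfl⟩
  have hFz : ∀ x, x ∉ Icc (0 : ℝ) (2 * M) → F x = 0 := fun x hx => by
    simp only [hF]
    refine hzero _ ?_
    rcases not_and_or.1 hx with h' | h'
    · left
      have := div_neg_of_neg_of_pos (not_le.1 h') hh0
      linarith
    · exact Or.inr (div_le_div_of_nonneg_right (not_le.1 h').le hh0.le)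
  have hFf : ∀ k : ℤ, 𝓕 F k = (h : ℂ) * shiftInt M G τ h (-((k : ℝ) * h)) := fun k => by
    rw [Real.fourier_real_eq_integral_exp_smul]
    obtain ⟨H, hH⟩ : ∃ H : ℝ → ℂ, H = fun u => eTau (-((k : ℝ) * h) * u) * g u := ⟨_, rfl⟩
    have e : ∀ x, Complex.exp (↑(-2 * π * x * k) * Complex.I) • F x = H (x / h) := fun x => by
      simp only [hH, hF, smul_eq_mul, eTau, expI]
      congr 3
      field_simp
    simp only [e]
    rw [Measure.integral_comp_div H (h : ℝ), abs_of_pos hh0, Complex.real_smul]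
    push_cast
    congr 1
    rw [← intervalIntegral.integral_eq_integral_of_support_subset (a := G) (b := 64 * (M : ℝ))
      (fun u hu => ?_), shiftInt]
    · refine intervalIntegral.integral_congr_ae (Eventually.of_forall fun u hu => ?_)
      rw [uIoc_of_le hr.GM] at hu
      simp only [hH, hg, shiftFn, if_pos hu.1]
      rw [mul_left_comm, ← eTau_add, phaseFn]
      ring_nf
    · simp only [hH, Function.mem_support, ne_eq, mul_eq_zero, not_or] at hu
      have h1 : ¬(u < 2 * G ∨ 2 * (M : ℝ) / h ≤ u) := fun h' => hu.2 (hzero u h')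
      rw [not_or, not_lt, not_le] at h1
      refine ⟨by linarith, h1.2.le.trans ?_⟩
      rw [div_le_iff₀ hh0]
      nlinarith [Nat.one_le_cast (α := ℝ).2 hh]
  have hO : F =O[cocompact ℝ] fun x : ℝ => |x| ^ (-2 : ℝ) := by
    refine (Asymptotics.isBigO_zero _ _).congr' ?_ EventuallyEq.rfl
    filter_upwards [(isCompact_Icc (a := (0 : ℝ)) (b := 2 * M)).compl_mem_cocompact] with x hx
      using (hFz x hx).symm
  have hP := Real.tsum_eq_tsum_fourier_of_rpow_decay_of_summable
    (hF ▸ hgc.comp (continuous_id.div_const _) : Continuous F) one_lt_two hO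
    (by simp only [hFf]; exact hs.mul_left _) 0
  simp only [zero_add, QuotientAddGroup.mk_zero, fourier_eval_zero, mul_one, hFf] at hP
  rw [tsum_mul_left, tsum_eq_sum (s := (Finset.Icc 1 (2 * M)).map Nat.castEmbedding)
    (fun n hn => ?_), Finset.sum_map] at hP
  · rw [← mul_right_inj' (Nat.cast_ne_zero.2 (by omega) : (h : ℂ) ≠ 0), ← hP, Finset.mul_sum]
    refine Finset.sum_congr rfl fun m hm => ?_
    have hm0 : (0 : ℝ) < m := Nat.cast_pos.2 (Finset.mem_Icc.1 hm).1
    simp only [hF, Nat.castEmbedding_apply, Int.cast_natCast, hg, shiftFn]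
    have e1 : logStep ((m : ℝ) / h) = Real.log (m + h : ℕ) - Real.log m := by
      rw [logStep, ← Real.log_div (by positivity) hm0.ne']
      congr 1
      push_cast
      field_simp
    have e2 : (amp etaFn G ((h : ℝ) / M) ((h : ℝ) / M) ((m : ℝ) / h) : ℝ) =
        h * (cutW ((m : ℝ) / M) / √(m : ℝ) * (cutW (((m + h : ℕ) : ℝ) / M) / √((m + h : ℕ) : ℝ)) *
          etaFn (G * (Real.log (m + h : ℕ) - Real.log m))) := by
      rw [amp, e1, show (h : ℝ) / M * (m / h) + 0 = m / M by field_simp; ring,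
        show (h : ℝ) / M * (m / h) + h / M = ((m + h : ℕ) : ℝ) / M by push_cast; field_simp,
        show (m : ℝ) / h * (m / h + 1) = (m * ((m + h : ℕ) : ℝ)) / (h : ℝ) ^ 2 by
          push_cast; field_simp,
        Real.sqrt_div (by positivity), Real.sqrt_sq hh0.le, Real.sqrt_mul hm0.le]
      field_simp
    split_ifs with hlt
    · rw [e2, eTau, e1]
      push_cast
      ring_nf
    · have : amp etaFn G ((h : ℝ) / M) ((h : ℝ) / M) ((m : ℝ) / h) = 0 :=
        amp_eq_zero_left isTest_etaFn (by linarith [hr.G10]) (by positivity) (by linarith)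
      rw [e2, mul_eq_zero] at this
      rcases this with h' | h'
      · exact absurd h' hh0.ne'
      · rw [h']; simp
  · rcases eq_or_ne (F n) 0 with h' | h'
    · exact h'
    · exfalso
      have hn' : ((n : ℤ) : ℝ) ∈ Icc (0 : ℝ) (2 * M) := by_contra fun hx => h' (hFz _ hx)
      refine hn (Finset.mem_map.2 ⟨n.toNat, ?_, ?_⟩)
      · obtain ⟨h0, h2⟩ := hn'
        have h1 : n ≠ 0 := fun e => h' (by
          simp only [hF, e, Int.cast_zero, zero_div]
          exact hzero 0 (Or.inl (by linarith)))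
        have h0' : 0 ≤ n := by exact_mod_cast h0
        have h2' : n ≤ 2 * (M : ℤ) := by exact_mod_cast h2
        rw [Finset.mem_Icc]
        omega
      · have h0' : 0 ≤ n := by exact_mod_cast hn'.1
        simp [Int.toNat_of_nonneg h0']

/-- **The window against the dual sum.** -/
theorem exists_window_le : ∃ C, 0 ≤ C ∧ ∀ (M : ℕ) (G c : ℝ), Range M G (c / (2 * π)) →
    ∫ t, ‖dirPoly M t‖ ^ 2 * phiFn ((t - c) / (2 * π * G)) ≤ C * G * (1 + Real.log (2 * M) +
      ‖∑ n ∈ Finset.Ico 1 ⌈2 * (c / (2 * π)) / G ^ 2⌉₊,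
        (n.divisors.card : ℂ) * dualInt M G (c / (2 * π)) n‖) := by
  obtain ⟨K, hK, hbd⟩ := exists_shiftInt_bounds
  obtain ⟨Z, hZdef⟩ : ∃ Z, Z = ∑' k : ℤ, (1 : ℝ) / (k : ℝ) ^ 2 := ⟨_, rfl⟩
  have hZs : Summable fun k : ℤ => (1 : ℝ) / (k : ℝ) ^ 2 :=
    Real.summable_one_div_int_pow.2 one_lt_two
  have hZ : 0 ≤ Z := hZdef ▸ tsum_nonneg fun k => by positivity
  obtain ⟨E, hE⟩ : ∃ E, E = |etaFn 0| := ⟨_, rfl⟩
  refine ⟨2 * π * (2 * E + 2 + 4 * (K * (1 + Z))), by rw [hE]; positivity, fun M G c hr => ?_⟩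
  obtain ⟨τ, hτ⟩ : ∃ τ, τ = c / (2 * π) := ⟨_, rfl⟩
  rw [← hτ] at hr ⊢
  have hc : c = 2 * π * τ := by rw [hτ]; field_simp
  have hG0 : 0 < G := by linarith [hr.G10]
  obtain ⟨N, hN⟩ : ∃ N, N = ⌈2 * τ / G ^ 2⌉₊ := ⟨_, rfl⟩
  rw [← hN]
  have hNM : N ≤ 2 * M := by
    rw [hN, Nat.ceil_le]
    push_cast
    rw [div_le_iff₀ (by positivity)]
    nlinarith [hr.τM, hr.tau_pos,
      mul_le_mul_of_nonneg_left (show (1 : ℝ) ≤ G ^ 2 by nlinarith [hr.G10]) (Nat.cast_nonneg (α := ℝ) M)]
  obtain ⟨J, hJ⟩ : ∃ J : ℕ → ℂ, J = fun n : ℕ => dualInt M G τ n := ⟨_, rfl⟩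
  -- one difference
  obtain ⟨ind, hind⟩ : ∃ ind : ℕ → ℤ → ℂ,
      ind = fun h k => if k < 0 ∧ (-k).toNat * h < N then J ((-k).toNat * h) else 0 := ⟨_, rfl⟩
  have hshift : ∀ h : ℕ, 1 ≤ h → Summable (fun k : ℤ => shiftInt M G τ h (-((k : ℝ) * h))) ∧
      ‖(∑' k : ℤ, shiftInt M G τ h (-((k : ℝ) * h))) -
        ∑ j ∈ Finset.Ico 1 N, if j * h < N then J (j * h) else 0‖ ≤ K * (1 + Z) / (h : ℝ) ^ 2 := by
    intro h hh
    obtain ⟨b1, b2, b3⟩ := hbd M G τ h hr hh
    have hh0 : (0 : ℝ) < h := Nat.cast_pos.2 hh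
    have hle : ∀ k : ℤ, ‖shiftInt M G τ h (-((k : ℝ) * h)) - ind h k‖ ≤
        (if k = 0 then K / (h : ℝ) ^ 2 else 0) + K / (h : ℝ) ^ 2 * (1 / (k : ℝ) ^ 2) := by
      intro k
      rcases eq_or_ne k 0 with rfl | hk
      · rw [if_pos rfl]
        simp only [hind]
        rw [if_neg (by simp), sub_zero, Int.cast_zero, zero_mul, neg_zero]
        exact b2.trans (le_add_of_nonneg_right (by positivity))
      rw [if_neg hk, zero_add]
      have hk' : (k : ℝ) ≠ 0 := Int.cast_ne_zero.2 hk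
      have hfin : K / (G * -((k : ℝ) * h)) ^ 2 ≤ K / (h : ℝ) ^ 2 * (1 / (k : ℝ) ^ 2) := by
        rw [div_mul_div_comm, mul_one]
        refine div_le_div_of_nonneg_left hK (by positivity) ?_
        calc (h : ℝ) ^ 2 * (k : ℝ) ^ 2 = 1 * ((k : ℝ) * h) ^ 2 := by ring
          _ ≤ G ^ 2 * ((k : ℝ) * h) ^ 2 :=
              mul_le_mul_of_nonneg_right (by nlinarith [hr.G10]) (sq_nonneg _)
          _ = _ := by ring
      by_cases hc' : k < 0 ∧ (-k).toNat * h < N
      · simp only [hind]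
        rw [if_pos hc', hJ]
        have e : (((-k).toNat * h : ℕ) : ℝ) = -((k : ℝ) * h) := by
          have : ((-k).toNat : ℤ) = -k := Int.toNat_of_nonneg (by omega)
          have : (((-k).toNat : ℕ) : ℝ) = -(k : ℝ) := by exact_mod_cast this
          push_cast
          rw [this]; ring
        simp only [e]
        refine (b3 _ ?_ ?_).trans hfin
        · rw [← e]
          exact_mod_cast Nat.le_mul_of_pos_left h (by omega)
        · rw [← e]
          exact Nat.lt_ceil.1 (hN ▸ hc'.2)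
      · simp only [hind]
        rw [if_neg hc', sub_zero]
        refine (b1 _ ?_).trans hfin
        rcases lt_or_gt_of_ne hk with hk0 | hk0
        · right
          have h1 : N ≤ (-k).toNat * h := not_lt.1 fun h' => hc' ⟨hk0, h'⟩
          have h2 : ((N : ℕ) : ℝ) ≤ (((-k).toNat * h : ℕ) : ℝ) := Nat.cast_le.2 h1
          have : ((-k).toNat : ℤ) = -k := Int.toNat_of_nonneg (by omega)
          have h3 : (((-k).toNat : ℕ) : ℝ) = -(k : ℝ) := by exact_mod_cast this
          push_cast at h2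
          rw [h3] at h2
          have := Nat.le_ceil (2 * τ / G ^ 2)
          rw [← hN] at this
          linarith
        · left
          have : (0 : ℝ) < k := Int.cast_pos.2 hk0
          nlinarith
    have hmaj : Summable fun k : ℤ =>
        (if k = 0 then K / (h : ℝ) ^ 2 else 0) + K / (h : ℝ) ^ 2 * (1 / (k : ℝ) ^ 2) :=
      (hasSum_ite_eq (0 : ℤ) _).summable.add (hZs.mul_left _)
    have hdiff : Summable fun k : ℤ => shiftInt M G τ h (-((k : ℝ) * h)) - ind h k :=
      Summable.of_norm_bounded hmaj hle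
    have hindz : ∀ k ∉ (Finset.Ico 1 N).image (fun j : ℕ => -(j : ℤ)), ind h k = 0 := by
      intro k hk
      simp only [hind]
      refine if_neg fun hc' => hk (Finset.mem_image.2 ⟨(-k).toNat, ?_, ?_⟩)
      · rw [Finset.mem_Ico]
        refine ⟨by omega, lt_of_le_of_lt ?_ hc'.2⟩
        exact Nat.le_mul_of_pos_right _ hh
      · omega
    have hinds : Summable (ind h) := summable_of_ne_finset_zero hindz
    have hsum : Summable fun k : ℤ => shiftInt M G τ h (-((k : ℝ) * h)) :=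
      (hdiff.add hinds).congr fun k => sub_add_cancel _ _
    refine ⟨hsum, ?_⟩
    have e : ∑' k, ind h k = ∑ j ∈ Finset.Ico 1 N, if j * h < N then J (j * h) else 0 := by
      rw [tsum_eq_sum hindz, Finset.sum_image fun a _ b _ hab => by
        simpa using hab]
      refine Finset.sum_congr rfl fun j hj => ?_
      simp only [hind]
      have h1 := (Finset.mem_Ico.1 hj).1
      rw [show (-(-(j : ℤ))).toNat = j by simp]
      by_cases h' : j * h < N
      · rw [if_pos h', if_pos ⟨by omega, h'⟩]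
      · rw [if_neg h', if_neg fun hh' => h' hh'.2]
    rw [← e, ← hsum.tsum_sub hinds]
    refine (tsum_of_norm_bounded hmaj.hasSum hle).trans (le_of_eq ?_)
    rw [(hasSum_ite_eq (0 : ℤ) _).summable.tsum_add (hZs.mul_left _), tsum_ite_eq, tsum_mul_left,
      ← hZdef]
    ring
  -- the double sum
  obtain ⟨R, hR⟩ : ∃ R : ℕ → ℕ → ℂ, R = fun m n : ℕ =>
      ((cutW ((m : ℝ) / M) / √(m : ℝ) * (cutW ((n : ℝ) / M) / √(n : ℝ)) *
          etaFn (G * (Real.log n - Real.log m)) : ℝ) : ℂ) *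
        expI (c * (Real.log n - Real.log m)) := ⟨_, rfl⟩
  obtain ⟨I, hI⟩ : ∃ I, I = Finset.Icc 1 (2 * M) := ⟨_, rfl⟩
  have hsym : ∀ m n : ℕ, R n m = conj (R m n) := fun m n => by
    simp only [hR]
    rw [map_mul, Complex.conj_ofReal, conj_expI,
      show G * (Real.log m - Real.log n) = -(G * (Real.log n - Real.log m)) by ring, etaFn_neg,
      show c * (Real.log m - Real.log n) = -(c * (Real.log n - Real.log m)) by ring]
    push_cast
    ring
  obtain ⟨Λ, hΛ⟩ : ∃ Λ, Λ = ∑ m ∈ I, ∑ n ∈ I, if m < n then R m n else 0 := ⟨_, rfl⟩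
  have hsplit : ∑ m ∈ I, ∑ n ∈ I, R m n = (∑ m ∈ I, R m m) + Λ + conj Λ := by
    have e : ∀ m n : ℕ, R m n = (if m = n then R m n else 0) + (if m < n then R m n else 0) +
        (if n < m then R m n else 0) := fun m n => by
      rcases lt_trichotomy m n with h' | h' | h'
      · simp [h', h'.ne, h'.not_gt]
      · simp [h']
      · simp [h', h'.ne', h'.not_gt]
    conv_lhs => enter [2, m, 2, n]; rw [e m n]
    simp only [Finset.sum_add_distrib]
    congr 1
    · congr 1
      · exact Finset.sum_congr rfl fun m hm => by rw [Finset.sum_ite_eq, if_pos hm]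
      · exact hΛ.symm
    · rw [Finset.sum_comm, hΛ, map_sum]
      refine Finset.sum_congr rfl fun m _ => ?_
      rw [map_sum]
      refine Finset.sum_congr rfl fun n _ => ?_
      split_ifs with h'
      · exact hsym m n
      · rw [map_zero]
  have hΛ' : Λ = ∑ h ∈ I, ∑ m ∈ I, R m (m + h) := by
    rw [hΛ, Finset.sum_comm (s := I) (t := I) (f := fun h m => R m (m + h))]
    refine Finset.sum_congr rfl fun m hm => ?_
    rw [hI, Finset.mem_Icc] at hm
    have e : ∑ h ∈ I, R m (m + h) = ∑ n ∈ Finset.Icc (m + 1) (m + 2 * M), R m n := by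
      rw [hI, ← Finset.map_add_left_Icc, Finset.sum_map]
      rfl
    rw [e, ← Finset.sum_filter]
    refine Finset.sum_subset (fun n hn => ?_) fun n hn hn' => ?_
    · rw [Finset.mem_filter, hI, Finset.mem_Icc] at hn
      rw [Finset.mem_Icc]; omega
    · rw [Finset.mem_Icc] at hn
      rw [Finset.mem_filter, hI, Finset.mem_Icc] at hn'
      have hn2 : 2 * M < n := by omega
      simp only [hR]
      rw [cutW_eq_zero (x := (n : ℝ) / M) (by
        have hM : (0 : ℝ) < M := by linarith [hr.M_pos]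
        rw [abs_of_nonneg (by positivity), le_div_iff₀ hM]
        exact_mod_cast hn2.le)]
      simp
  obtain ⟨D, hD⟩ : ∃ D, D = ∑ n ∈ Finset.Ico 1 N, (n.divisors.card : ℂ) * J n := ⟨_, rfl⟩
  have hcount : ∑ h ∈ I, ∑ j ∈ Finset.Ico 1 N, (if j * h < N then J (j * h) else 0) = D := by
    rw [← Finset.sum_product' (f := fun h j => if j * h < N then J (j * h) else 0),
      ← Finset.sum_filter, hD, ← Finset.sum_fiberwise_of_maps_to (t := Finset.Ico 1 N)
        (g := fun p : ℕ × ℕ => p.2 * p.1) fun p hp => ?_]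
    · refine Finset.sum_congr rfl fun n hn => ?_
      rw [Finset.mem_Ico] at hn
      rw [Finset.sum_congr rfl fun p hp => by rw [(Finset.mem_filter.1 hp).2],
        Finset.sum_const, nsmul_eq_mul]
      congr 2
      refine Finset.card_bij (fun p _ => p.1) (fun p hp => ?_) (fun p hp q hq hpq => ?_)
        fun d hd => ?_
      · simp only [Finset.mem_filter, Finset.mem_product] at hp
        exact Nat.mem_divisors.2 ⟨Dvd.intro_left _ hp.2, by omega⟩
      · simp only [Finset.mem_filter, Finset.mem_product, hI, Finset.mem_Icc] at hp hq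
        refine Prod.ext hpq (Nat.eq_of_mul_eq_mul_right (by omega : 0 < p.1) ?_)
        rw [hp.2, hpq, hq.2]
      · obtain ⟨⟨q, hq⟩, hn0⟩ := Nat.mem_divisors.1 hd
        have hd1 : 1 ≤ d := Nat.pos_of_mem_divisors hd
        have hq1 : 1 ≤ q := Nat.pos_of_ne_zero fun e => hn0 (by rw [hq, e, mul_zero])
        have h1 : d ≤ n := hq ▸ Nat.le_mul_of_pos_right d hq1
        have h2 : q ≤ n := hq ▸ Nat.le_mul_of_pos_left q hd1
        refine ⟨(d, q), ?_, rfl⟩
        simp only [Finset.mem_filter, Finset.mem_product, hI, Finset.mem_Icc, Finset.mem_Ico]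
        have : q * d = n := by rw [hq, mul_comm]
        exact ⟨⟨⟨⟨hd1, by omega⟩, hq1, by omega⟩, by omega⟩, this⟩
    · simp only [Finset.mem_filter, Finset.mem_product, hI, Finset.mem_Icc, Finset.mem_Ico] at hp
      rw [Finset.mem_Ico]
      exact ⟨Nat.one_le_iff_ne_zero.2 (Nat.mul_ne_zero (by omega) (by omega)), hp.2⟩
  have hI2 : ∑ h ∈ I, K * (1 + Z) / (h : ℝ) ^ 2 ≤ 2 * (K * (1 + Z)) := by
    have h1 := sum_Ioo_inv_sq_le (α := ℝ) 0 (2 * M + 1)
    have e : Finset.Ioo 0 (2 * M + 1) = I := by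
      rw [hI]; ext i; simp only [Finset.mem_Ioo, Finset.mem_Icc]; omega
    rw [e] at h1
    simp only [div_eq_mul_inv]
    rw [← Finset.mul_sum]
    calc K * (1 + Z) * _ ≤ K * (1 + Z) * (2 / ((0 : ℕ) + 1)) :=
          mul_le_mul_of_nonneg_left h1 (by positivity)
      _ = _ := by push_cast; ring
  have hOff : ‖Λ‖ ≤ 2 * (K * (1 + Z)) + ‖D‖ := by
    have hb : ‖Λ - D‖ ≤ 2 * (K * (1 + Z)) := by
      rw [hΛ', ← hcount, ← Finset.sum_sub_distrib]
      refine (norm_sum_le_of_le _ fun h hh => ?_).trans hI2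
      rw [hI, Finset.mem_Icc] at hh
      obtain ⟨hs, hb⟩ := hshift h hh.1
      refine le_trans (le_of_eq ?_) hb
      rw [← tsum_shift_eq hr hh.1 hs]
      congr 2
      rw [hI]
      refine Finset.sum_congr rfl fun m _ => ?_
      simp only [hR, hc]
    have := norm_sub_norm_le Λ D
    linarith
  have hdiag : ‖∑ m ∈ I, R m m‖ ≤ E * (1 + Real.log (2 * M)) := by
    refine (norm_sum_le_of_le _ (n := fun m : ℕ => E * ((m : ℝ))⁻¹) fun m hm => ?_).trans ?_
    · rw [hI, Finset.mem_Icc] at hm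
      have hm0 : (0 : ℝ) < m := Nat.cast_pos.2 hm.1
      simp only [hR, sub_self, mul_zero]
      rw [norm_mul, norm_expI, mul_one, Complex.norm_real, Real.norm_eq_abs, abs_mul, ← hE,
        div_mul_div_comm, Real.mul_self_sqrt hm0.le, abs_div, abs_of_pos hm0, abs_mul, mul_comm E]
      refine mul_le_mul_of_nonneg_right ?_ (hE ▸ abs_nonneg _)
      rw [div_eq_mul_inv]
      exact mul_le_of_le_one_left (by positivity)
        (mul_le_one₀ (abs_cutW_le_one _) (abs_nonneg _) (abs_cutW_le_one _))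
    · rw [← Finset.mul_sum, hI]
      refine mul_le_mul_of_nonneg_left ?_ (hE ▸ abs_nonneg _)
      have h := harmonic_le_one_add_log (2 * M)
      rw [harmonic_eq_sum_Icc] at h
      push_cast at h
      exact h
  obtain ⟨P, hP⟩ : ∃ P, P = ∫ t, ‖dirPoly M t‖ ^ 2 * phiFn ((t - c) / (2 * π * G)) := ⟨_, rfl⟩
  have hP0 : 0 ≤ P := hP ▸ integral_nonneg fun t => mul_nonneg (sq_nonneg _) (phiFn_nonneg _)
  have key := integral_dirPoly_sq hG0 M c
  rw [← hP] at key ⊢
  have hPn : P ≤ 2 * π * G * ‖∑ m ∈ I, ∑ n ∈ I, R m n‖ := by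
    have := congrArg norm key
    rw [Complex.norm_real, Real.norm_of_nonneg hP0, norm_mul, Complex.norm_real,
      Real.norm_of_nonneg (by positivity)] at this
    rw [this, hI, hR]
  have hnorm : ‖∑ m ∈ I, ∑ n ∈ I, R m n‖ ≤
      E * (1 + Real.log (2 * M)) + 2 * (2 * (K * (1 + Z)) + ‖D‖) := by
    rw [hsplit]
    refine (norm_add₃_le).trans ?_
    rw [Complex.norm_conj]
    linarith
  have hL : 0 ≤ Real.log (2 * M) := Real.log_nonneg (by linarith [hr.M_pos])
  have hE0 : 0 ≤ E := hE ▸ abs_nonneg _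
  have e : ‖D‖ = ‖∑ n ∈ Finset.Ico 1 N, (n.divisors.card : ℂ) * dualInt M G τ n‖ := by
    rw [hD, hJ]
  rw [← e]
  refine hPn.trans ((mul_le_mul_of_nonneg_left hnorm (by positivity)).trans ?_)
  have : 0 ≤ K * (1 + Z) * (Real.log (2 * M) + ‖D‖) := by positivity
  have : 0 ≤ E * ‖D‖ := by positivity
  rw [show 2 * π * (2 * E + 2 + 4 * (K * (1 + Z))) * G *
      (1 + Real.log (2 * M) + ‖D‖) = 2 * π * G * ((2 * E + 2 + 4 * (K * (1 + Z))) *
        (1 + Real.log (2 * M) + ‖D‖)) by ring]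
  refine mul_le_mul_of_nonneg_left ?_ (by positivity)
  nlinarith

end FA.TwelfthMoment

end
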