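import Fermat.Agent.TwelfthMoment.Amplitude
import Mathlib.Analysis.SpecialFunctions.Trigonometric.ArctanDeriv

/-!
# The stationary point, crudely

At the critical point `u₀` of `τ log (1 + 1/u) + n u` the integral of the amplitude is
`fresnel w * amp u₀ / √(P'' u₀) * e (P u₀)` up to
`O (w ^ 4 / (u₀ n) + 1 / (w ^ 3 √(u₀ n)) + 1 / (G n) ^ 2)`. The factor `fresnel w` is bounded; its
value is not needed.
-/

set_option autoImplicit false

noncomputable section

namespace FA.TwelfthMoment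

open MeasureTheory Filter Set
open scoped Real Topology ContDiff

/-- The critical point. -/
def crit (τ n : ℝ) : ℝ := (√(1 + 4 * τ / n) - 1) / 2

theorem two_mul_crit_add_one (τ n : ℝ) : 2 * crit τ n + 1 = √(1 + 4 * τ / n) := by
  rw [crit]; ring

theorem crit_mul_succ {τ n : ℝ} (hτ : 0 ≤ τ) (hn : 0 < n) :
    crit τ n * (crit τ n + 1) = τ / n := by
  have h := Real.mul_self_sqrt (show 0 ≤ 1 + 4 * τ / n by positivity)
  rw [crit]
  linear_combination h / 4

theorem crit_nonneg {τ n : ℝ} (hτ : 0 ≤ τ) (hn : 0 < n) : 0 ≤ crit τ n := by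
  rw [crit]
  have : 1 ≤ √(1 + 4 * τ / n) := Real.one_le_sqrt.2 (le_add_of_nonneg_right (by positivity))
  linarith

theorem crit_pos {τ n : ℝ} (hτ : 0 < τ) (hn : 0 < n) : 0 < crit τ n := by
  refine lt_of_le_of_ne (crit_nonneg hτ.le hn) fun h => ?_
  have h2 := crit_mul_succ hτ.le hn
  rw [← h, zero_mul] at h2
  exact (div_pos hτ hn).ne h2

theorem crit_sq_le {τ n : ℝ} (hτ : 0 ≤ τ) (hn : 0 < n) : crit τ n ^ 2 ≤ τ / n := by
  have h := crit_mul_succ hτ hn
  have := crit_nonneg hτ hn
  nlinarith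

theorem phaseD_eq {τ n u : ℝ} (hτ : 0 ≤ τ) (hn : 0 < n) (hu : 0 < u) :
    phaseD τ n u = n * (u - crit τ n) * (u + crit τ n + 1) / (u * (u + 1)) := by
  have h := crit_mul_succ hτ hn
  rw [eq_div_iff hn.ne'] at h
  have h' : u * (u + 1) ≠ 0 := by positivity
  rw [phaseD, eq_div_iff h', sub_mul, div_mul_cancel₀ _ h']
  linear_combination h

theorem phaseD_crit {τ n : ℝ} (hτ : 0 < τ) (hn : 0 < n) : phaseD τ n (crit τ n) = 0 := by
  rw [phaseD_eq hτ.le hn (crit_pos hτ hn), sub_self, mul_zero, zero_mul, zero_div]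

theorem phaseDD_crit {τ n : ℝ} (hτ : 0 < τ) (hn : 0 < n) :
    phaseDD τ (crit τ n) = n ^ 2 * √(1 + 4 * τ / n) / τ := by
  rw [phaseDD, crit_mul_succ hτ.le hn, two_mul_crit_add_one]
  field_simp

theorem phaseDD_crit_bounds {τ n : ℝ} (hτ : 0 < τ) (hn : 0 < n) :
    n / crit τ n ≤ phaseDD τ (crit τ n) ∧ phaseDD τ (crit τ n) ≤ 2 * n / crit τ n := by
  have h := crit_mul_succ hτ.le hn
  have h0 := crit_pos hτ hn
  have e : phaseDD τ (crit τ n) = n * (2 * crit τ n + 1) / (crit τ n * (crit τ n + 1)) := by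
    rw [phaseDD, sq, h]
    field_simp
  rw [e]
  constructor
  · rw [div_le_div_iff₀ h0 (by positivity)]
    nlinarith [mul_pos hn (mul_pos h0 h0), mul_pos hn h0]
  · rw [div_le_div_iff₀ (by positivity) h0]
    nlinarith [mul_pos hn (mul_pos h0 h0), mul_pos hn h0]

/-- The Fresnel factor. -/
def fresnel (w : ℝ) : ℂ := ∫ y in (-(2 * w))..2 * w, (cutW (y / w) : ℂ) * eTau (y ^ 2 / 2)

theorem exists_fresnel_le : ∃ C, 0 ≤ C ∧ ∀ w : ℝ, 1 ≤ w → ‖fresnel w‖ ≤ C := by
  obtain ⟨Cw, hCw, hb⟩ := exists_cutW_bounds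
  refine ⟨4 + 2 * (4 * Cw + 2), by linarith, fun w hw => ?_⟩
  have hw0 : 0 < w := by linarith
  obtain ⟨f, hf⟩ : ∃ f : ℝ → ℝ, f = fun y => cutW (y / w) - cutW y := ⟨_, rfl⟩
  have hfd : ∀ y, HasDerivAt f (deriv cutW (y / w) * (1 / w) - deriv cutW y) y := fun y => by
    rw [hf]
    exact ((hasDerivAt_of_smooth contDiff_cutW _).comp y ((hasDerivAt_id' y).div_const w)).sub
      (hasDerivAt_of_smooth contDiff_cutW y)
  have hf1 : ∀ y, |y| = 1 → f y = 0 := fun y hy => by
    simp only [hf]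
    rw [cutW_eq_one (by rw [abs_div, hy, abs_of_pos hw0, div_le_one hw0]; exact hw),
      cutW_eq_one hy.le, sub_self]
  have hf2 : ∀ y, |y| = 2 * w → f y = 0 := fun y hy => by
    simp only [hf]
    rw [cutW_eq_zero (by rw [abs_div, hy, abs_of_pos hw0, mul_div_cancel_right₀ _ hw0.ne']),
      cutW_eq_zero (by rw [hy]; linarith), sub_self]
  have hfb : ∀ y, |f y| ≤ 1 := fun y => by
    simp only [hf]
    rw [abs_le]
    constructor <;> linarith [cutW_nonneg (y / w), cutW_le_one (y / w), cutW_nonneg y,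
      cutW_le_one y]
  have hside : ∀ a b : ℝ, a ≤ b → (∀ y ∈ Icc a b, 1 ≤ |y|) → f a = 0 → f b = 0 → b - a ≤ 2 * w →
      (∫ y in a..b, 1 / y ^ 2) ≤ 1 →
      ‖∫ y in a..b, (f y : ℂ) * eTau (y ^ 2 / 2)‖ ≤ 4 * Cw + 2 := by
    intro a b hab hy1 ha hb' hlen hint
    have hne : ∀ y ∈ Icc a b, y ≠ 0 := fun y hy h => by
      have := hy1 y hy; rw [h, abs_zero] at this; linarith
    obtain ⟨g', hg'⟩ : ∃ g' : ℝ → ℝ, g' = fun y =>
        ((deriv cutW (y / w) * (1 / w) - deriv cutW y) * y - f y * 1) / y ^ 2 := ⟨_, rfl⟩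
    have hg'c : ContinuousOn g' (Icc a b) := by
      rw [hg']
      refine ContinuousOn.div (Continuous.continuousOn ?_) (by fun_prop)
        fun y hy => pow_ne_zero 2 (hne y hy)
      have h1 := (contDiff_deriv contDiff_cutW).continuous
      have h2 : Continuous f := continuous_iff_continuousAt.2 fun y => (hfd y).continuousAt
      fun_prop
    have e : ∫ y in a..b, (f y : ℂ) * eTau (y ^ 2 / 2) =
        ∫ y in a..b, ((f y / y * y : ℝ) : ℂ) * eTau (y ^ 2 / 2) :=
      intervalIntegral.integral_congr fun y hy => by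
        rw [uIcc_of_le hab] at hy
        rw [div_mul_cancel₀ _ (hne y hy)]
    rw [e, integral_mul_eTau_ibp hab (g := fun y => f y / y) (g' := g')
      (P := fun y => y ^ 2 / 2) (p := fun y => y) (fun y hy => by
        rw [hg']; exact (hfd y).div (hasDerivAt_id' y) (hne y hy))
      (fun y _ => (((hasDerivAt_id' y).pow 2).div_const 2).congr_deriv (by simp))
      hg'c continuousOn_id (by simp [ha]) (by simp [hb']), norm_mul]
    refine (mul_le_of_le_one_left (norm_nonneg _) ?_).trans ?_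
    · rw [norm_neg, norm_div, norm_one, norm_mul, Complex.norm_I, mul_one, Complex.norm_real,
        Real.norm_of_nonneg (by positivity), div_le_one (by positivity)]
      linarith [Real.two_le_pi]
    have hi : IntervalIntegrable (fun y : ℝ => 1 / y ^ 2) volume a b :=
      ((continuousOn_const.div (by fun_prop) fun y hy => pow_ne_zero 2 (hne y hy)).mono
        (uIcc_of_le hab).le).intervalIntegrable
    refine (intervalIntegral.norm_integral_le_of_norm_le hab
      (g := fun y => Cw / w + (2 * Cw + 1) * (1 / y ^ 2))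
      (Eventually.of_forall fun y hy => ?_)
      (intervalIntegrable_const.add (hi.const_mul _))).trans ?_
    · have hy' := Ioc_subset_Icc_self hy
      have h1 := hy1 y hy'
      rw [norm_mul, norm_eTau, mul_one, Complex.norm_real, Real.norm_eq_abs, hg']
      simp only [mul_one, abs_div, abs_pow]
      rw [sq_abs, div_le_iff₀ (sq_pos_of_ne_zero (hne y hy')), add_mul,
        mul_assoc (2 * Cw + 1), one_div_mul_cancel (pow_ne_zero 2 (hne y hy')), mul_one]
      refine (abs_sub _ _).trans ?_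
      have hb2 : |deriv cutW y| * |y| ≤ 2 * Cw := by
        rcases em (2 < |y|) with h | h
        · rw [(deriv_cutW_zero h).1, abs_zero, zero_mul]; linarith
        · calc |deriv cutW y| * |y| ≤ Cw * 2 :=
              mul_le_mul (hb y).1 (not_lt.1 h) (abs_nonneg _) (by linarith)
            _ = _ := mul_comm _ _
      have hb1 : |deriv cutW (y / w) * (1 / w)| * |y| ≤ Cw / w * y ^ 2 := by
        rw [abs_mul, abs_of_pos (one_div_pos.2 hw0), ← sq_abs y]
        calc |deriv cutW (y / w)| * (1 / w) * |y| ≤ Cw * (1 / w) * |y| ^ 2 :=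
            mul_le_mul (mul_le_mul_of_nonneg_right (hb _).1 (by positivity))
              (le_self_pow₀ h1 two_ne_zero) (abs_nonneg _) (by positivity)
          _ = _ := by ring
      rw [abs_mul]
      have := mul_le_mul_of_nonneg_right (abs_sub (deriv cutW (y / w) * (1 / w)) (deriv cutW y))
        (abs_nonneg y)
      linarith [hfb y]
    · rw [intervalIntegral.integral_add intervalIntegrable_const (hi.const_mul _),
        intervalIntegral.integral_const, intervalIntegral.integral_const_mul, smul_eq_mul]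
      have h2 : (b - a) * (Cw / w) ≤ 2 * Cw := by
        rw [mul_div_assoc', div_le_iff₀ hw0]; nlinarith
      have := mul_le_mul_of_nonneg_left hint (show 0 ≤ 2 * Cw + 1 by linarith)
      linarith
  have hc : ∀ g : ℝ → ℝ, Continuous g → ∀ a b : ℝ,
      IntervalIntegrable (fun y => (g y : ℂ) * eTau (y ^ 2 / 2)) volume a b := fun g hg a b =>
    ((Complex.continuous_ofReal.comp hg).mul (continuous_eTau.comp (by fun_prop))).intervalIntegrable
      a b
  have hcw : Continuous fun y => cutW (y / w) := contDiff_cutW.continuous.comp (by fun_prop)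
  have hfc : Continuous f := continuous_iff_continuousAt.2 fun y => (hfd y).continuousAt
  have s1 : ∫ y in (1 : ℝ)..2 * w, 1 / y ^ 2 ≤ 1 := by
    have hne : ∀ y ∈ uIcc (1 : ℝ) (2 * w), y ≠ 0 := fun y hy => by
      rw [uIcc_of_le (by linarith : (1 : ℝ) ≤ 2 * w)] at hy
      linarith [hy.1]
    have hic : ContinuousOn (fun y : ℝ => 1 / y ^ 2) (uIcc 1 (2 * w)) :=
      continuousOn_const.div (by fun_prop) fun y hy => pow_ne_zero 2 (hne y hy)
    rw [intervalIntegral.integral_eq_sub_of_hasDerivAt (f := fun y : ℝ => -y⁻¹)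
      (f' := fun y => 1 / y ^ 2) (fun y hy => ?_) hic.intervalIntegrable]
    · rw [inv_one]
      linarith [show (0 : ℝ) ≤ (2 * w)⁻¹ by positivity]
    · exact ((hasDerivAt_inv (hne y hy)).neg).congr_deriv (by simp [one_div])
  have s2 : ∫ y in (-(2 * w))..(-1 : ℝ), 1 / y ^ 2 ≤ 1 := by
    have h := intervalIntegral.integral_comp_neg (fun y : ℝ => 1 / y ^ 2) (a := 1) (b := 2 * w)
    simp only [neg_sq] at h
    rwa [← h]
  have hn1 : ∀ y ∈ Icc (-(2 * w)) (-1 : ℝ), 1 ≤ |y| := fun y hy => by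
    linarith [neg_abs_le y, hy.2]
  have hp1 : ∀ y ∈ Icc (1 : ℝ) (2 * w), 1 ≤ |y| := fun y hy => by
    linarith [le_abs_self y, hy.1]
  have hL := hside _ _ (by linarith) hn1 (hf2 _ (by rw [abs_neg, abs_of_pos (by linarith)]))
    (hf1 _ (by norm_num)) (by linarith) s2
  have hR := hside _ _ (by linarith) hp1 (hf1 _ (by norm_num))
    (hf2 _ (abs_of_pos (by linarith))) (by linarith) s1
  have hcut : ‖∫ y in (-(2 * w))..2 * w, (cutW y : ℂ) * eTau (y ^ 2 / 2)‖ ≤ 4 := by
    have e : ∫ y in (-(2 * w))..2 * w, (cutW y : ℂ) * eTau (y ^ 2 / 2) =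
        ∫ y in (-2 : ℝ)..2, (cutW y : ℂ) * eTau (y ^ 2 / 2) := by
      rw [intervalIntegral.integral_eq_integral_of_support_subset (fun y hy => ?_),
        intervalIntegral.integral_eq_integral_of_support_subset (fun y hy => ?_)]
      all_goals
        rw [Function.mem_support] at hy
        have h2 : |y| < 2 := not_le.1 fun h => hy (by rw [cutW_eq_zero h]; simp)
        rw [abs_lt] at h2
        constructor <;> linarith
    rw [e]
    refine (intervalIntegral.norm_integral_le_of_norm_le_const (C := 1) fun y _ => ?_).trans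
      (by norm_num)
    rw [norm_mul, norm_eTau, mul_one, Complex.norm_real, Real.norm_eq_abs]
    exact abs_cutW_le_one _
  have hzero : ∫ y in (-1 : ℝ)..1, (f y : ℂ) * eTau (y ^ 2 / 2) = 0 := by
    rw [intervalIntegral.integral_congr (g := fun _ => (0 : ℂ)) fun y hy => ?_,
      intervalIntegral.integral_zero]
    rw [uIcc_of_le (by norm_num : (-1 : ℝ) ≤ 1)] at hy
    have hy' : |y| ≤ 1 := abs_le.2 hy
    simp only [hf]
    rw [cutW_eq_one (by rw [abs_div, abs_of_pos hw0, div_le_one hw0]; linarith), cutW_eq_one hy']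
    simp
  have e : fresnel w = ((∫ y in (-(2 * w))..(-1 : ℝ), (f y : ℂ) * eTau (y ^ 2 / 2)) +
      (∫ y in (-1 : ℝ)..1, (f y : ℂ) * eTau (y ^ 2 / 2)) +
      ∫ y in (1 : ℝ)..2 * w, (f y : ℂ) * eTau (y ^ 2 / 2)) +
        ∫ y in (-(2 * w))..2 * w, (cutW y : ℂ) * eTau (y ^ 2 / 2) := by
    rw [intervalIntegral.integral_add_adjacent_intervals (hc f hfc _ _) (hc f hfc _ _),
      intervalIntegral.integral_add_adjacent_intervals (hc f hfc _ _) (hc f hfc _ _),
      ← intervalIntegral.integral_add (hc f hfc _ _) (hc cutW contDiff_cutW.continuous _ _),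
      fresnel]
    refine intervalIntegral.integral_congr fun y _ => ?_
    simp only [hf]; push_cast; ring
  rw [e, hzero, add_zero]
  have h1 := norm_add_le ((∫ y in (-(2 * w))..(-1 : ℝ), (f y : ℂ) * eTau (y ^ 2 / 2)) +
      ∫ y in (1 : ℝ)..2 * w, (f y : ℂ) * eTau (y ^ 2 / 2))
    (∫ y in (-(2 * w))..2 * w, (cutW y : ℂ) * eTau (y ^ 2 / 2))
  have h2 := norm_add_le (∫ y in (-(2 * w))..(-1 : ℝ), (f y : ℂ) * eTau (y ^ 2 / 2))
    (∫ y in (1 : ℝ)..2 * w, (f y : ℂ) * eTau (y ^ 2 / 2))
  linarith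

/-- The integral of `1 / (D² ((u - c)² + D²))`. -/
theorem integral_arctan_kernel_le {D c a b : ℝ} (hD : 0 < D) :
    ∫ u in a..b, 1 / (D ^ 2 * ((u - c) ^ 2 + D ^ 2)) ≤ π / D ^ 3 := by
  have hc : Continuous fun u : ℝ => 1 / (D ^ 2 * ((u - c) ^ 2 + D ^ 2)) :=
    continuous_const.div (by fun_prop) fun u => by positivity
  rw [intervalIntegral.integral_eq_sub_of_hasDerivAt
    (f := fun u => Real.arctan ((u - c) / D) / D ^ 3)
    (f' := fun u => 1 / (D ^ 2 * ((u - c) ^ 2 + D ^ 2))) (fun u _ => ?_)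
    (hc.intervalIntegrable _ _)]
  · rw [← sub_div]
    refine div_le_div_of_nonneg_right ?_ (by positivity)
    linarith [Real.arctan_lt_pi_div_two ((b - c) / D), Real.neg_pi_div_two_lt_arctan ((a - c) / D)]
  · refine (((((hasDerivAt_id' u).sub_const c).div_const D).arctan).div_const
      (D ^ 3)).congr_deriv ?_
    field_simp
    ring

end FA.TwelfthMoment

end
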