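import Fermat.Agent.TwelfthMoment.Amplitude
import Fermat.Agent.Subconvexity.ZetaLine
import Mathlib.Analysis.Fourier.Convolution
import Mathlib.Analysis.Calculus.BumpFunction.Normed
import Mathlib.Analysis.Calculus.ContDiff.Convolution
import Mathlib.Analysis.SpecialFunctions.Integrals.Basic

/-!
# Windows

`φ = |𝓕 ψ|²` for a bump `ψ` supported in `[-1/8, 1/8]` is positive on `[-1, 1]` and is the Fourier
transform of the test function `η = ψ ⋆ ψ`. The mean square of a Dirichlet polynomial against a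
dilate of `φ` is a double sum weighted by `η`, and it controls the values at separated points.
-/

set_option autoImplicit false

noncomputable section

namespace FA.TwelfthMoment

open MeasureTheory Filter Set ContinuousLinearMap
open FA.Subconvexity (expI expI_add conj_expI norm_expI phase)
open scoped Real Topology ContDiff FourierTransform Convolution SchwartzMap ComplexConjugate

theorem continuous_expI : Continuous expI := by unfold expI; fun_prop

/-- The bump `ψ`. -/
def testBump : ContDiffBump (0 : ℝ) where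
  rIn := 1 / 16
  rOut := 1 / 8
  rIn_pos := by norm_num
  rIn_lt_rOut := by norm_num

theorem testBump_eq_zero {x : ℝ} (h : 1 / 8 ≤ |x|) : testBump x = 0 :=
  testBump.zero_of_le_dist (by rw [Real.dist_eq, sub_zero]; exact h)

/-- `ψ` as a complex Schwartz function. -/
def testSchwartz : 𝓢(ℝ, ℂ) :=
  (testBump.hasCompactSupport.comp_left (g := ((↑) : ℝ → ℂ)) Complex.ofReal_zero).toSchwartzMap
    (Complex.ofRealCLM.contDiff.comp testBump.contDiff)

theorem testSchwartz_apply (x : ℝ) : testSchwartz x = (testBump x : ℂ) := rfl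

/-- The test function `η = ψ ⋆ ψ`. -/
def etaFn (x : ℝ) : ℝ := ∫ v, testBump v * testBump (x - v)

theorem etaFn_neg (x : ℝ) : etaFn (-x) = etaFn x := by
  rw [etaFn, etaFn, ← integral_neg_eq_self fun v => testBump v * testBump (-x - v)]
  congr 1
  funext v
  rw [testBump.neg, show -x - -v = -(x - v) by ring, testBump.neg]

theorem isTest_etaFn : IsTest etaFn where
  smooth := by
    have h := testBump.hasCompactSupport.contDiff_convolution_right (mul ℝ ℝ)
      (μ := (volume : Measure ℝ)) testBump.continuous.locallyIntegrable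
      (testBump.contDiff (n := (⊤ : ℕ∞)))
    convert h using 1
    funext x
    rw [etaFn, convolution_def]
    rfl
  zero x hx := by
    refine integral_eq_zero_of_ae (Eventually.of_forall fun v => ?_)
    rcases le_or_gt (1 / 8) |v| with h | h
    · simp [testBump_eq_zero h]
    · have : 1 / 8 ≤ |x - v| := by
        have := abs_sub_abs_le_abs_sub x v
        linarith
      simp [testBump_eq_zero this]

/-- The window `φ`. -/
def phiFn (x : ℝ) : ℝ := ‖(𝓕 testSchwartz) x‖ ^ 2

theorem phiFn_nonneg (x : ℝ) : 0 ≤ phiFn x := sq_nonneg _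

theorem fourier_schwartz_eq (f : 𝓢(ℝ, ℂ)) (w : ℝ) :
    (𝓕 f) w = ∫ v, f v * expI (-(2 * π * v * w)) := by
  rw [SchwartzMap.fourier_coe, Real.fourier_real_eq_integral_exp_smul]
  congr 1
  funext v
  rw [smul_eq_mul, mul_comm, expI]
  push_cast
  ring_nf

theorem fourierInv_schwartz_eq (f : 𝓢(ℝ, ℂ)) (w : ℝ) :
    (𝓕⁻ f) w = ∫ v, f v * expI (2 * π * v * w) := by
  rw [SchwartzMap.fourierInv_coe, Real.fourierInv_eq']
  congr 1
  funext v
  rw [RCLike.inner_apply, conj_trivial, smul_eq_mul, mul_comm, expI]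
  push_cast
  ring_nf

theorem conj_fourier_test (w : ℝ) : conj ((𝓕 testSchwartz) w) = (𝓕 testSchwartz) w := by
  rw [fourier_schwartz_eq, ← integral_conj,
    ← integral_neg_eq_self fun v => testSchwartz v * expI (-(2 * π * v * w))]
  congr 1
  funext v
  rw [map_mul, conj_expI, testSchwartz_apply, testSchwartz_apply, Complex.conj_ofReal,
    testBump.neg]
  congr 2
  ring

theorem exists_phiFn_pos : ∃ c, 0 < c ∧ ∀ x, |x| ≤ 1 → c ≤ phiFn x := by
  obtain ⟨I, hI⟩ : ∃ I, I = ∫ v, testBump v := ⟨_, rfl⟩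
  have hI0 : 0 < I := hI ▸ testBump.integral_pos
  refine ⟨(I / 2) ^ 2, by positivity, fun w hw => pow_le_pow_left₀ (by positivity) ?_ 2⟩
  refine le_trans ?_ (Complex.re_le_norm _)
  have hint : Integrable fun v => testSchwartz v * expI (-(2 * π * v * w)) :=
    testSchwartz.integrable.mul_bdd (c := 1)
      (continuous_expI.comp (by fun_prop)).aestronglyMeasurable
      (Eventually.of_forall fun v => (norm_expI _).le)
  rw [fourier_schwartz_eq, ← RCLike.re_to_complex, ← integral_re hint, hI, div_eq_mul_one_div,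
    ← integral_mul_const]
  refine integral_mono (testBump.continuous.integrable_of_hasCompactSupport
    testBump.hasCompactSupport |>.mul_const _) hint.re fun v => ?_
  simp only [RCLike.re_to_complex, testSchwartz_apply, Complex.re_ofReal_mul, expI,
    Complex.exp_ofReal_mul_I_re]
  rcases le_or_gt (1 / 8) |v| with h | h
  · simp [testBump_eq_zero h]
  · refine mul_le_mul_of_nonneg_left ?_ testBump.nonneg
    have h1 := Real.one_sub_sq_div_two_le_cos (x := -(2 * π * v * w))
    have h2 : |2 * π * v * w| ≤ 1 := by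
      rw [abs_mul, abs_mul, abs_of_pos Real.two_pi_pos]
      have := mul_le_mul h.le hw (abs_nonneg _) (by norm_num)
      nlinarith [Real.pi_le_four, Real.pi_pos]
    have h3 : (2 * π * v * w) ^ 2 ≤ 1 := by
      rw [← sq_abs]; exact pow_le_one₀ (abs_nonneg _) h2
    linarith [neg_sq (2 * π * v * w)]

/-- **`φ` is the transform of `η`.** -/
theorem integral_phiFn_expI (y : ℝ) :
    ∫ x, (phiFn x : ℂ) * expI (2 * π * x * y) = (etaFn y : ℂ) := by
  obtain ⟨E, hE⟩ : ∃ E : 𝓢(ℝ, ℂ),
      E = SchwartzMap.convolution (mul ℂ ℂ) testSchwartz testSchwartz := ⟨_, rfl⟩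
  have h1 : ∀ x, (𝓕 E) x = (phiFn x : ℂ) := fun x => by
    rw [hE, SchwartzMap.fourier_convolution, SchwartzMap.pairing_apply_apply, mul_apply', phiFn,
      ← Complex.normSq_eq_norm_sq, ← Complex.mul_conj, conj_fourier_test]
  have h2 : (𝓕⁻ (𝓕 E)) y = E y := by rw [FourierTransform.fourierInv_fourier_eq]
  rw [fourierInv_schwartz_eq, hE, SchwartzMap.convolution_apply, convolution_def] at h2
  simp only [← hE, h1] at h2
  rw [h2, etaFn, ← integral_complex_ofReal]
  congr 1
  funext v
  rw [mul_apply', testSchwartz_apply, testSchwartz_apply]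
  push_cast
  rfl

theorem integrable_phiFn : Integrable phiFn := by
  obtain ⟨C, -, hC⟩ := (𝓕 testSchwartz).decay 0 0
  refine ((𝓕 testSchwartz).integrable.norm.const_mul C).mono'
    (((𝓕 testSchwartz).continuous.norm).pow 2).aestronglyMeasurable
    (Eventually.of_forall fun x => ?_)
  have := hC x
  rw [pow_zero, one_mul, norm_iteratedFDeriv_zero] at this
  rw [phiFn, Real.norm_eq_abs, abs_of_nonneg (sq_nonneg _), sq]
  exact mul_le_mul_of_nonneg_right this (norm_nonneg _)

/-- The transform at scale `G`. -/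
theorem integral_phiFn_window {G : ℝ} (hG : 0 < G) (c l : ℝ) :
    ∫ t, (phiFn ((t - c) / (2 * π * G)) : ℂ) * expI (l * t) =
      (2 * π * G : ℝ) * (etaFn (G * l) : ℂ) * expI (l * c) := by
  have hG' : 0 < 2 * π * G := by positivity
  obtain ⟨g, hg⟩ : ∃ g : ℝ → ℂ,
      g = fun x => (phiFn x : ℂ) * expI (2 * π * x * (G * l)) := ⟨_, rfl⟩
  have e : ∀ t, (phiFn ((t - c) / (2 * π * G)) : ℂ) * expI (l * t) =
      g ((t - c) / (2 * π * G)) * expI (l * c) := fun t => by
    simp only [hg]
    rw [mul_assoc (phiFn _ : ℂ), ← expI_add]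
    congr 2
    field_simp
    ring
  simp only [e]
  rw [integral_mul_const, integral_sub_right_eq_self (fun t => g (t / (2 * π * G))) c,
    Measure.integral_comp_div g (2 * π * G), hg, integral_phiFn_expI, abs_of_pos hG',
    Complex.real_smul]

/-- The smoothed partial sum of `ζ (1/2 + it)`. -/
def dirPoly (M : ℕ) (t : ℝ) : ℂ :=
  ∑ n ∈ Finset.Icc 1 (2 * M), ((cutW ((n : ℝ) / M) / √(n : ℝ) : ℝ) : ℂ) * expI (phase t n)

theorem continuous_dirPoly (M : ℕ) : Continuous (dirPoly M) := by
  unfold dirPoly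
  exact continuous_finset_sum _ fun n _ =>
    continuous_const.mul (continuous_expI.comp (by unfold phase; fun_prop))

theorem norm_dirPoly_le (M : ℕ) (t : ℝ) : ‖dirPoly M t‖ ≤ 2 * M := by
  refine (norm_sum_le _ _).trans ((Finset.sum_le_card_nsmul _ _ 1 fun n hn => ?_).trans
    (le_of_eq (by simp)))
  have hn1 : (1 : ℝ) ≤ √(n : ℝ) :=
    Real.one_le_sqrt.2 (Nat.one_le_cast.2 (Finset.mem_Icc.1 hn).1)
  rw [norm_mul, norm_expI, mul_one, Complex.norm_real, Real.norm_eq_abs, abs_div,
    abs_of_pos (a := √(n : ℝ)) (by linarith), div_le_one (by linarith)]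
  exact (abs_cutW_le_one _).trans hn1

/-- **The weighted mean square.** -/
theorem integral_dirPoly_sq {G : ℝ} (hG : 0 < G) (M : ℕ) (c : ℝ) :
    ((∫ t, ‖dirPoly M t‖ ^ 2 * phiFn ((t - c) / (2 * π * G)) : ℝ) : ℂ) =
      (2 * π * G : ℝ) * ∑ m ∈ Finset.Icc 1 (2 * M), ∑ n ∈ Finset.Icc 1 (2 * M),
        ((cutW ((m : ℝ) / M) / √(m : ℝ) * (cutW ((n : ℝ) / M) / √(n : ℝ)) *
            etaFn (G * (Real.log n - Real.log m)) : ℝ) : ℂ) *
          expI (c * (Real.log n - Real.log m)) := by
  obtain ⟨a, ha⟩ : ∃ a : ℕ → ℝ, a = fun n : ℕ => cutW ((n : ℝ) / M) / √(n : ℝ) := ⟨_, rfl⟩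
  have hint : ∀ l : ℝ, Integrable fun t =>
      (phiFn ((t - c) / (2 * π * G)) : ℂ) * expI (l * t) := fun l =>
    (((integrable_phiFn.comp_div (R := 2 * π * G) (by positivity)).comp_sub_right c).ofReal).mul_bdd
      (c := 1) (continuous_expI.comp (by fun_prop)).aestronglyMeasurable
      (Eventually.of_forall fun v => (norm_expI _).le)
  have e : ∀ t, ((‖dirPoly M t‖ ^ 2 * phiFn ((t - c) / (2 * π * G)) : ℝ) : ℂ) =
      ∑ m ∈ Finset.Icc 1 (2 * M), ∑ n ∈ Finset.Icc 1 (2 * M), ((a m * a n : ℝ) : ℂ) *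
        ((phiFn ((t - c) / (2 * π * G)) : ℂ) * expI ((Real.log n - Real.log m) * t)) := fun t => by
    rw [Complex.ofReal_mul, ← Complex.normSq_eq_norm_sq, ← Complex.mul_conj, dirPoly, map_sum,
      Finset.sum_mul_sum, Finset.sum_mul]
    refine Finset.sum_congr rfl fun m _ => ?_
    rw [Finset.sum_mul]
    refine Finset.sum_congr rfl fun n _ => ?_
    rw [map_mul, Complex.conj_ofReal, conj_expI, show (Real.log n - Real.log m) * t =
      phase t m + -phase t n by rw [phase, phase]; ring, expI_add]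
    simp only [ha]
    push_cast
    ring
  rw [← integral_complex_ofReal]
  simp only [e]
  rw [integral_finsetSum _ fun m _ => integrable_finsetSum _ fun n _ => (hint _).const_mul _,
    Finset.mul_sum]
  refine Finset.sum_congr rfl fun m _ => ?_
  rw [integral_finsetSum _ fun n _ => (hint _).const_mul _, Finset.mul_sum]
  refine Finset.sum_congr rfl fun n _ => ?_
  rw [integral_const_mul, integral_phiFn_window hG, mul_comm _ c]
  simp only [ha]
  push_cast
  ring

/-- The cut-off as a Schwartz function. -/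
def cutSchwartz : 𝓢(ℝ, ℂ) :=
  ((cutBump.hasCompactSupport.comp_left (g := ((↑) : ℝ → ℂ))
    Complex.ofReal_zero)).toSchwartzMap (Complex.ofRealCLM.contDiff.comp cutBump.contDiff)

/-- The reproducing kernel. -/
def kerFn : 𝓢(ℝ, ℂ) := 𝓕⁻ cutSchwartz

theorem integral_kerFn_expI {L : ℝ} (hL : 0 < L) {l : ℝ} (hl : |l| ≤ 2 * π * L) :
    ∫ v, ((L : ℂ) * kerFn (L * v)) * expI (-(l * v)) = 1 := by
  obtain ⟨g, hg⟩ : ∃ g : ℝ → ℂ,
      g = fun x => kerFn x * expI (-(2 * π * x * (l / (2 * π * L)))) := ⟨_, rfl⟩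
  have e : ∀ v, ((L : ℂ) * kerFn (L * v)) * expI (-(l * v)) = (L : ℂ) * g (L * v) := fun v => by
    simp only [hg, mul_assoc]
    congr 3
    field_simp
  simp only [e]
  rw [integral_const_mul, Measure.integral_comp_mul_left g L, hg, ← fourier_schwartz_eq, kerFn,
    FourierTransform.fourier_fourierInv_eq, Complex.real_smul, abs_inv, abs_of_pos hL,
    show cutSchwartz (l / (2 * π * L)) = (cutW (l / (2 * π * L)) : ℂ) from rfl,
    cutW_eq_one (by rw [abs_div, abs_of_pos (by positivity : 0 < 2 * π * L),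
      div_le_one (by positivity)]; exact hl)]
  have : (L : ℂ) ≠ 0 := Complex.ofReal_ne_zero.2 hL.ne'
  push_cast
  field_simp

theorem exists_kerFn_decay (N : ℕ) :
    ∃ C, 0 ≤ C ∧ ∀ x, ‖kerFn x‖ ≤ C / (1 + |x|) ^ N := by
  refine ⟨2 ^ (N, 0).1 * (Finset.Iic (N, 0)).sup (fun m => SchwartzMap.seminorm ℂ m.1 m.2) kerFn,
    by positivity, fun x => ?_⟩
  have h := SchwartzMap.one_add_le_sup_seminorm_apply (𝕜 := ℂ) (m := (N, 0)) (k := N) (n := 0)
    le_rfl le_rfl kerFn x
  rw [norm_iteratedFDeriv_zero, Real.norm_eq_abs] at h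
  rw [le_div_iff₀ (by positivity), mul_comm]
  exact h

/-- Points spaced by `1`. -/
theorem exists_sum_spaced_le : ∃ C, 0 ≤ C ∧ ∀ (P : Finset ℝ) (x : ℝ),
    (∀ s ∈ P, ∀ t ∈ P, s ≠ t → 1 ≤ |s - t|) → ∑ t ∈ P, 1 / (1 + (x - t) ^ 2) ≤ C := by
  obtain ⟨F, hF⟩ : ∃ F : ℤ → ℝ, F = fun j : ℤ => 1 / (1 + (j : ℝ) ^ 2) := ⟨_, rfl⟩
  have hs : Summable F := by
    refine Summable.of_nonneg_of_le (fun j => by simp only [hF]; positivity) (fun j => ?_)
      ((Real.summable_abs_int_rpow one_lt_two).add (hasSum_ite_eq (0 : ℤ) (1 : ℝ)).summable)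
    simp only [hF]
    rcases eq_or_ne j 0 with rfl | hj
    · rw [if_pos rfl, Int.cast_zero]
      have : 0 ≤ |(0 : ℝ)| ^ (-2 : ℝ) := Real.rpow_nonneg (abs_nonneg _) _
      norm_num
    · rw [if_neg hj, add_zero, Real.rpow_neg (abs_nonneg _), Real.rpow_two, sq_abs, one_div]
      have : (j : ℝ) ≠ 0 := Int.cast_ne_zero.2 hj
      exact inv_anti₀ (by positivity) (by linarith)
  refine ⟨5 * ∑' j, F j, mul_nonneg (by norm_num) (tsum_nonneg fun j => by
    simp only [hF]; positivity), fun P x hP => ?_⟩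
  have hinj : Set.InjOn (fun t : ℝ => ⌊t - x⌋) P := fun s hs' t ht h => by
    by_contra hne
    have h1 := hP s hs' t ht hne
    have h2 := Int.abs_sub_lt_one_of_floor_eq_floor h
    rw [show s - x - (t - x) = s - t by ring] at h2
    linarith
  refine (Finset.sum_le_sum (g := fun t => 5 * F ⌊t - x⌋) fun t _ => ?_).trans ?_
  · obtain ⟨d, hd⟩ : ∃ d, d = t - x := ⟨_, rfl⟩
    have h1 := Int.floor_le d
    have h2 := Int.lt_floor_add_one d
    simp only [hF]
    rw [show (x - t) ^ 2 = d ^ 2 by rw [hd]; ring, ← hd, mul_one_div,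
      div_le_div_iff₀ (by positivity) (by positivity)]
    nlinarith [sq_nonneg (2 * d - ((⌊d⌋ : ℤ) : ℝ))]
  · rw [← Finset.mul_sum, ← Finset.sum_image hinj]
    exact mul_le_mul_of_nonneg_left
      (hs.sum_le_tsum _ fun j _ => by simp only [hF]; positivity) (by norm_num)

/-- **Values at separated points through a window.** -/
theorem exists_sum_sq_le_window : ∃ C, 0 ≤ C ∧ ∀ (M : ℕ) (L G c : ℝ) (P : Finset ℝ),
    1 ≤ L → Real.log (2 * M) ≤ L → 1 ≤ G → (∀ s ∈ P, ∀ t ∈ P, s ≠ t → 1 ≤ |s - t|) →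
    (∀ t ∈ P, |t - c| ≤ G) → ∑ t ∈ P, ‖dirPoly M t‖ ^ 2 ≤
      C * L * (∫ x, ‖dirPoly M x‖ ^ 2 * phiFn ((x - c) / (2 * π * G))) +
        C * P.card * (M : ℝ) ^ 2 / G ^ 14 := by
  obtain ⟨c0, hc0, hphi⟩ := exists_phiFn_pos
  obtain ⟨C2, hC2, h2⟩ := exists_kerFn_decay 2
  obtain ⟨C16, hC16, h16⟩ := exists_kerFn_decay 16
  obtain ⟨Cs, hCs, hsum⟩ := exists_sum_spaced_le
  obtain ⟨B, hB⟩ : ∃ B, B = ∫ v, ‖kerFn v‖ := ⟨_, rfl⟩
  have hB0 : 0 ≤ B := hB ▸ integral_nonneg fun v => norm_nonneg _
  refine ⟨B * (C2 * Cs / c0) + B * (C16 * (4 * π)), by positivity,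
    fun M L G c P hL hML hG hsep hP => ?_⟩
  have hL0 : 0 < L := by linarith
  have hG0 : 0 < G := by linarith
  obtain ⟨D, hD⟩ : ∃ D, D = dirPoly M := ⟨_, rfl⟩
  obtain ⟨k, hk⟩ : ∃ k : ℝ → ℝ, k = fun v => L * ‖kerFn (L * v)‖ := ⟨_, rfl⟩
  have hk0 : ∀ v, 0 ≤ k v := fun v => by simp only [hk]; positivity
  have hki : Integrable k := hk ▸ (kerFn.integrable.norm.comp_mul_left' hL0.ne').const_mul L
  have hDk : ∀ t, Integrable fun x => ‖D x‖ ^ 2 * k (x - t) := fun t =>
    (hki.comp_sub_right t).bdd_mul (c := (2 * (M : ℝ)) ^ 2)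
      ((hD ▸ continuous_dirPoly M).norm.pow 2).aestronglyMeasurable
      (Eventually.of_forall fun x => by
        rw [Real.norm_eq_abs, abs_pow, abs_norm, hD]
        exact pow_le_pow_left₀ (norm_nonneg _) (norm_dirPoly_le M x) 2)
  have hkint : ∫ v, k v = B := by
    simp only [hk]
    rw [integral_const_mul, Measure.integral_comp_mul_left (fun v => ‖kerFn v‖) L, ← hB,
      smul_eq_mul, abs_inv, abs_of_pos hL0, ← mul_assoc, mul_inv_cancel₀ hL0.ne', one_mul]
  -- one point
  have hone : ∀ t, ‖D t‖ ^ 2 ≤ B * ∫ x, ‖D x‖ ^ 2 * k (x - t) := by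
    intro t
    have hrep : ∫ x, D x * ((L : ℂ) * kerFn (L * (x - t))) = D t := by
      have hint : ∀ l : ℝ, Integrable fun x =>
          ((L : ℂ) * kerFn (L * (x - t))) * expI (-(l * (x - t))) := fun l =>
        (((kerFn.integrable.comp_mul_left' hL0.ne').comp_sub_right t).const_mul (L : ℂ)).mul_bdd
          (c := 1) (continuous_expI.comp (by fun_prop)).aestronglyMeasurable
          (Eventually.of_forall fun v => (norm_expI _).le)
      have e : ∀ x, D x * ((L : ℂ) * kerFn (L * (x - t))) = ∑ n ∈ Finset.Icc 1 (2 * M),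
          ((cutW ((n : ℝ) / M) / √(n : ℝ) : ℝ) : ℂ) * expI (phase t n) *
            (((L : ℂ) * kerFn (L * (x - t))) * expI (-(Real.log n * (x - t)))) := fun x => by
        rw [hD, dirPoly, Finset.sum_mul]
        refine Finset.sum_congr rfl fun n _ => ?_
        rw [show phase x n = phase t n + -(Real.log n * (x - t)) by rw [phase, phase]; ring,
          expI_add]
        ring
      simp only [e]
      rw [integral_finsetSum _ fun n _ => (hint _).const_mul _, hD, dirPoly]
      refine Finset.sum_congr rfl fun n hn => ?_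
      rw [integral_const_mul, integral_sub_right_eq_self
        (fun v => ((L : ℂ) * kerFn (L * v)) * expI (-(Real.log n * v))) t,
        integral_kerFn_expI hL0, mul_one]
      obtain ⟨h1, hn2⟩ := Finset.mem_Icc.1 hn
      rw [abs_of_nonneg (Real.log_nonneg (Nat.one_le_cast.2 h1))]
      refine le_trans ((Real.log_le_log (by positivity) (?_ : (n : ℝ) ≤ 2 * M)).trans hML) ?_
      · exact_mod_cast hn2
      · nlinarith [Real.pi_gt_three]
    have hI1 : Integrable fun x => ‖D x‖ * k (x - t) :=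
      (hki.comp_sub_right t).bdd_mul (c := 2 * (M : ℝ))
        (hD ▸ continuous_dirPoly M).norm.aestronglyMeasurable
        (Eventually.of_forall fun x => by rw [norm_norm, hD]; exact norm_dirPoly_le M x)
    obtain ⟨I1, hI1'⟩ : ∃ I1, I1 = ∫ x, ‖D x‖ * k (x - t) := ⟨_, rfl⟩
    obtain ⟨I2, hI2'⟩ : ∃ I2, I2 = ∫ x, ‖D x‖ ^ 2 * k (x - t) := ⟨_, rfl⟩
    have hle : ‖D t‖ ≤ I1 := by
      rw [hI1', ← hrep]
      refine (norm_integral_le_integral_norm _).trans (le_of_eq ?_)
      congr 1
      funext x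
      simp only [hk, norm_mul, Complex.norm_real, Real.norm_of_nonneg hL0.le]
    have hI10 : 0 ≤ I1 := (norm_nonneg _).trans hle
    have hcs : I1 ^ 2 ≤ B * I2 := by
      have key : ∀ A : ℝ, 2 * A * I1 ≤ I2 + A ^ 2 * B := fun A => by
        rw [hI1', hI2', ← hkint, ← integral_sub_right_eq_self k t, ← integral_const_mul,
          ← integral_const_mul, ← integral_add (hDk t) ((hki.comp_sub_right t).const_mul _)]
        refine integral_mono (hI1.const_mul _) ((hDk t).add ((hki.comp_sub_right t).const_mul _))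
          fun x => ?_
        nlinarith [mul_nonneg (sq_nonneg (‖D x‖ - A)) (hk0 (x - t))]
      rcases hB0.eq_or_lt with hb | hb
      · have := key ((I2 + 1) / 2)
        have h0 := key 0
        rw [← hb] at this h0 ⊢
        have hI2 : 0 ≤ I2 := by linarith
        have := key ((I2 + 1) / (2 * I1))
        rw [← hb] at this
        rcases hI10.eq_or_lt with h | h
        · rw [← h]; simp
        · rw [show 2 * ((I2 + 1) / (2 * I1)) * I1 = I2 + 1 by field_simp] at this
          linarith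
      · have := key (I1 / B)
        rw [div_pow, show I1 ^ 2 / B ^ 2 * B = I1 * (I1 / B) by field_simp] at this
        have h3 : I1 * (I1 / B) ≤ I2 := by linarith
        rw [mul_div_assoc', div_le_iff₀ hb] at h3
        linarith
    calc ‖D t‖ ^ 2 ≤ I1 ^ 2 := pow_le_pow_left₀ (norm_nonneg _) hle 2
      _ ≤ B * I2 := hcs
      _ = _ := by rw [hI2']
  -- the kernels together
  have hint2 : Integrable fun x => C2 * Cs / c0 * L * (‖D x‖ ^ 2 * phiFn ((x - c) / (2 * π * G))) +
      C16 * (2 * (M : ℝ)) ^ 2 / G ^ 14 * ∑ t ∈ P, 1 / (1 + (x - t) ^ 2) := by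
    refine (Integrable.const_mul ?_ _).add ((integrable_finsetSum _ fun t _ => ?_).const_mul _)
    · exact ((integrable_phiFn.comp_div (R := 2 * π * G) (by positivity)).comp_sub_right c).bdd_mul
        (c := (2 * (M : ℝ)) ^ 2) ((hD ▸ continuous_dirPoly M).norm.pow 2).aestronglyMeasurable
        (Eventually.of_forall fun x => by
          rw [Real.norm_eq_abs, abs_pow, abs_norm, hD]
          exact pow_le_pow_left₀ (norm_nonneg _) (norm_dirPoly_le M x) 2)
    · simpa [one_div] using (integrable_inv_one_add_sq.comp_sub_right t)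
  have hpt : ∀ x, ∑ t ∈ P, ‖D x‖ ^ 2 * k (x - t) ≤
      C2 * Cs / c0 * L * (‖D x‖ ^ 2 * phiFn ((x - c) / (2 * π * G))) +
        C16 * (2 * (M : ℝ)) ^ 2 / G ^ 14 * ∑ t ∈ P, 1 / (1 + (x - t) ^ 2) := by
    intro x
    have hS0 : 0 ≤ ∑ t ∈ P, 1 / (1 + (x - t) ^ 2) := Finset.sum_nonneg fun t _ => by positivity
    have hP0 := phiFn_nonneg ((x - c) / (2 * π * G))
    have hsq : ∀ y : ℝ, 1 + y ^ 2 ≤ (1 + |L * y|) ^ 2 := fun y => by
      rw [abs_mul, abs_of_pos hL0, ← sq_abs y]
      have := le_mul_of_one_le_left (abs_nonneg y) hL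
      nlinarith [abs_nonneg y]
    rcases le_or_gt |x - c| (2 * π * G) with hx | hx
    · refine le_trans ?_ (le_add_of_nonneg_right (by positivity))
      have hw := hphi ((x - c) / (2 * π * G)) (by
        rw [abs_div, abs_of_pos (by positivity : 0 < 2 * π * G), div_le_one (by positivity)]
        exact hx)
      rw [← Finset.mul_sum]
      have h3 : ∑ t ∈ P, k (x - t) ≤ C2 * Cs * L := by
        calc ∑ t ∈ P, k (x - t) ≤ ∑ t ∈ P, L * (C2 * (1 / (1 + (x - t) ^ 2))) :=
              Finset.sum_le_sum fun t _ => by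
                simp only [hk]
                refine mul_le_mul_of_nonneg_left ((h2 _).trans ?_) hL0.le
                rw [mul_one_div]
                exact div_le_div_of_nonneg_left hC2 (by positivity) (hsq _)
          _ ≤ _ := by
              rw [← Finset.mul_sum, ← Finset.mul_sum]
              calc L * (C2 * _) ≤ L * (C2 * Cs) := by gcongr; exact hsum P x hsep
                _ = _ := by ring
      calc ‖D x‖ ^ 2 * ∑ t ∈ P, k (x - t) ≤ ‖D x‖ ^ 2 * (C2 * Cs * L) := by gcongr
        _ = C2 * Cs / c0 * L * (‖D x‖ ^ 2 * c0) := by field_simp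
        _ ≤ _ := by gcongr
    · refine le_trans ?_ (le_add_of_nonneg_left (by positivity))
      rw [Finset.mul_sum]
      refine Finset.sum_le_sum fun t ht => ?_
      have hd : G ≤ |x - t| := by
        have := abs_sub_le x t c
        nlinarith [hP t ht, Real.pi_gt_three]
      have hk16 : k (x - t) ≤ C16 / G ^ 14 * (1 / (1 + (x - t) ^ 2)) := by
        obtain ⟨y, hy⟩ : ∃ y, y = x - t := ⟨_, rfl⟩
        rw [← hy] at hd ⊢
        simp only [hk]
        refine (mul_le_mul_of_nonneg_left (h16 _) hL0.le).trans ?_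
        rw [mul_one_div, div_div, mul_div_assoc', div_le_div_iff₀ (by positivity) (by positivity)]
        have h4 : (L * G) ^ 14 ≤ (1 + |L * y|) ^ 14 := by
          refine pow_le_pow_left₀ (by positivity) ?_ 14
          rw [abs_mul, abs_of_pos hL0]
          nlinarith [mul_le_mul_of_nonneg_left hd hL0.le]
        have h5 : L * G ^ 14 ≤ (L * G) ^ 14 := by
          rw [mul_pow]
          exact mul_le_mul_of_nonneg_right (le_self_pow₀ hL (by norm_num)) (by positivity)
        have h6 := mul_le_mul (h5.trans h4) (hsq y) (by positivity) (by positivity)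
        rw [← pow_add] at h6
        calc L * C16 * (G ^ 14 * (1 + y ^ 2)) = C16 * (L * G ^ 14 * (1 + y ^ 2)) := by ring
          _ ≤ _ := mul_le_mul_of_nonneg_left h6 hC16
      calc ‖D x‖ ^ 2 * k (x - t) ≤ (2 * (M : ℝ)) ^ 2 * (C16 / G ^ 14 * (1 / (1 + (x - t) ^ 2))) :=
            mul_le_mul (pow_le_pow_left₀ (norm_nonneg _) (hD ▸ norm_dirPoly_le M x) 2) hk16
              (hk0 _) (by positivity)
        _ = _ := by ring
  calc ∑ t ∈ P, ‖dirPoly M t‖ ^ 2 ≤ ∑ t ∈ P, B * ∫ x, ‖D x‖ ^ 2 * k (x - t) :=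
        Finset.sum_le_sum fun t _ => by rw [← hD]; exact hone t
    _ = B * ∫ x, ∑ t ∈ P, ‖D x‖ ^ 2 * k (x - t) := by
        rw [integral_finsetSum _ fun t _ => hDk t, Finset.mul_sum]
    _ ≤ B * ∫ x, (C2 * Cs / c0 * L * (‖D x‖ ^ 2 * phiFn ((x - c) / (2 * π * G))) +
          C16 * (2 * (M : ℝ)) ^ 2 / G ^ 14 * ∑ t ∈ P, 1 / (1 + (x - t) ^ 2)) :=
        mul_le_mul_of_nonneg_left (integral_mono (integrable_finsetSum _ fun t _ => hDk t) hint2
          hpt) hB0
    _ ≤ _ := by
        have hQ : ∀ t : ℝ, Integrable fun x => 1 / (1 + (x - t) ^ 2) := fun t => by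
          simpa [one_div] using (integrable_inv_one_add_sq.comp_sub_right t)
        rw [integral_add _ ((integrable_finsetSum _ fun t _ => hQ t).const_mul _),
          integral_const_mul, integral_const_mul, integral_finsetSum _ fun t _ => hQ t]
        · have hpi : ∀ t ∈ P, ∫ x, 1 / (1 + (x - t) ^ 2) = π := fun t _ => by
            rw [integral_sub_right_eq_self (fun x : ℝ => 1 / (1 + x ^ 2)) t]
            simp only [one_div]
            exact integral_univ_inv_one_add_sq
          rw [Finset.sum_congr rfl hpi, Finset.sum_const, nsmul_eq_mul, hD]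
          obtain ⟨J, hJ⟩ : ∃ J, J = ∫ x, ‖dirPoly M x‖ ^ 2 * phiFn ((x - c) / (2 * π * G)) :=
            ⟨_, rfl⟩
          have hJ0 : 0 ≤ J := hJ ▸ integral_nonneg fun x => mul_nonneg (sq_nonneg _) (phiFn_nonneg _)
          rw [← hJ]
          have e : (B * (C2 * Cs / c0) + B * (C16 * (4 * π))) * L * J +
              (B * (C2 * Cs / c0) + B * (C16 * (4 * π))) * P.card * (M : ℝ) ^ 2 / G ^ 14 =
              B * (C2 * Cs / c0 * L * J + C16 * (2 * (M : ℝ)) ^ 2 / G ^ 14 * (P.card * π)) +
              (B * (C16 * (4 * π)) * (L * J) +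
                B * (C2 * Cs / c0) * ((P.card : ℝ) * (M : ℝ) ^ 2 / G ^ 14)) := by ring
          have : 0 ≤ B * (C16 * (4 * π)) * (L * J) := by positivity
          have : 0 ≤ B * (C2 * Cs / c0) * ((P.card : ℝ) * (M : ℝ) ^ 2 / G ^ 14) := by positivity
          linarith
        · refine Integrable.const_mul ?_ _
          exact ((integrable_phiFn.comp_div (R := 2 * π * G) (by positivity)).comp_sub_right
            c).bdd_mul (c := (2 * (M : ℝ)) ^ 2)
            ((hD ▸ continuous_dirPoly M).norm.pow 2).aestronglyMeasurable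
            (Eventually.of_forall fun x => by
              rw [Real.norm_eq_abs, abs_pow, abs_norm, hD]
              exact pow_le_pow_left₀ (norm_nonneg _) (norm_dirPoly_le M x) 2)

end FA.TwelfthMoment

end
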